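import Mathlib

/-!
Elementary symmetric functions of a finite family in a commutative ring:
characteristic polynomial relation, Lagrange interpolation identity, derivative identity.
-/

set_option autoImplicit false
set_option linter.unusedSectionVars false

open Finset Polynomial

namespace Fermat.Agent.S23

variable {R : Type*} [CommRing R] {ι : Type*} [Fintype ι] [DecidableEq ι]

/-- `j`-th elementary symmetric function of a finite family -/
noncomputable def esym (a : ι → R) (j : ℕ) : R := (Finset.univ.val.map a).esymm j

/-- `i`-th elementary symmetric function of the family with the index `q` removed -/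
noncomputable def esymErase (a : ι → R) (q : ι) (i : ℕ) : R :=
  ((Finset.univ.erase q).val.map a).esymm i

theorem esym_eq_sum (a : ι → R) (j : ℕ) :
    esym a j = ∑ t ∈ (Finset.univ : Finset ι).powersetCard j, ∏ i ∈ t, a i :=
  Finset.esymm_map_val a _ j

theorem esymErase_eq_sum (a : ι → R) (q : ι) (j : ℕ) :
    esymErase a q j = ∑ t ∈ ((Finset.univ : Finset ι).erase q).powersetCard j, ∏ i ∈ t, a i :=
  Finset.esymm_map_val a _ j

theorem esym_reindex (a : ι → R) (e : ι ≃ ι) (j : ℕ) : esym (fun q => a (e q)) j = esym a j := by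
  unfold esym
  congr 1
  have h : (Finset.univ : Finset ι).val.map (fun q => a (e q))
      = ((Finset.univ : Finset ι).val.map e).map a := by
    rw [Multiset.map_map]; rfl
  rw [h]
  congr 1
  have h2 : ((Finset.univ : Finset ι).map e.toEmbedding).val = (Finset.univ : Finset ι).val.map e :=
    Finset.map_val _ _
  rw [← h2, Finset.map_univ_equiv]

theorem esym_smul (c : R) (a : ι → R) (j : ℕ) :
    esym (fun q => c * a q) j = c ^ j * esym a j := by
  unfold esym
  have h := Multiset.pow_smul_esymm c j ((Finset.univ : Finset ι).val.map a)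
  rw [Multiset.map_map] at h
  simpa [smul_eq_mul, Function.comp_def] using h.symm

theorem esymErase_reindex (a : ι → R) (e : ι ≃ ι) (q : ι) (j : ℕ) :
    esymErase (fun q => a (e q)) q j = esymErase a (e q) j := by
  unfold esymErase
  congr 1
  have h : ((Finset.univ : Finset ι).erase q).val.map (fun q => a (e q))
      = (((Finset.univ : Finset ι).erase q).val.map e).map a := by
    rw [Multiset.map_map]; rfl
  rw [h]
  congr 1
  have h2 : (((Finset.univ : Finset ι).erase q).map e.toEmbedding).val
      = ((Finset.univ : Finset ι).erase q).val.map e :=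
    Finset.map_val _ _
  rw [← h2, Finset.map_erase, Finset.map_univ_equiv]
  rfl

theorem esymErase_smul (c : R) (a : ι → R) (q : ι) (j : ℕ) :
    esymErase (fun q => c * a q) q j = c ^ j * esymErase a q j := by
  unfold esymErase
  have h := Multiset.pow_smul_esymm c j (((Finset.univ : Finset ι).erase q).val.map a)
  rw [Multiset.map_map] at h
  simpa [smul_eq_mul, Function.comp_def] using h.symm

theorem prod_X_sub_C_eq (a : ι → R) (s : Finset ι) :
    ∏ q ∈ s, (X - C (a q)) = ∑ j ∈ Finset.range (#s + 1),
      (-1) ^ j * (C ((s.val.map a).esymm j) * X ^ (#s - j)) := by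
  have h := Multiset.prod_X_sub_X_eq_sum_esymm (s.val.map a)
  rw [Multiset.map_map, Multiset.card_map] at h
  exact h

/-- the characteristic polynomial of the family vanishes at each member -/
theorem charpoly_eval (a : ι → R) (q0 : ι) :
    ∑ j ∈ Finset.range (Fintype.card ι + 1),
      (-1) ^ j * esym a j * (a q0) ^ (Fintype.card ι - j) = 0 := by
  have h := congrArg (Polynomial.eval (a q0)) (prod_X_sub_C_eq a (Finset.univ : Finset ι))
  rw [Polynomial.eval_prod, Finset.prod_eq_zero (Finset.mem_univ q0) (by simp),
    Polynomial.eval_finsetSum] at h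
  rw [h]
  refine Finset.sum_congr rfl fun j _ => ?_
  simp [esym, Finset.card_univ, mul_assoc]

/-- Lagrange interpolation identity -/
theorem interp_eval (a b : ι → R) (q0 : ι) :
    ∑ i ∈ Finset.range (Fintype.card ι),
      ((-1) ^ i * ∑ q, b q * esymErase a q i) * (a q0) ^ (Fintype.card ι - 1 - i)
      = b q0 * ∏ q ∈ Finset.univ.erase q0, (a q0 - a q) := by
  have hcard : ∀ q : ι, #((Finset.univ : Finset ι).erase q) + 1 = Fintype.card ι := by
    intro q
    rw [Finset.card_erase_of_mem (Finset.mem_univ q), Finset.card_univ]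
    exact Nat.sub_add_cancel (Fintype.card_pos_iff.mpr ⟨q⟩)
  have hcard' : ∀ q : ι, #((Finset.univ : Finset ι).erase q) = Fintype.card ι - 1 := by
    intro q
    rw [Finset.card_erase_of_mem (Finset.mem_univ q), Finset.card_univ]
  have key : ∀ q : ι, ∏ q' ∈ Finset.univ.erase q, (a q0 - a q')
      = ∑ i ∈ Finset.range (Fintype.card ι),
          (-1) ^ i * esymErase a q i * (a q0) ^ (Fintype.card ι - 1 - i) := by
    intro q
    have h := congrArg (Polynomial.eval (a q0))
      (prod_X_sub_C_eq a ((Finset.univ : Finset ι).erase q))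
    rw [Polynomial.eval_prod, Polynomial.eval_finsetSum, hcard q, hcard' q] at h
    simp only [Polynomial.eval_sub, Polynomial.eval_X, Polynomial.eval_C] at h
    rw [h]
    refine Finset.sum_congr rfl fun j _ => ?_
    simp [esymErase, mul_assoc]
  have h1 : ∑ q, b q * ∏ q' ∈ Finset.univ.erase q, (a q0 - a q')
      = b q0 * ∏ q ∈ Finset.univ.erase q0, (a q0 - a q) := by
    rw [Finset.sum_eq_single q0]
    · intro q _ hq
      have : q0 ∈ (Finset.univ : Finset ι).erase q := Finset.mem_erase.mpr ⟨Ne.symm hq, Finset.mem_univ _⟩
      rw [Finset.prod_eq_zero this (by simp), mul_zero]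
    · intro h; exact absurd (Finset.mem_univ q0) h
  rw [← h1]
  simp_rw [key, Finset.mul_sum, Finset.sum_mul]
  rw [Finset.sum_comm]
  refine Finset.sum_congr rfl fun q _ => Finset.sum_congr rfl fun i _ => ?_
  ring

/-- the derivative of the characteristic polynomial at a member of the family -/
theorem deriv_eval (a : ι → R) (q0 : ι) :
    ∏ q ∈ Finset.univ.erase q0, (a q0 - a q)
      = ∑ j ∈ Finset.range (Fintype.card ι),
          (-1) ^ j * ((Fintype.card ι - j : ℕ) : R) * esym a j
            * (a q0) ^ (Fintype.card ι - 1 - j) := by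
  set n := Fintype.card ι with hn
  have hP := prod_X_sub_C_eq a (Finset.univ : Finset ι)
  rw [Finset.card_univ, ← hn] at hP
  have hsplit : ∏ q ∈ (Finset.univ : Finset ι), (X - C (a q))
      = (X - C (a q0)) * ∏ q ∈ Finset.univ.erase q0, (X - C (a q)) :=
    (Finset.mul_prod_erase _ _ (Finset.mem_univ q0)).symm
  have hd := congrArg (fun p : R[X] => Polynomial.eval (a q0) (Polynomial.derivative p)) hP
  beta_reduce at hd
  rw [hsplit, Polynomial.derivative_mul] at hd
  simp only [Polynomial.derivative_sub, Polynomial.derivative_X, Polynomial.derivative_C,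
    sub_zero, one_mul, Polynomial.eval_add, Polynomial.eval_mul, Polynomial.eval_sub,
    Polynomial.eval_X, Polynomial.eval_C, sub_self, zero_mul, add_zero,
    Polynomial.eval_prod] at hd
  rw [hd, Polynomial.derivative_sum, Polynomial.eval_finsetSum, Finset.sum_range_succ]
  have hlast : Polynomial.eval (a q0) (Polynomial.derivative
      ((-1) ^ n * (C ((Finset.univ.val.map a).esymm n) * X ^ (n - n)))) = 0 := by
    have e0 : (-1 : R[X]) ^ n = C ((-1 : R) ^ n) := by simp
    rw [e0, Nat.sub_self, pow_zero, mul_one, ← C_mul, Polynomial.derivative_C,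
      Polynomial.eval_zero]
  rw [hlast, add_zero]
  refine Finset.sum_congr rfl fun j hj => ?_
  have hjn : j < n := Finset.mem_range.mp hj
  have e1 : (-1 : R[X]) ^ j = C ((-1 : R) ^ j) := by simp
  rw [e1, ← mul_assoc, ← C_mul, Polynomial.derivative_C_mul_X_pow]
  simp only [Polynomial.eval_mul, Polynomial.eval_C, Polynomial.eval_pow, Polynomial.eval_X,
    esym]
  have e2 : n - j - 1 = n - 1 - j := by omega
  rw [e2]
  push_cast
  ring

end Fermat.Agent.S23
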