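import Mathlib
import Fermat.Agent.S23.Vieta

/-!
Symmetric functions of the conjugates of a modular form on a finite index subgroup of
`SL(2, ℤ)`: they are modular forms of level one.  This gives a monic polynomial equation
with level one coefficients for a cusp form on `Gamma0 N`, and a Lagrange interpolation
formula expressing it through a primitive element.
-/

set_option autoImplicit false

open UpperHalfPlane ModularForm Filter
open scoped MatrixGroups Manifold

namespace Fermat.Agent.S23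

namespace SymAux

section Conj

variable (Γ : Subgroup SL(2, ℤ))

/-- the translate of `F` attached to a coset of `Γ` -/
noncomputable def conjFun (F : ℍ → ℂ) (k : ℤ) (q : SL(2, ℤ) ⧸ Γ) : ℍ → ℂ :=
  F ∣[k] (q.out)⁻¹

variable {Γ}

theorem conjFun_mk {F : ℍ → ℂ} {k : ℤ} (hF : ∀ γ ∈ Γ, F ∣[k] γ = F) (g : SL(2, ℤ)) :
    conjFun Γ F k (QuotientGroup.mk g) = F ∣[k] g⁻¹ := by
  obtain ⟨h, hh⟩ := QuotientGroup.mk_out_eq_mul Γ g
  unfold conjFun
  rw [hh, mul_inv_rev, SlashAction.slash_mul, hF _ (inv_mem h.2)]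

theorem conjFun_one {F : ℍ → ℂ} {k : ℤ} (hF : ∀ γ ∈ Γ, F ∣[k] γ = F) :
    conjFun Γ F k (QuotientGroup.mk 1) = F := by
  rw [conjFun_mk hF, inv_one, SlashAction.slash_one]

theorem conjFun_slash {F : ℍ → ℂ} {k : ℤ} (hF : ∀ γ ∈ Γ, F ∣[k] γ = F) (γ : SL(2, ℤ))
    (q : SL(2, ℤ) ⧸ Γ) :
    conjFun Γ F k q ∣[k] γ = conjFun Γ F k (MulAction.toPerm γ⁻¹ q) := by
  induction q using QuotientGroup.induction_on with
  | H g =>
    have h : MulAction.toPerm γ⁻¹ (QuotientGroup.mk g : SL(2, ℤ) ⧸ Γ)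
        = QuotientGroup.mk (γ⁻¹ * g) := rfl
    rw [h, conjFun_mk hF, conjFun_mk hF, mul_inv_rev, inv_inv, SlashAction.slash_mul]

end Conj

section Slash

theorem prod_slash_SL {ι : Type*} (t : Finset ι) (a : ι → ℍ → ℂ) (k : ℤ) (γ : SL(2, ℤ)) :
    (∏ i ∈ t, a i) ∣[(t.card : ℤ) * k] γ = ∏ i ∈ t, (a i ∣[k] γ) := by
  classical
  induction t using Finset.induction_on with
  | empty =>
    rw [Finset.prod_empty, Finset.prod_empty, Finset.card_empty, Nat.cast_zero, zero_mul]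
    exact is_invariant_one γ
  | insert i t hi ih =>
    rw [Finset.prod_insert hi, Finset.prod_insert hi, Finset.card_insert_of_notMem hi]
    have h : ((t.card + 1 : ℕ) : ℤ) * k = k + (t.card : ℤ) * k := by push_cast; ring
    rw [h, mul_slash_SL2, ih]

variable {ι : Type*} [Fintype ι] [DecidableEq ι]

theorem esym_slash (a : ι → ℍ → ℂ) (k : ℤ) (j : ℕ) (γ : SL(2, ℤ)) :
    (esym a j) ∣[(j : ℤ) * k] γ = esym (fun q => a q ∣[k] γ) j := by
  rw [esym_eq_sum, esym_eq_sum, SlashAction.sum_slash]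
  refine Finset.sum_congr rfl fun t ht => ?_
  rw [← (Finset.mem_powersetCard.mp ht).2, prod_slash_SL]

theorem esymErase_slash (a : ι → ℍ → ℂ) (k : ℤ) (q : ι) (j : ℕ) (γ : SL(2, ℤ)) :
    (esymErase a q j) ∣[(j : ℤ) * k] γ = esymErase (fun q => a q ∣[k] γ) q j := by
  rw [esymErase_eq_sum, esymErase_eq_sum, SlashAction.sum_slash]
  refine Finset.sum_congr rfl fun t ht => ?_
  rw [← (Finset.mem_powersetCard.mp ht).2, prod_slash_SL]

theorem mdiff_finsetSum {κ : Type*} (s : Finset κ) {F : κ → ℍ → ℂ}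
    (h : ∀ i ∈ s, MDiff (F i)) : MDiff (∑ i ∈ s, F i) := by
  classical
  induction s using Finset.induction_on with
  | empty =>
    rw [Finset.sum_empty]
    exact fun _ => mdifferentiableAt_const
  | insert i t hi ih =>
    rw [Finset.sum_insert hi]
    exact (h i (Finset.mem_insert_self i t)).add
      (ih fun j hj => h j (Finset.mem_insert_of_mem hj))

theorem mdiff_finsetProd {κ : Type*} (s : Finset κ) {F : κ → ℍ → ℂ}
    (h : ∀ i ∈ s, MDiff (F i)) : MDiff (∏ i ∈ s, F i) := by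
  classical
  induction s using Finset.induction_on with
  | empty =>
    rw [Finset.prod_empty]
    exact fun _ => mdifferentiableAt_const
  | insert i t hi ih =>
    rw [Finset.prod_insert hi]
    exact (h i (Finset.mem_insert_self i t)).mul
      (ih fun j hj => h j (Finset.mem_insert_of_mem hj))

theorem mdiff_esym (a : ι → ℍ → ℂ) (ha : ∀ q, MDiff (a q)) (j : ℕ) : MDiff (esym a j) := by
  rw [esym_eq_sum]
  refine mdiff_finsetSum _ fun t _ => ?_
  exact mdiff_finsetProd _ fun i _ => ha i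

theorem mdiff_esymErase (a : ι → ℍ → ℂ) (ha : ∀ q, MDiff (a q)) (q : ι) (j : ℕ) :
    MDiff (esymErase a q j) := by
  rw [esymErase_eq_sum]
  refine mdiff_finsetSum _ fun t _ => ?_
  exact mdiff_finsetProd _ fun i _ => ha i

theorem isBoundedAtImInfty_finsetSum {κ : Type*} (s : Finset κ) {F : κ → ℍ → ℂ}
    (h : ∀ i ∈ s, IsBoundedAtImInfty (F i)) : IsBoundedAtImInfty (∑ i ∈ s, F i) := by
  classical
  induction s using Finset.induction_on with
  | empty => simpa using (zero_form_isBoundedAtImInfty (α := ℂ))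
  | insert i t hi ih =>
    rw [Finset.sum_insert hi]
    exact (h i (Finset.mem_insert_self i t)).add
      (ih fun j hj => h j (Finset.mem_insert_of_mem hj))

theorem isBoundedAtImInfty_finsetProd {κ : Type*} (s : Finset κ) {F : κ → ℍ → ℂ}
    (h : ∀ i ∈ s, IsBoundedAtImInfty (F i)) : IsBoundedAtImInfty (∏ i ∈ s, F i) := by
  classical
  induction s using Finset.induction_on with
  | empty =>
    rw [Finset.prod_empty]
    exact Filter.const_boundedAtFilter atImInfty (1 : ℂ)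
  | insert i t hi ih =>
    rw [Finset.prod_insert hi]
    exact (h i (Finset.mem_insert_self i t)).mul
      (ih fun j hj => h j (Finset.mem_insert_of_mem hj))

theorem isZeroAtImInfty_finsetSum {κ : Type*} (s : Finset κ) {F : κ → ℍ → ℂ}
    (h : ∀ i ∈ s, IsZeroAtImInfty (F i)) : IsZeroAtImInfty (∑ i ∈ s, F i) := by
  have h1 : Tendsto (fun z => ∑ i ∈ s, F i z) atImInfty (nhds (∑ i ∈ s, (0 : ℂ))) :=
    tendsto_finsetSum s fun i hi => h i hi
  rw [Finset.sum_const_zero] at h1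
  have h2 : (∑ i ∈ s, F i) = fun z => ∑ i ∈ s, F i z := by
    funext z; simp [Finset.sum_apply]
  rw [h2]
  exact h1

theorem isZeroAtImInfty_finsetProd {κ : Type*} (s : Finset κ) (hs : s.Nonempty) {F : κ → ℍ → ℂ}
    (h : ∀ i ∈ s, IsZeroAtImInfty (F i)) : IsZeroAtImInfty (∏ i ∈ s, F i) := by
  have h1 : Tendsto (fun z => ∏ i ∈ s, F i z) atImInfty (nhds (∏ i ∈ s, (0 : ℂ))) :=
    tendsto_finsetProd s fun i hi => h i hi
  rw [Finset.prod_const, zero_pow (Finset.card_ne_zero.mpr hs)] at h1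
  have h2 : (∏ i ∈ s, F i) = fun z => ∏ i ∈ s, F i z := by
    funext z; simp [Finset.prod_apply]
  rw [h2]
  exact h1

theorem isBoundedAtImInfty_esym (a : ι → ℍ → ℂ) (ha : ∀ q, IsBoundedAtImInfty (a q)) (j : ℕ) :
    IsBoundedAtImInfty (esym a j) := by
  rw [esym_eq_sum]
  refine isBoundedAtImInfty_finsetSum _ fun t _ => ?_
  exact isBoundedAtImInfty_finsetProd _ fun i _ => ha i

theorem isBoundedAtImInfty_esymErase (a : ι → ℍ → ℂ) (ha : ∀ q, IsBoundedAtImInfty (a q))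
    (q : ι) (j : ℕ) : IsBoundedAtImInfty (esymErase a q j) := by
  rw [esymErase_eq_sum]
  refine isBoundedAtImInfty_finsetSum _ fun t _ => ?_
  exact isBoundedAtImInfty_finsetProd _ fun i _ => ha i

theorem isZeroAtImInfty_esym (a : ι → ℍ → ℂ) (ha : ∀ q, IsZeroAtImInfty (a q)) (j : ℕ)
    (hj : 1 ≤ j) : IsZeroAtImInfty (esym a j) := by
  rw [esym_eq_sum]
  refine isZeroAtImInfty_finsetSum _ fun t ht => ?_
  have hc : t.card = j := (Finset.mem_powersetCard.mp ht).2
  have hne : t.Nonempty := Finset.card_pos.mp (by omega)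
  exact isZeroAtImInfty_finsetProd _ hne fun i _ => ha i

theorem esym_zero_eq_one {R : Type*} [CommRing R] (a : ι → R) : esym a 0 = 1 := by
  rw [esym_eq_sum, Finset.powersetCard_zero, Finset.sum_singleton, Finset.prod_empty]

end Slash

/-- a holomorphic function on the upper half plane which is invariant under `SL(2, ℤ)` in
weight `κ` and bounded at `i∞` is a modular form of level one -/
noncomputable def mkLevelOne (κ : ℤ) (G : ℍ → ℂ) (hinv : ∀ γ : SL(2, ℤ), G ∣[κ] γ = G)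
    (hol : MDiff G) (hbd : IsBoundedAtImInfty G) : ModularForm 𝒮ℒ κ where
  toFun := G
  slash_action_eq' := by
    rintro _ ⟨γ, rfl⟩
    exact hinv γ
  holo' := hol
  bdd_at_cusps' := fun {c} hc => by
    rw [OnePoint.isBoundedAt_iff_forall_SL2Z hc]
    intro γ _
    rw [hinv γ]
    exact hbd

@[simp] theorem mkLevelOne_apply (κ : ℤ) (G : ℍ → ℂ) (hinv : ∀ γ : SL(2, ℤ), G ∣[κ] γ = G)
    (hol : MDiff G) (hbd : IsBoundedAtImInfty G) (z : ℍ) :
    mkLevelOne κ G hinv hol hbd z = G z := rfl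

end SymAux

open SymAux

section Main

theorem exists_charpoly {N : ℕ} [NeZero N] {k : ℤ}
    (f : CuspForm (CongruenceSubgroup.Gamma0 N) k) :
    ∃ (n : ℕ) (E : (j : ℕ) → ModularForm 𝒮ℒ (j * k)),
      (∀ j, 1 ≤ j → IsZeroAtImInfty (E j)) ∧
      ∀ z, f z ^ (n + 1) + ∑ j ∈ Finset.range (n + 1),
        (-1) ^ (j + 1) * E (j + 1) z * f z ^ (n - j) = 0 := by
  classical
  let _ : Fintype (SL(2, ℤ) ⧸ CongruenceSubgroup.Gamma0 N) := Fintype.ofFinite _
  have hinv : ∀ γ ∈ CongruenceSubgroup.Gamma0 N, (⇑f) ∣[k] γ = ⇑f := fun γ hγ =>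
    SlashInvariantFormClass.slash_action_eq f _ (Subgroup.mem_map_of_mem _ hγ)
  let a : SL(2, ℤ) ⧸ CongruenceSubgroup.Gamma0 N → ℍ → ℂ :=
    conjFun (CongruenceSubgroup.Gamma0 N) f k
  have ha_hol : ∀ q, MDiff (a q) := fun q => (ModularFormClass.holo f).slash k _
  have ha_zero : ∀ q, IsZeroAtImInfty (a q) := fun q =>
    CuspFormClass.zero_at_infty_slash f _
  have ha_slash : ∀ (γ : SL(2, ℤ)) (j : ℕ), (esym a j) ∣[(j : ℤ) * k] γ = esym a j := by
    intro γ j
    rw [esym_slash]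
    have h : (fun q => a q ∣[k] γ) = fun q => a (MulAction.toPerm γ⁻¹ q) := by
      funext q
      exact conjFun_slash hinv γ q
    rw [h, esym_reindex]
  let E : (j : ℕ) → ModularForm 𝒮ℒ (j * k) := fun j =>
    mkLevelOne (j * k) (esym a j) (fun γ => ha_slash γ j) (mdiff_esym a ha_hol j)
      (isBoundedAtImInfty_esym a (fun q => (ha_zero q).isBoundedAtImInfty) j)
  set μ := Fintype.card (SL(2, ℤ) ⧸ CongruenceSubgroup.Gamma0 N) with hμ
  have hμpos : 0 < μ := Fintype.card_pos_iff.mpr ⟨QuotientGroup.mk 1⟩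
  refine ⟨μ - 1, E, fun j hj => isZeroAtImInfty_esym a ha_zero j hj, fun z => ?_⟩
  have hμ1 : μ = (μ - 1) + 1 := by omega
  have key := congrFun (charpoly_eval a (QuotientGroup.mk 1)) z
  rw [← hμ, hμ1, Finset.sum_range_succ'] at key
  have ha1 : a (QuotientGroup.mk 1) = ⇑f := conjFun_one hinv
  simp only [Finset.sum_apply, Pi.mul_apply, Pi.pow_apply, Pi.neg_apply, Pi.one_apply,
    Pi.add_apply, Pi.zero_apply, ha1, esym_zero_eq_one, pow_zero, one_mul, Nat.sub_zero,
    Nat.add_sub_add_right] at key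
  rw [add_comm]
  exact key

theorem exists_interp {N : ℕ} [NeZero N] {k k2 : ℤ}
    (u : CuspForm (CongruenceSubgroup.Gamma0 N) k)
    (v : ModularForm (CongruenceSubgroup.Gamma0 N) k2)
    (hv : ∀ γ : SL(2, ℤ), (⇑v) ∣[k2] γ = ⇑v → γ ∈ CongruenceSubgroup.Gamma0 N) :
    ∃ (m : ℕ) (D : ℍ → ℂ) (d : (i : ℕ) → ModularForm 𝒮ℒ (i * k2))
      (c : (i : ℕ) → ModularForm 𝒮ℒ (k + i * k2)),
      D ≠ 0 ∧ (∀ z, D z = ∑ i ∈ Finset.range (m + 1), d i z * v z ^ (m - i)) ∧
      (∀ z, u z * D z = ∑ i ∈ Finset.range (m + 1), c i z * v z ^ (m - i)) := by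
  classical
  let _ : Fintype (SL(2, ℤ) ⧸ CongruenceSubgroup.Gamma0 N) := Fintype.ofFinite _
  have hinvu : ∀ γ ∈ CongruenceSubgroup.Gamma0 N, (⇑u) ∣[k] γ = ⇑u := fun γ hγ =>
    SlashInvariantFormClass.slash_action_eq u _ (Subgroup.mem_map_of_mem _ hγ)
  have hinvv : ∀ γ ∈ CongruenceSubgroup.Gamma0 N, (⇑v) ∣[k2] γ = ⇑v := fun γ hγ =>
    SlashInvariantFormClass.slash_action_eq v _ (Subgroup.mem_map_of_mem _ hγ)
  let a : SL(2, ℤ) ⧸ CongruenceSubgroup.Gamma0 N → ℍ → ℂ :=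
    conjFun (CongruenceSubgroup.Gamma0 N) u k
  let b : SL(2, ℤ) ⧸ CongruenceSubgroup.Gamma0 N → ℍ → ℂ :=
    conjFun (CongruenceSubgroup.Gamma0 N) v k2
  have ha_hol : ∀ q, MDiff (a q) := fun q => (ModularFormClass.holo u).slash k _
  have hb_hol : ∀ q, MDiff (b q) := fun q => (ModularFormClass.holo v).slash k2 _
  have ha_bdd : ∀ q, IsBoundedAtImInfty (a q) := fun q =>
    ModularFormClass.bdd_at_infty_slash u _
  have hb_bdd : ∀ q, IsBoundedAtImInfty (b q) := fun q =>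
    ModularFormClass.bdd_at_infty_slash v _
  have ha_perm : ∀ (γ : SL(2, ℤ)) (q : SL(2, ℤ) ⧸ CongruenceSubgroup.Gamma0 N),
      a q ∣[k] γ = a (MulAction.toPerm γ⁻¹ q) := fun γ q => conjFun_slash hinvu γ q
  have hb_perm : ∀ γ : SL(2, ℤ), (fun q => b q ∣[k2] γ) = fun q => b (MulAction.toPerm γ⁻¹ q) := by
    intro γ
    funext q
    exact conjFun_slash hinvv γ q
  have hb_slash : ∀ (γ : SL(2, ℤ)) (j : ℕ), (esym b j) ∣[(j : ℤ) * k2] γ = esym b j := by
    intro γ j
    rw [esym_slash, hb_perm γ, esym_reindex]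
  -- the interpolation coefficients
  let Cfun : ℕ → ℍ → ℂ := fun i => ∑ q, a q * esymErase b q i
  have hC_slash : ∀ (γ : SL(2, ℤ)) (i : ℕ), (Cfun i) ∣[k + (i : ℤ) * k2] γ = Cfun i := by
    intro γ i
    show (∑ q, a q * esymErase b q i) ∣[k + (i : ℤ) * k2] γ = ∑ q, a q * esymErase b q i
    rw [SlashAction.sum_slash]
    have h : ∀ q, (a q * esymErase b q i) ∣[k + (i : ℤ) * k2] γ
        = a (MulAction.toPerm γ⁻¹ q) * esymErase b (MulAction.toPerm γ⁻¹ q) i := by
      intro q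
      rw [mul_slash_SL2, esymErase_slash, hb_perm γ,
        esymErase_reindex b (MulAction.toPerm γ⁻¹) q i, ha_perm γ q]
    rw [Finset.sum_congr rfl fun q _ => h q]
    exact Equiv.sum_comp (MulAction.toPerm γ⁻¹) (fun q => a q * esymErase b q i)
  have hC_hol : ∀ i, MDiff (Cfun i) := fun i =>
    mdiff_finsetSum _ fun q _ => (ha_hol q).mul (mdiff_esymErase b hb_hol q i)
  have hC_bdd : ∀ i, IsBoundedAtImInfty (Cfun i) := fun i =>
    isBoundedAtImInfty_finsetSum _ fun q _ =>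
      (ha_bdd q).mul (isBoundedAtImInfty_esymErase b hb_bdd q i)
  let Eb : (j : ℕ) → ModularForm 𝒮ℒ (j * k2) := fun j =>
    mkLevelOne (j * k2) (esym b j) (fun γ => hb_slash γ j) (mdiff_esym b hb_hol j)
      (isBoundedAtImInfty_esym b hb_bdd j)
  let Cm : (i : ℕ) → ModularForm 𝒮ℒ (k + i * k2) := fun i =>
    mkLevelOne (k + i * k2) (Cfun i) (fun γ => hC_slash γ i) (hC_hol i) (hC_bdd i)
  set μ := Fintype.card (SL(2, ℤ) ⧸ CongruenceSubgroup.Gamma0 N) with hμ
  have hμpos : 0 < μ := Fintype.card_pos_iff.mpr ⟨QuotientGroup.mk 1⟩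
  let q0 : SL(2, ℤ) ⧸ CongruenceSubgroup.Gamma0 N := QuotientGroup.mk 1
  have ha1 : a q0 = ⇑u := conjFun_one hinvu
  have hb1 : b q0 = ⇑v := conjFun_one hinvv
  refine ⟨μ - 1, ∏ q ∈ Finset.univ.erase q0, (b q0 - b q),
    fun i => ((-1 : ℂ) ^ i * ((μ - i : ℕ) : ℂ)) • Eb i, fun i => ((-1 : ℂ) ^ i) • Cm i,
    ?_, ?_, ?_⟩
  · -- the denominator is not the zero function
    intro hD
    rw [UpperHalfPlane.prod_eq_zero_iff (fun q _ => (hb_hol q0).sub (hb_hol q))] at hD
    obtain ⟨q, hq, hq0⟩ := hD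
    have hne : q ≠ q0 := (Finset.mem_erase.mp hq).1
    apply hne
    obtain ⟨g, rfl⟩ := QuotientGroup.mk_surjective q
    have h1 : b (QuotientGroup.mk g) = ⇑v ∣[k2] g⁻¹ := conjFun_mk hinvv g
    have h2 : ⇑v ∣[k2] g⁻¹ = ⇑v := by
      rw [← h1, ← hb1]
      exact (sub_eq_zero.mp hq0).symm
    have h3 := hv _ h2
    exact QuotientGroup.eq.mpr (by rw [mul_one]; exact h3)
  · intro z
    have key := congrFun (deriv_eval b q0) z
    rw [key, Nat.sub_add_cancel hμpos, Finset.sum_apply]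
    refine Finset.sum_congr rfl fun i _ => ?_
    simp only [Pi.mul_apply, Pi.pow_apply, hb1, Pi.neg_apply, Pi.one_apply, Pi.natCast_apply,
      _root_.smul_apply, smul_eq_mul]
    rfl
  · intro z
    have key := congrFun (interp_eval b a q0) z
    have h0 : u z * (∏ q ∈ Finset.univ.erase q0, (b q0 - b q)) z
        = (a q0 * ∏ q ∈ Finset.univ.erase q0, (b q0 - b q)) z := by
      rw [Pi.mul_apply, ha1]
    rw [h0, ← key, Nat.sub_add_cancel hμpos, Finset.sum_apply]
    refine Finset.sum_congr rfl fun i _ => ?_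
    simp only [Pi.mul_apply, Pi.pow_apply, hb1, Pi.neg_apply, Pi.one_apply,
      _root_.smul_apply, smul_eq_mul]
    rfl

end Main

end Fermat.Agent.S23
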