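import Mathlib
import Fermat.Prelude.Def_ModularForm_HeckeOperator
import Fermat.Prelude.Def_CuspForm_IntegralStructure

/-!
Shared definitions for the proof of S23 (integral structure of cusp forms on Gamma0(N)).
-/

set_option autoImplicit false

open UpperHalfPlane ModularForm
open scoped MatrixGroups Manifold

namespace Fermat.Agent.S23

/-- The primitive element: `TN N z = N^11 * Δ(N z)`, the discriminant slashed by `diag(N, 1)`. -/
noncomputable def TN (N : ℕ) : ℍ → ℂ :=
  ModularForm.discriminant ∣[(12:ℤ)] ModularForm.heckeDiagMatrix N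

theorem TN_apply {N : ℕ} (hN : N ≠ 0) (z : ℍ) :
    TN N z = (N : ℂ) ^ (11 : ℕ) * ModularForm.discriminant (ModularForm.heckeDiagMatrix N • z) := by
  have h := ModularForm.slash_heckeDiagMatrix_apply (12:ℤ) hN ModularForm.discriminant z
  rw [TN, h]
  norm_num

/-- Power series with bounded denominators: some positive integer multiple has integer
coefficients. -/
def BD : Set (PowerSeries ℂ) :=
  {ρ | ∃ M : ℕ, 0 < M ∧ ∀ n, ∃ m : ℤ, (M : ℂ) * PowerSeries.coeff n ρ = (m : ℂ)}

/-- The complex subalgebra generated by the power series with bounded denominators. -/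
noncomputable def bdAlg : Subalgebra ℂ (PowerSeries ℂ) := Algebra.adjoin ℂ BD

theorem BD_subset_bdAlg : BD ⊆ (bdAlg : Set (PowerSeries ℂ)) := Algebra.subset_adjoin

end Fermat.Agent.S23
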