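import Mathlib
import Fermat.Prelude.Thm_UpperHalfPlane_qExpansion_prod

/-!
Functions on the upper half plane that are holomorphic, 1-periodic and bounded at `i∞`,
their q-expansions, and the "twist" relation between two such functions whose q-expansions
are related by a ring endomorphism of `ℂ` applied coefficientwise.
-/

set_option autoImplicit false

open UpperHalfPlane Filter
open scoped Manifold MatrixGroups ModularForm

namespace Fermat.Agent.S23

/-- holomorphic on `ℍ`, 1-periodic, bounded at `i∞`. -/
structure Nice (F : ℍ → ℂ) : Prop where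
  holo : MDiff F
  per : Function.Periodic (F ∘ ofComplex) 1
  bdd : IsBoundedAtImInfty F

namespace Nice

variable {F G : ℍ → ℂ}

theorem analyticAt (hF : Nice F) : AnalyticAt ℂ (cuspFunction 1 F) 0 :=
  analyticAt_cuspFunction_zero one_pos hF.per hF.holo hF.bdd

theorem zero : Nice (0 : ℍ → ℂ) where
  holo := fun _ => mdifferentiableAt_const
  per := fun _ => rfl
  bdd := zero_form_isBoundedAtImInfty

theorem const (c : ℂ) : Nice (fun _ : ℍ => c) where
  holo := fun _ => mdifferentiableAt_const
  per := fun _ => rfl
  bdd := Filter.const_boundedAtFilter _ c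

theorem one : Nice (1 : ℍ → ℂ) := const 1

theorem add (hF : Nice F) (hG : Nice G) : Nice (F + G) where
  holo := hF.holo.add hG.holo
  per := fun x => by
    have h1 := hF.per x
    have h2 := hG.per x
    simp only [Function.comp_apply, Pi.add_apply] at h1 h2 ⊢
    rw [h1, h2]
  bdd := hF.bdd.add hG.bdd

theorem mul (hF : Nice F) (hG : Nice G) : Nice (F * G) where
  holo := hF.holo.mul hG.holo
  per := fun x => by
    have h1 := hF.per x
    have h2 := hG.per x
    simp only [Function.comp_apply, Pi.mul_apply] at h1 h2 ⊢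
    rw [h1, h2]
  bdd := hF.bdd.mul hG.bdd

theorem smul (c : ℂ) (hF : Nice F) : Nice (c • F) := by
  have h : c • F = (fun _ : ℍ => c) * F := by
    ext z; simp
  rw [h]
  exact (const c).mul hF

theorem neg (hF : Nice F) : Nice (-F) := by
  have h : -F = (-1 : ℂ) • F := by ext z; simp
  rw [h]
  exact hF.smul _

theorem sub (hF : Nice F) (hG : Nice G) : Nice (F - G) := by
  rw [sub_eq_add_neg]
  exact hF.add hG.neg

theorem pow (hF : Nice F) (n : ℕ) : Nice (F ^ n) := by
  induction n with
  | zero => simpa using one
  | succ n ih => rw [pow_succ]; exact ih.mul hF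

theorem sum {ι : Type*} (s : Finset ι) {F : ι → ℍ → ℂ} (hF : ∀ i ∈ s, Nice (F i)) :
    Nice (∑ i ∈ s, F i) := by
  classical
  induction s using Finset.induction_on with
  | empty => simpa using zero
  | insert i t hi ih =>
    rw [Finset.sum_insert hi]
    exact (hF i (Finset.mem_insert_self i t)).add
      (ih fun j hj => hF j (Finset.mem_insert_of_mem hj))

theorem prod {ι : Type*} (s : Finset ι) {F : ι → ℍ → ℂ} (hF : ∀ i ∈ s, Nice (F i)) :
    Nice (∏ i ∈ s, F i) := by
  classical
  induction s using Finset.induction_on with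
  | empty => simpa using one
  | insert i t hi ih =>
    rw [Finset.prod_insert hi]
    exact (hF i (Finset.mem_insert_self i t)).mul
      (ih fun j hj => hF j (Finset.mem_insert_of_mem hj))

theorem qExpansion_add (hF : Nice F) (hG : Nice G) :
    qExpansion 1 (F + G) = qExpansion 1 F + qExpansion 1 G :=
  UpperHalfPlane.qExpansion_add hF.analyticAt hG.analyticAt

theorem qExpansion_mul (hF : Nice F) (hG : Nice G) :
    qExpansion 1 (F * G) = qExpansion 1 F * qExpansion 1 G :=
  UpperHalfPlane.qExpansion_mul hF.analyticAt hG.analyticAt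

theorem qExpansion_smul (c : ℂ) (hF : Nice F) :
    qExpansion 1 (c • F) = c • qExpansion 1 F :=
  UpperHalfPlane.qExpansion_smul hF.analyticAt c

theorem qExpansion_neg (hF : Nice F) :
    qExpansion 1 (-F) = -qExpansion 1 F :=
  UpperHalfPlane.qExpansion_neg hF.analyticAt

theorem qExpansion_sub (hF : Nice F) (hG : Nice G) :
    qExpansion 1 (F - G) = qExpansion 1 F - qExpansion 1 G :=
  UpperHalfPlane.qExpansion_sub hF.analyticAt hG.analyticAt

theorem qExpansion_pow (hF : Nice F) (n : ℕ) :
    qExpansion 1 (F ^ n) = qExpansion 1 F ^ n := by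
  induction n with
  | zero => simpa using UpperHalfPlane.qExpansion_one 1
  | succ n ih => rw [pow_succ, (hF.pow n).qExpansion_mul hF, ih, pow_succ]

theorem qExpansion_sum {ι : Type*} (s : Finset ι) {F : ι → ℍ → ℂ} (hF : ∀ i ∈ s, Nice (F i)) :
    qExpansion 1 (∑ i ∈ s, F i) = ∑ i ∈ s, qExpansion 1 (F i) := by
  classical
  induction s using Finset.induction_on with
  | empty => simpa using UpperHalfPlane.qExpansion_zero 1
  | insert i t hi ih =>
    have h1 := hF i (Finset.mem_insert_self i t)
    have h2 : ∀ j ∈ t, Nice (F j) := fun j hj => hF j (Finset.mem_insert_of_mem hj)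
    rw [Finset.sum_insert hi, Finset.sum_insert hi, h1.qExpansion_add (sum t h2), ih h2]

theorem qExpansion_const (c : ℂ) : qExpansion 1 (fun _ : ℍ => c) = PowerSeries.C c := by
  have h : (fun _ : ℍ => c) = c • (1 : ℍ → ℂ) := by ext z; simp
  rw [h, one.qExpansion_smul, UpperHalfPlane.qExpansion_one]
  ext n
  simp [PowerSeries.coeff_C, PowerSeries.coeff_one]

theorem eq_zero_of_qExpansion_eq_zero (hF : Nice F) (h : qExpansion 1 F = 0) : F = 0 :=
  (UpperHalfPlane.qExpansion_eq_zero_iff one_pos hF.per hF.holo hF.bdd).mp h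

theorem eq_of_qExpansion_eq (hF : Nice F) (hG : Nice G)
    (h : qExpansion 1 F = qExpansion 1 G) : F = G := by
  have h1 := (hF.sub hG).eq_zero_of_qExpansion_eq_zero (by rw [hF.qExpansion_sub hG, h, sub_self])
  exact sub_eq_zero.mp h1

end Nice

/-- `F'` is a `σ`-twist of `F`: both are nice and the q-expansion of `F'` is obtained from the
q-expansion of `F` by applying `σ` to every coefficient. -/
structure Twist (σ : ℂ →+* ℂ) (F F' : ℍ → ℂ) : Prop where
  left : Nice F
  right : Nice F'
  eq : qExpansion 1 F' = (qExpansion 1 F).map σ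

namespace Twist

variable {σ : ℂ →+* ℂ} {F F' G G' : ℍ → ℂ}

theorem zero : Twist σ 0 0 where
  left := Nice.zero
  right := Nice.zero
  eq := by rw [UpperHalfPlane.qExpansion_zero, map_zero]

theorem const (c : ℂ) : Twist σ (fun _ : ℍ => c) (fun _ : ℍ => σ c) where
  left := Nice.const c
  right := Nice.const _
  eq := by
    rw [Nice.qExpansion_const, Nice.qExpansion_const]
    ext n
    simp [PowerSeries.coeff_C, apply_ite σ]

theorem add (h1 : Twist σ F F') (h2 : Twist σ G G') : Twist σ (F + G) (F' + G') where
  left := h1.left.add h2.left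
  right := h1.right.add h2.right
  eq := by
    rw [h1.right.qExpansion_add h2.right, h1.left.qExpansion_add h2.left, map_add, h1.eq, h2.eq]

theorem mul (h1 : Twist σ F F') (h2 : Twist σ G G') : Twist σ (F * G) (F' * G') where
  left := h1.left.mul h2.left
  right := h1.right.mul h2.right
  eq := by
    rw [h1.right.qExpansion_mul h2.right, h1.left.qExpansion_mul h2.left, map_mul, h1.eq, h2.eq]

theorem smul (c : ℂ) (h1 : Twist σ F F') : Twist σ (c • F) (σ c • F') := by
  have e1 : c • F = (fun _ : ℍ => c) * F := by ext z; simp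
  have e2 : σ c • F' = (fun _ : ℍ => σ c) * F' := by ext z; simp
  rw [e1, e2]
  exact (const c).mul h1

theorem neg (h1 : Twist σ F F') : Twist σ (-F) (-F') := by
  have e1 : -F = (-1 : ℂ) • F := by ext z; simp
  have e2 : -F' = σ (-1 : ℂ) • F' := by ext z; simp
  rw [e1, e2]
  exact h1.smul _

theorem sub (h1 : Twist σ F F') (h2 : Twist σ G G') : Twist σ (F - G) (F' - G') := by
  rw [sub_eq_add_neg, sub_eq_add_neg]
  exact h1.add h2.neg

theorem pow (h1 : Twist σ F F') (n : ℕ) : Twist σ (F ^ n) (F' ^ n) where
  left := h1.left.pow n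
  right := h1.right.pow n
  eq := by rw [h1.right.qExpansion_pow, h1.left.qExpansion_pow, map_pow, h1.eq]

theorem sum {ι : Type*} (s : Finset ι) {F F' : ι → ℍ → ℂ} (h : ∀ i ∈ s, Twist σ (F i) (F' i)) :
    Twist σ (∑ i ∈ s, F i) (∑ i ∈ s, F' i) := by
  classical
  induction s using Finset.induction_on with
  | empty => simpa using zero
  | insert i t hi ih =>
    rw [Finset.sum_insert hi, Finset.sum_insert hi]
    exact (h i (Finset.mem_insert_self i t)).add
      (ih fun j hj => h j (Finset.mem_insert_of_mem hj))

/-- a twist of the zero function is zero -/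
theorem eq_zero (h : Twist σ 0 F') : F' = 0 := by
  apply h.right.eq_zero_of_qExpansion_eq_zero
  rw [h.eq, UpperHalfPlane.qExpansion_zero, map_zero]

theorem unique (h1 : Twist σ F F') (h2 : Twist σ F G') : F' = G' :=
  h1.right.eq_of_qExpansion_eq h2.right (by rw [h1.eq, h2.eq])

/-- if the q-expansion of a nice `F` has `σ`-fixed coefficients then `F` is its own twist -/
theorem self_of_fixed (hF : Nice F) (h : ∀ n, σ ((qExpansion 1 F).coeff n) = (qExpansion 1 F).coeff n) :
    Twist σ F F where
  left := hF
  right := hF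
  eq := by
    ext n
    rw [PowerSeries.coeff_map, h n]

end Twist

end Fermat.Agent.S23
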