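import Mathlib
import Fermat.Agent.S23.Defs
import Fermat.Agent.S23.Nice
import Fermat.Prelude.Sol.S_ModularForm_heckeT_slash_eq_self_of_mem_Gamma0
import Fermat.Prelude.Thm_CongruenceSubgroup_one_mem_strictPeriods_Gamma0

/-!
`TN N` is a modular form of weight 12 on `Gamma0 N`; modular forms on `Gamma0 N` and on
`SL(2, ℤ)` are nice functions.
-/

set_option autoImplicit false

open UpperHalfPlane ModularForm Filter
open scoped MatrixGroups Manifold

namespace Fermat.Agent.S23

open ConjAct Pointwise in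
theorem Gamma0_le_conj (N : ℕ) [NeZero N] :
    (CongruenceSubgroup.Gamma0 N : Subgroup (GL (Fin 2) ℝ))
      ≤ toConjAct (ModularForm.heckeDiagMatrix N)⁻¹ • 𝒮ℒ := by
  intro γ hγ
  obtain ⟨g, hg, rfl⟩ := Subgroup.mem_map.mp hγ
  rw [map_inv, Subgroup.mem_inv_pointwise_smul_iff, toConjAct_smul]
  rw [CongruenceSubgroup.Gamma0_mem] at hg
  obtain ⟨e, he⟩ := (ZMod.intCast_zmod_eq_zero_iff_dvd _ _).mp hg
  obtain ⟨g', -, hmul⟩ :=
    P2MW.S_ModularForm_heckeT_slash_eq_self_of_mem_Gamma0.ModularForm.HeckeSlashInvariance.heckeDiagMatrix_mul_of_eq'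
      (NeZero.ne N) g e he
  rw [hmul, mul_inv_cancel_right]
  exact ⟨g', rfl⟩

/-- `TN N` as a modular form of weight 12 on `Gamma0 N`. -/
noncomputable def TNForm (N : ℕ) [NeZero N] : ModularForm (CongruenceSubgroup.Gamma0 N) 12 :=
  { toFun := TN N
    holo' := (ModularForm.translate CuspForm.discriminant
      (ModularForm.heckeDiagMatrix N)).holo'
    bdd_at_cusps' := fun hc => (ModularForm.translate CuspForm.discriminant
      (ModularForm.heckeDiagMatrix N)).bdd_at_cusps' (hc.mono (Gamma0_le_conj N))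
    slash_action_eq' := fun γ hγ => (ModularForm.translate CuspForm.discriminant
      (ModularForm.heckeDiagMatrix N)).slash_action_eq' γ (Gamma0_le_conj N hγ) }

theorem coe_TNForm (N : ℕ) [NeZero N] : (⇑(TNForm N) : ℍ → ℂ) = TN N := rfl

theorem exists_modularForm_TN (N : ℕ) [NeZero N] :
    ∃ T : ModularForm (CongruenceSubgroup.Gamma0 N) 12, (⇑T : ℍ → ℂ) = TN N :=
  ⟨TNForm N, rfl⟩

theorem nice_of_modularForm_Gamma0 {N : ℕ} [NeZero N] {k : ℤ}
    (g : ModularForm (CongruenceSubgroup.Gamma0 N) k) : Nice (⇑g) where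
  holo := ModularFormClass.holo g
  per := by
    have h := SlashInvariantFormClass.periodic_comp_ofComplex g
      (CongruenceSubgroup.one_mem_strictPeriods_Gamma0 N)
    simpa using h
  bdd := ModularFormClass.bdd_at_infty g

theorem nice_of_cuspForm_Gamma0 {N : ℕ} [NeZero N] {k : ℤ}
    (g : CuspForm (CongruenceSubgroup.Gamma0 N) k) : Nice (⇑g) where
  holo := ModularFormClass.holo g
  per := by
    have h := SlashInvariantFormClass.periodic_comp_ofComplex g
      (CongruenceSubgroup.one_mem_strictPeriods_Gamma0 N)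
    simpa using h
  bdd := ModularFormClass.bdd_at_infty g

theorem nice_levelOne {k : ℤ} (g : ModularForm 𝒮ℒ k) : Nice (⇑g) where
  holo := ModularFormClass.holo g
  per := by
    have h := SlashInvariantFormClass.periodic_comp_ofComplex g
      (h := 1) (by simp)
    simpa using h
  bdd := ModularFormClass.bdd_at_infty g

theorem nice_TN (N : ℕ) [NeZero N] : Nice (TN N) :=
  nice_of_modularForm_Gamma0 (TNForm N)

end Fermat.Agent.S23
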