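import Mathlib
import Fermat.Agent.S23.Defs
import Fermat.Agent.S23.Nice
import Fermat.Agent.S23.TNForm

set_option autoImplicit false

open UpperHalfPlane ModularForm Filter Topology
open scoped MatrixGroups Manifold

namespace Fermat.Agent.S23


/-- Real translations preserve the filter `atImInfty`. -/
theorem conj_tendsto_vadd_atImInfty (t : ℝ) :
    Tendsto (fun w : ℍ => t +ᵥ w) atImInfty atImInfty := by
  rw [atImInfty, tendsto_comap_iff]
  have : (UpperHalfPlane.im ∘ fun w : ℍ => t +ᵥ w) = UpperHalfPlane.im := by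
    funext w
    simp [UpperHalfPlane.vadd_im]
  rw [this]
  exact tendsto_comap

/-- A real translation fixing the discriminant is an integer translation. -/
theorem conj_int_of_discriminant_vadd (t : ℝ)
    (h : ∀ w : ℍ, ModularForm.discriminant (t +ᵥ w) = ModularForm.discriminant w) :
    ∃ n : ℤ, t = n := by
  set P : ℍ → ℂ := fun x => ∏' (n : ℕ), (1 - eta_q n (x : ℂ)) ^ 24 with hP
  have hlim : Tendsto P atImInfty (𝓝 1) := tendsto_atImInfty_tprod_one_sub_eta_q_pow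
  have hlim' : Tendsto (fun w : ℍ => P (t +ᵥ w)) atImInfty (𝓝 1) :=
    hlim.comp (conj_tendsto_vadd_atImInfty t)
  have key : ∀ w : ℍ, Complex.exp (2 * Real.pi * Complex.I * t) * P (t +ᵥ w) = P w := by
    intro w
    have h1 := discriminant_eq_q_prod (t +ᵥ w)
    have h2 := discriminant_eq_q_prod w
    rw [h w, h2] at h1
    have hq : Function.Periodic.qParam 1 ((t +ᵥ w : ℍ) : ℂ) =
        Complex.exp (2 * Real.pi * Complex.I * t) * Function.Periodic.qParam 1 (w : ℂ) := by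
      simp only [Function.Periodic.qParam, UpperHalfPlane.coe_vadd, Complex.ofReal_one, div_one]
      rw [← Complex.exp_add]
      congr 1
      ring
    rw [hq] at h1
    have hq0 : Function.Periodic.qParam 1 (w : ℂ) ≠ 0 := by
      simp [Function.Periodic.qParam]
    have h3 : Function.Periodic.qParam 1 (w : ℂ) * P w =
        Function.Periodic.qParam 1 (w : ℂ) *
          (Complex.exp (2 * Real.pi * Complex.I * t) * P (t +ᵥ w)) := by
      rw [hP]
      simp only
      rw [h1]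
      ring
    exact (mul_left_cancel₀ hq0 h3).symm
  have hconst : Tendsto (fun w : ℍ => Complex.exp (2 * Real.pi * Complex.I * t) * P (t +ᵥ w))
      atImInfty (𝓝 (Complex.exp (2 * Real.pi * Complex.I * t) * 1)) :=
    hlim'.const_mul _
  have hconst' : Tendsto P atImInfty (𝓝 (Complex.exp (2 * Real.pi * Complex.I * t) * 1)) :=
    hconst.congr key
  have hne : (atImInfty : Filter ℍ).NeBot := inferInstance
  have heq : Complex.exp (2 * Real.pi * Complex.I * t) * 1 = 1 :=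
    tendsto_nhds_unique hconst' hlim
  rw [mul_one, Complex.exp_eq_one_iff] at heq
  obtain ⟨n, hn⟩ := heq
  refine ⟨n, ?_⟩
  have h2pi : (2 * (Real.pi : ℂ) * Complex.I) ≠ 0 := by
    simp [Real.pi_ne_zero]
  have : (t : ℂ) = (n : ℂ) := by
    have hh : (2 * (Real.pi : ℂ) * Complex.I) * (t : ℂ) = (2 * (Real.pi : ℂ) * Complex.I) * (n : ℂ) := by
      rw [hn]; ring
    exact mul_left_cancel₀ h2pi hh
  exact_mod_cast this


theorem conj_det_upperTriangularGL (a b d : ℝ) (had : a * d ≠ 0) :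
    ((upperTriangularGL a b d had).det : ℝ) = a * d := by
  rw [Matrix.GeneralLinearGroup.val_det_apply, val_upperTriangularGL, Matrix.det_fin_two_of]
  ring

theorem conj_coe_upperTriangularGL_smul (a b d : ℝ) (had : a * d ≠ 0) (hpos : 0 < a * d)
    (z : ℍ) :
    ((upperTriangularGL a b d had • z : ℍ) : ℂ) = ((a : ℂ) * (z : ℂ) + b) / d := by
  have hdet : 0 < ((upperTriangularGL a b d had).det : ℝ) := by
    rw [conj_det_upperTriangularGL]; exact hpos
  rw [UpperHalfPlane.coe_smul_of_det_pos hdet]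
  simp [UpperHalfPlane.num, UpperHalfPlane.denom, val_upperTriangularGL]

theorem conj_slash_upperTriangularGL_apply (k : ℤ) (a b d : ℝ) (had : a * d ≠ 0)
    (hpos : 0 < a * d) (f : ℍ → ℂ) (z : ℍ) :
    (f ∣[k] upperTriangularGL a b d had) z =
      f (upperTriangularGL a b d had • z) * ((a * d : ℝ) : ℂ) ^ (k - 1) * (d : ℂ) ^ (-k) := by
  have hdet : 0 < ((upperTriangularGL a b d had).det : ℝ) := by
    rw [conj_det_upperTriangularGL]; exact hpos
  have hσ : UpperHalfPlane.σ (upperTriangularGL a b d had) = .refl ℝ ℂ := by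
    rw [UpperHalfPlane.σ, if_pos hdet]
  rw [ModularForm.slash_apply, hσ, conj_det_upperTriangularGL]
  simp [UpperHalfPlane.denom, val_upperTriangularGL, abs_of_pos hpos]


theorem conj_exists_factor (N : ℕ) [NeZero N] (γ : SL(2, ℤ)) :
    ∃ (δ : SL(2, ℤ)) (g N1 : ℕ) (B : ℤ) (had : (g : ℝ) * (N1 : ℝ) ≠ 0),
      0 < g ∧ 0 < N1 ∧ g * N1 = N ∧ ((g : ℤ) ∣ γ 1 0) ∧
      heckeDiagMatrix N *
          Matrix.SpecialLinearGroup.toGL ((Matrix.SpecialLinearGroup.map (Int.castRingHom ℝ)) γ) =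
        Matrix.SpecialLinearGroup.toGL ((Matrix.SpecialLinearGroup.map (Int.castRingHom ℝ)) δ) *
          upperTriangularGL g B N1 had := by
  have hN : N ≠ 0 := NeZero.ne N
  set a : ℤ := γ 0 0 with ha
  set b : ℤ := γ 0 1 with hb
  set c : ℤ := γ 1 0 with hc
  set d : ℤ := γ 1 1 with hd
  have hdet : a * d - b * c = 1 := by
    have := γ.det_coe
    rw [Matrix.det_fin_two] at this
    simpa [ha, hb, hc, hd] using this
  set g : ℕ := Int.gcd c N with hg
  have hgpos : 0 < g := Int.gcd_pos_of_ne_zero_right _ (by exact_mod_cast hN)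
  have hgc : (g : ℤ) ∣ c := Int.gcd_dvd_left _ _
  have hgN : (g : ℤ) ∣ (N : ℤ) := Int.gcd_dvd_right _ _
  obtain ⟨c1, hc1⟩ := hgc
  obtain ⟨N1', hN1'⟩ := hgN
  have hN1'pos : 0 < N1' := by
    have h1 : (0 : ℤ) < (N : ℤ) := by exact_mod_cast Nat.pos_of_ne_zero hN
    rw [hN1'] at h1
    have h2 : (0 : ℤ) < (g : ℤ) := by exact_mod_cast hgpos
    rcases lt_trichotomy N1' 0 with h3 | h3 | h3
    · nlinarith
    · rw [h3] at h1; simp at h1
    · exact h3
  obtain ⟨N1, rfl⟩ : ∃ N1 : ℕ, N1' = N1 := ⟨N1'.toNat, (Int.toNat_of_nonneg hN1'pos.le).symm⟩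
  have hN1pos : 0 < N1 := by exact_mod_cast hN1'pos
  have hgN1 : g * N1 = N := by exact_mod_cast hN1'.symm
  -- coprimality
  have hcop1 : IsCoprime (N1 : ℤ) c1 := by
    have h := Int.gcd_div_gcd_div_gcd (i := c) (j := (N : ℤ)) (by rw [← hg]; exact hgpos)
    rw [← hg] at h
    have e1 : c / (g : ℤ) = c1 := by
      rw [hc1]; exact Int.mul_ediv_cancel_left _ (by exact_mod_cast hgpos.ne')
    have e2 : (N : ℤ) / (g : ℤ) = N1 := by
      rw [hN1']; exact Int.mul_ediv_cancel_left _ (by exact_mod_cast hgpos.ne')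
    rw [e1, e2] at h
    exact (Int.isCoprime_iff_gcd_eq_one.mpr h).symm
  have hcop2 : IsCoprime a c1 := by
    refine ⟨d, -b * g, ?_⟩
    rw [hc1] at hdet
    linarith
  have hcop : IsCoprime ((N1 : ℤ) * a) c1 := IsCoprime.mul_left hcop1 hcop2
  obtain ⟨u, v, huv⟩ := hcop
  -- u * (N1 * a) + v * c1 = 1
  let δ : SL(2, ℤ) := ⟨!![(N1 : ℤ) * a, -v; c1, u], by
    rw [Matrix.det_fin_two_of]; linarith⟩
  refine ⟨δ, g, N1, u * N * b + v * d, ?_, hgpos, hN1pos, hgN1, ⟨c1, hc1⟩, ?_⟩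
  · have : (0 : ℝ) < (g : ℝ) * (N1 : ℝ) := by positivity
    exact this.ne'
  · have H1 : (u : ℝ) * ((N1 : ℝ) * a) + v * c1 = 1 := by exact_mod_cast huv
    have H2 : (a : ℝ) * d - b * c = 1 := by exact_mod_cast hdet
    have H3 : (c : ℝ) = g * c1 := by exact_mod_cast hc1
    have H4 : (g : ℝ) * N1 = N := by exact_mod_cast hgN1
    have hδ00 : (δ : Matrix (Fin 2) (Fin 2) ℤ) 0 0 = (N1 : ℤ) * a := rfl
    have hδ01 : (δ : Matrix (Fin 2) (Fin 2) ℤ) 0 1 = -v := rfl
    have hδ10 : (δ : Matrix (Fin 2) (Fin 2) ℤ) 1 0 = c1 := rfl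
    have hδ11 : (δ : Matrix (Fin 2) (Fin 2) ℤ) 1 1 = u := rfl
    clear_value δ
    apply Units.ext
    ext i j
    fin_cases i <;> fin_cases j
    all_goals
      simp [val_heckeDiagMatrix hN, Matrix.mul_apply, Fin.sum_univ_two, val_upperTriangularGL]
    · rw [← ha, hδ00]; push_cast; linear_combination (-(a : ℝ)) * H4
    · rw [← hb, hδ00, hδ01]; push_cast
      linear_combination (-((b : ℝ) * v * c1)) * H4 + (-((b : ℝ) * v * N1)) * H3
        + (-((N : ℝ) * b)) * H1 + (-((N1 : ℝ) * v)) * H2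
    · rw [← hc, hδ10]; linear_combination H3
    · rw [← hd, hδ10, hδ11]
      linear_combination ((u : ℝ) * N1) * H2 + (-(d : ℝ)) * H1 + ((u : ℝ) * b * N1) * H3
        + ((u : ℝ) * b * c1) * H4


/-- The discriminant is invariant under `z ↦ z + 1`. -/
theorem conj_discriminant_one_vadd (w : ℍ) :
    ModularForm.discriminant ((1 : ℝ) +ᵥ w) = ModularForm.discriminant w := by
  have hper := SlashInvariantFormClass.periodic_comp_ofComplex CuspForm.discriminant
    one_mem_strictPeriods_SL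
  have h1 := hper (w : ℂ)
  simp only [Function.comp_apply, CuspForm.coe_discriminant] at h1
  rw [UpperHalfPlane.ofComplex_apply] at h1
  rw [← h1]
  congr 1
  have : ((w : ℂ) + ((1 : ℝ) : ℂ)) = (((1 : ℝ) +ᵥ w : ℍ) : ℂ) := by
    rw [UpperHalfPlane.coe_vadd]; ring
  rw [this, UpperHalfPlane.ofComplex_apply]

/-- **D2.** The stabiliser of `TN N` in `SL(2, ℤ)` is `Γ₀(N)`. -/
theorem mem_Gamma0_of_TN_slash_eq (N : ℕ) [NeZero N] (γ : SL(2, ℤ))
    (h : (TN N) ∣[(12:ℤ)] γ = TN N) : γ ∈ CongruenceSubgroup.Gamma0 N := by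
  have hN : N ≠ 0 := NeZero.ne N
  obtain ⟨δ, g, N1, B, had, hgpos, hN1pos, hgN1, hgdvd, hfac⟩ := conj_exists_factor N γ
  have hpos : (0 : ℝ) < (g : ℝ) * (N1 : ℝ) := by positivity
  set β := upperTriangularGL g B N1 had with hβ
  -- `TN N ∣ γ = Δ ∣ β`
  have hslash : TN N ∣[(12:ℤ)] γ = ModularForm.discriminant ∣[(12:ℤ)] β := by
    rw [ModularForm.SL_slash, TN, ← SlashAction.slash_mul, hfac, SlashAction.slash_mul]
    congr 1
    rw [← ModularForm.SL_slash]
    exact SlashInvariantForm.slash_action_generators_SL2Z discriminant_S_invariant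
      discriminant_T_invariant δ
  rw [hslash] at h
  -- pointwise form
  have hpt : ∀ z : ℍ, ModularForm.discriminant (β • z) * (((g : ℝ) * (N1 : ℝ) : ℝ) : ℂ) ^ (11 : ℤ)
      * ((N1 : ℝ) : ℂ) ^ (-(12 : ℤ)) =
      (N : ℂ) ^ (11 : ℕ) * ModularForm.discriminant (heckeDiagMatrix N • z) := by
    intro z
    have h1 := congrFun h z
    rw [conj_slash_upperTriangularGL_apply 12 _ _ _ had hpos, TN_apply hN] at h1
    simpa using h1
  have hNcast : (((g : ℝ) * (N1 : ℝ) : ℝ) : ℂ) = (N : ℂ) := by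
    rw [← hgN1]; push_cast; ring
  have hNne : (N : ℂ) ≠ 0 := by exact_mod_cast hN
  have hN1ne : ((N1 : ℝ) : ℂ) ≠ 0 := by
    have : (N1 : ℝ) ≠ 0 := by exact_mod_cast hN1pos.ne'
    exact_mod_cast this
  -- so `Δ (β • z) = N1 ^ 12 * Δ (α • z)`
  have hpt' : ∀ z : ℍ, ModularForm.discriminant (β • z) =
      ((N1 : ℝ) : ℂ) ^ (12 : ℤ) * ModularForm.discriminant (heckeDiagMatrix N • z) := by
    intro z
    have h1 := hpt z
    rw [hNcast] at h1
    have h2 : (N : ℂ) ^ (11 : ℤ) = (N : ℂ) ^ (11 : ℕ) := by norm_cast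
    rw [h2] at h1
    have h3 : (N : ℂ) ^ (11 : ℕ) ≠ 0 := pow_ne_zero _ hNne
    have h4 : ((N1 : ℝ) : ℂ) ^ (-(12 : ℤ)) * ((N1 : ℝ) : ℂ) ^ (12 : ℤ) = 1 := by
      rw [← zpow_add₀ hN1ne]; simp
    have h5 : (N : ℂ) ^ (11 : ℕ) * (ModularForm.discriminant (β • z) * ((N1 : ℝ) : ℂ) ^ (-(12 : ℤ)))
        = (N : ℂ) ^ (11 : ℕ) * ModularForm.discriminant (heckeDiagMatrix N • z) := by
      rw [← h1]; ring
    have h6 := mul_left_cancel₀ h3 h5
    calc ModularForm.discriminant (β • z)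
        = (ModularForm.discriminant (β • z) * ((N1 : ℝ) : ℂ) ^ (-(12 : ℤ))) * ((N1 : ℝ) : ℂ) ^ (12 : ℤ) := by
          rw [mul_assoc, h4, mul_one]
      _ = _ := by rw [h6]; ring
  -- translation by `1 / N`
  set t : ℝ := (g : ℝ) / ((N : ℝ) * (N1 : ℝ)) with ht
  have hNR : (N : ℝ) ≠ 0 := by exact_mod_cast hN
  have hN1R : (N1 : ℝ) ≠ 0 := by exact_mod_cast hN1pos.ne'
  have hα : ∀ z : ℍ, heckeDiagMatrix N • (((1 : ℝ) / (N : ℝ)) +ᵥ z) =
      (1 : ℝ) +ᵥ (heckeDiagMatrix N • z) := by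
    intro z
    apply UpperHalfPlane.ext
    rw [coe_heckeDiagMatrix_smul hN, UpperHalfPlane.coe_vadd, UpperHalfPlane.coe_vadd,
      coe_heckeDiagMatrix_smul hN]
    push_cast
    field_simp
  have hβsmul : ∀ z : ℍ, β • (((1 : ℝ) / (N : ℝ)) +ᵥ z) = t +ᵥ (β • z) := by
    intro z
    apply UpperHalfPlane.ext
    rw [hβ, conj_coe_upperTriangularGL_smul _ _ _ had hpos, UpperHalfPlane.coe_vadd,
      UpperHalfPlane.coe_vadd, conj_coe_upperTriangularGL_smul _ _ _ had hpos, ht]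
    push_cast
    field_simp
    ring
  have hper : ∀ w : ℍ, ModularForm.discriminant (t +ᵥ w) = ModularForm.discriminant w := by
    intro w
    obtain ⟨z, rfl⟩ : ∃ z : ℍ, β • z = w := ⟨β⁻¹ • w, smul_inv_smul β w⟩
    rw [← hβsmul, hpt', hα, conj_discriminant_one_vadd, ← hpt']
  obtain ⟨n, hn⟩ := conj_int_of_discriminant_vadd t hper
  -- `t = 1 / N1 ^ 2`, so `N1 = 1`
  have hgR : (g : ℝ) * (N1 : ℝ) = (N : ℝ) := by exact_mod_cast hgN1
  have ht2 : t * ((N1 : ℝ) * (N1 : ℝ)) = 1 := by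
    rw [ht, ← hgR]
    have hg0 : (g : ℝ) ≠ 0 := by exact_mod_cast hgpos.ne'
    field_simp
  rw [hn] at ht2
  have ht3 : n * ((N1 : ℤ) * (N1 : ℤ)) = 1 := by exact_mod_cast ht2
  have hN1one : N1 = 1 := by
    have hdvd : (N1 : ℤ) ∣ 1 := ⟨n * N1, by rw [← ht3]; ring⟩
    have := Int.eq_one_of_dvd_one (by positivity) hdvd
    exact_mod_cast this
  rw [hN1one, mul_one] at hgN1
  rw [CongruenceSubgroup.Gamma0_mem, ZMod.intCast_zmod_eq_zero_iff_dvd, ← hgN1]
  exact hgdvd

/-! ### D1: the `q`-expansion of `TN N` -/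

theorem conj_qParam_heckeDiagMatrix_smul (N : ℕ) [NeZero N] (τ : ℍ) :
    Function.Periodic.qParam 1 ((ModularForm.heckeDiagMatrix N • τ : ℍ) : ℂ) =
      Function.Periodic.qParam 1 (τ : ℂ) ^ N := by
  rw [ModularForm.coe_heckeDiagMatrix_smul (NeZero.ne N)]
  simp only [Function.Periodic.qParam, Complex.ofReal_one, div_one]
  rw [← Complex.exp_nat_mul]
  congr 1
  ring

theorem conj_nice_discriminant : Nice ModularForm.discriminant where
  holo := ModularFormClass.holo CuspForm.discriminant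
  per := by
    have h := SlashInvariantFormClass.periodic_comp_ofComplex CuspForm.discriminant
      (h := 1) (by simp)
    simpa using h
  bdd := ModularFormClass.bdd_at_infty CuspForm.discriminant

/-- The coefficients of the `q`-expansion of `TN N` in terms of those of `Δ`. -/
noncomputable def conjCoeff (N : ℕ) (m : ℕ) : ℂ :=
  if N ∣ m then (N : ℂ) ^ (11 : ℕ) * (qExpansion 1 ModularForm.discriminant).coeff (m / N) else 0

theorem conj_hasSum_TN (N : ℕ) [NeZero N] (τ : ℍ) :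
    HasSum (fun m : ℕ => conjCoeff N m • Function.Periodic.qParam 1 (τ : ℂ) ^ m) (TN N τ) := by
  have hN : N ≠ 0 := NeZero.ne N
  have hniceΔ : Nice ModularForm.discriminant := conj_nice_discriminant
  have h1 := hasSum_qExpansion (h := 1) one_pos hniceΔ.per hniceΔ.holo hniceΔ.bdd
    (ModularForm.heckeDiagMatrix N • τ)
  rw [conj_qParam_heckeDiagMatrix_smul] at h1
  have h2 := h1.mul_left ((N : ℂ) ^ (11 : ℕ))
  rw [← TN_apply hN τ] at h2
  have hinj : Function.Injective (fun m : ℕ => N * m) :=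
    fun x y hxy => Nat.eq_of_mul_eq_mul_left (Nat.pos_of_ne_zero hN) hxy
  have hzero : ∀ x ∉ Set.range (fun m : ℕ => N * m),
      (fun m : ℕ => conjCoeff N m • Function.Periodic.qParam 1 (τ : ℂ) ^ m) x = 0 := by
    intro x hx
    have : ¬ N ∣ x := by
      rintro ⟨y, rfl⟩
      exact hx ⟨y, rfl⟩
    simp [conjCoeff, this]
  have hfun : ((fun m : ℕ => conjCoeff N m • Function.Periodic.qParam 1 (τ : ℂ) ^ m) ∘
      fun m : ℕ => N * m) =
      fun i : ℕ => (N : ℂ) ^ (11 : ℕ) * ((qExpansion 1 ModularForm.discriminant).coeff i •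
        (Function.Periodic.qParam 1 (τ : ℂ) ^ N) ^ i) := by
    funext m
    simp only [Function.comp_apply, conjCoeff, dvd_mul_right, if_true, smul_eq_mul,
      Nat.mul_div_cancel_left m (Nat.pos_of_ne_zero hN), pow_mul]
    ring
  rw [← hinj.hasSum_iff hzero, hfun]
  exact h2

theorem conj_TN_qExpansion_coeff_eq (N : ℕ) [NeZero N] (n : ℕ) :
    (qExpansion 1 (TN N)).coeff n = conjCoeff N n := by
  have h1 : AnalyticAt ℂ (cuspFunction 1 (⇑(TNForm N))) 0 := (nice_TN N).analyticAt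
  have h2 : ∀ τ : ℍ, HasSum (fun m : ℕ => conjCoeff N m • Function.Periodic.qParam 1 (τ : ℂ) ^ m)
      (TNForm N τ) := conj_hasSum_TN N
  have h3 := qExpansion_coeff_unique (TNForm N) one_pos h1 h2 n
  rw [h3, coe_TNForm]

/-- The `q`-expansion of `TN N`: `TN N = N^11 * Δ(N z)`. -/
theorem TN_qExpansion_coeff (N : ℕ) [NeZero N] (n : ℕ) :
    (qExpansion 1 (TN N)).coeff n =
      if N ∣ n then (N : ℂ) ^ (11 : ℕ) * (qExpansion 1 ModularForm.discriminant).coeff (n / N)
      else 0 := by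
  rw [conj_TN_qExpansion_coeff_eq, conjCoeff]

theorem TN_qExpansion_coeff_int (N : ℕ) [NeZero N]
    (hτ : ∀ n, ∃ m : ℤ, (qExpansion 1 ModularForm.discriminant).coeff n = (m : ℂ)) (n : ℕ) :
    ∃ m : ℤ, (qExpansion 1 (TN N)).coeff n = (m : ℂ) := by
  rw [TN_qExpansion_coeff]
  split_ifs with h
  · obtain ⟨m, hm⟩ := hτ (n / N)
    exact ⟨(N : ℤ) ^ 11 * m, by rw [hm]; push_cast; ring⟩
  · exact ⟨0, by simp⟩

end Fermat.Agent.S23
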