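import Mathlib
import Fermat.Agent.S23.Defs

/-!
# Bounded denominators from integrality (for S23)

Pure algebra on `PowerSeries ℂ`.  A power series has *bounded denominators* (`BddDenom`) if a
nonzero natural multiple of it has integer coefficients.  Main result
`bddDenom_of_integral_of_fraction_span`: a power series `f` with rational coefficients which

* is a root of a monic polynomial whose coefficients are `ℂ`-linear combinations of series with
  bounded denominators, and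
* satisfies `f * B = A` with `A`, `B` such combinations and `B ≠ 0`,

has bounded denominators.  The proof applies `ℚ`-linear functionals `ℂ → ℚ` coefficientwise and
then uses that `ℤ⟦X⟧` is a unique factorisation domain, hence integrally closed.
-/

set_option autoImplicit false

namespace Fermat.Agent.S23

open PowerSeries

/-- Some positive natural multiple of the power series has integer coefficients. -/
def BddDenom (ρ : PowerSeries ℂ) : Prop :=
  ∃ M : ℕ, 0 < M ∧ ∀ n : ℕ, ∃ m : ℤ, (M : ℂ) * PowerSeries.coeff n ρ = (m : ℂ)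

/-- The `ℂ`-span of the power series with bounded denominators. -/
def bddSpan : Submodule ℂ (PowerSeries ℂ) :=
  Submodule.span ℂ {ρ : PowerSeries ℂ | BddDenom ρ}

/-- The embedding `ℤ⟦X⟧ → ℂ⟦X⟧`. -/
noncomputable def denomIntEmb : PowerSeries ℤ →+* PowerSeries ℂ :=
  PowerSeries.map (Int.castRingHom ℂ)

theorem denomIntEmb_injective : Function.Injective denomIntEmb := by
  intro P Q h
  ext n
  have := congrArg (PowerSeries.coeff n) h
  simpa [denomIntEmb] using this

theorem denom_coeff_natCast_mul (M : ℕ) (ρ : PowerSeries ℂ) (n : ℕ) :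
    PowerSeries.coeff n ((M : PowerSeries ℂ) * ρ) = (M : ℂ) * PowerSeries.coeff n ρ := by
  have h : (M : PowerSeries ℂ) = PowerSeries.C (M : ℂ) := by simp
  rw [h, PowerSeries.coeff_C_mul]

theorem bddDenom_iff (ρ : PowerSeries ℂ) :
    BddDenom ρ ↔ ∃ M : ℕ, 0 < M ∧ ∃ P : PowerSeries ℤ, (M : PowerSeries ℂ) * ρ = denomIntEmb P := by
  constructor
  · rintro ⟨M, hM, h⟩
    choose m hm using h
    refine ⟨M, hM, PowerSeries.mk m, ?_⟩
    ext n
    rw [denom_coeff_natCast_mul, hm n]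
    simp [denomIntEmb]
  · rintro ⟨M, hM, P, hP⟩
    refine ⟨M, hM, fun n => ⟨PowerSeries.coeff n P, ?_⟩⟩
    rw [← denom_coeff_natCast_mul, hP]
    simp [denomIntEmb]

theorem BddDenom.zero : BddDenom 0 := ⟨1, one_pos, fun n => ⟨0, by simp⟩⟩

theorem bddDenom_denomIntEmb (P : PowerSeries ℤ) : BddDenom (denomIntEmb P) :=
  (bddDenom_iff _).2 ⟨1, one_pos, P, by simp⟩

theorem BddDenom.add {ρ₁ ρ₂ : PowerSeries ℂ} (h₁ : BddDenom ρ₁) (h₂ : BddDenom ρ₂) :
    BddDenom (ρ₁ + ρ₂) := by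
  obtain ⟨M₁, hM₁, P₁, hP₁⟩ := (bddDenom_iff _).1 h₁
  obtain ⟨M₂, hM₂, P₂, hP₂⟩ := (bddDenom_iff _).1 h₂
  refine (bddDenom_iff _).2 ⟨M₁ * M₂, Nat.mul_pos hM₁ hM₂, (M₂ : PowerSeries ℤ) * P₁ + (M₁ : PowerSeries ℤ) * P₂, ?_⟩
  rw [map_add, map_mul, map_mul, ← hP₁, ← hP₂]
  simp only [map_natCast, Nat.cast_mul]
  ring

theorem BddDenom.mul {ρ₁ ρ₂ : PowerSeries ℂ} (h₁ : BddDenom ρ₁) (h₂ : BddDenom ρ₂) :
    BddDenom (ρ₁ * ρ₂) := by
  obtain ⟨M₁, hM₁, P₁, hP₁⟩ := (bddDenom_iff _).1 h₁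
  obtain ⟨M₂, hM₂, P₂, hP₂⟩ := (bddDenom_iff _).1 h₂
  refine (bddDenom_iff _).2 ⟨M₁ * M₂, Nat.mul_pos hM₁ hM₂, P₁ * P₂, ?_⟩
  rw [map_mul, ← hP₁, ← hP₂]
  simp only [Nat.cast_mul]
  ring

theorem BddDenom.one : BddDenom 1 := by
  simpa using bddDenom_denomIntEmb 1

theorem BddDenom.pow {ρ : PowerSeries ℂ} (h : BddDenom ρ) (n : ℕ) : BddDenom (ρ ^ n) := by
  induction n with
  | zero => simpa using BddDenom.one
  | succ n ih => rw [pow_succ]; exact ih.mul h

theorem BddDenom.ratCast_mul (r : ℚ) {ρ : PowerSeries ℂ} (h : BddDenom ρ) :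
    BddDenom (PowerSeries.C (r : ℂ) * ρ) := by
  obtain ⟨M, hM, hm⟩ := h
  refine ⟨r.den * M, Nat.mul_pos r.den_pos hM, fun n => ?_⟩
  obtain ⟨m, hm⟩ := hm n
  refine ⟨r.num * m, ?_⟩
  rw [PowerSeries.coeff_C_mul]
  have hr : (r : ℂ) = (r.num : ℂ) / (r.den : ℂ) := by
    exact_mod_cast (Rat.num_div_den r).symm
  have hden : (r.den : ℂ) ≠ 0 := by exact_mod_cast r.den_ne_zero
  push_cast
  rw [hr]
  have : (r.den : ℂ) * (M : ℂ) * ((r.num : ℂ) / (r.den : ℂ) * PowerSeries.coeff n ρ)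
      = (r.num : ℂ) * ((M : ℂ) * PowerSeries.coeff n ρ) := by
    field_simp
  rw [this, hm]

theorem BddDenom.isRat {ρ : PowerSeries ℂ} (h : BddDenom ρ) (n : ℕ) :
    ∃ r : ℚ, PowerSeries.coeff n ρ = (r : ℂ) := by
  obtain ⟨M, hM, hm⟩ := h
  obtain ⟨m, hm⟩ := hm n
  refine ⟨(m : ℚ) / (M : ℚ), ?_⟩
  have hM' : (M : ℂ) ≠ 0 := by exact_mod_cast hM.ne'
  push_cast
  rw [← hm]
  field_simp

/-- A finite family of series with bounded denominators has a common denominator. -/
theorem denom_exists_common {ι : Type*} [Fintype ι] (ρ : ι → PowerSeries ℂ)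
    (h : ∀ i, BddDenom (ρ i)) :
    ∃ M : ℕ, 0 < M ∧ ∀ i, ∃ P : PowerSeries ℤ, (M : PowerSeries ℂ) * ρ i = denomIntEmb P := by
  classical
  have h' := fun i => (bddDenom_iff _).1 (h i)
  choose M hM P hP using h'
  refine ⟨∏ i, M i, Finset.prod_pos fun i _ => hM i, fun i => ?_⟩
  refine ⟨((∏ j ∈ Finset.univ.erase i, M j : ℕ) : PowerSeries ℤ) * P i, ?_⟩
  rw [map_mul, ← hP i, ← Finset.prod_erase_mul Finset.univ M (Finset.mem_univ i)]
  simp only [map_natCast, Nat.cast_mul]
  ring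

/-! ### Coefficientwise application of a `ℚ`-linear functional -/

/-- Apply a `ℚ`-linear functional `ℂ → ℚ` to every coefficient. -/
noncomputable def applyL (l : ℂ →ₗ[ℚ] ℚ) (x : PowerSeries ℂ) : PowerSeries ℂ :=
  PowerSeries.mk fun m => ((l (PowerSeries.coeff m x) : ℚ) : ℂ)

@[simp] theorem coeff_applyL (l : ℂ →ₗ[ℚ] ℚ) (x : PowerSeries ℂ) (m : ℕ) :
    PowerSeries.coeff m (applyL l x) = ((l (PowerSeries.coeff m x) : ℚ) : ℂ) := by
  simp [applyL]

theorem applyL_zero (l : ℂ →ₗ[ℚ] ℚ) : applyL l 0 = 0 := by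
  ext m; simp

theorem applyL_add (l : ℂ →ₗ[ℚ] ℚ) (x y : PowerSeries ℂ) :
    applyL l (x + y) = applyL l x + applyL l y := by
  ext m; simp

theorem applyL_sum (l : ℂ →ₗ[ℚ] ℚ) {ι : Type*} (s : Finset ι) (x : ι → PowerSeries ℂ) :
    applyL l (∑ i ∈ s, x i) = ∑ i ∈ s, applyL l (x i) := by
  classical
  induction s using Finset.induction_on with
  | empty => simp [applyL_zero]
  | insert a s ha ih => rw [Finset.sum_insert ha, Finset.sum_insert ha, applyL_add, ih]

theorem denom_l_ratCast_mul (l : ℂ →ₗ[ℚ] ℚ) (r : ℚ) (c : ℂ) : l ((r : ℂ) * c) = r * l c := by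
  have : (r : ℂ) * c = r • c := by rw [Rat.smul_def]
  rw [this, map_smul, smul_eq_mul]

/-- For `f` with rational coefficients, `applyL l (f * x) = f * applyL l x`. -/
theorem applyL_rat_mul (l : ℂ →ₗ[ℚ] ℚ) {f : PowerSeries ℂ}
    (hf : ∀ n, ∃ r : ℚ, PowerSeries.coeff n f = (r : ℂ)) (x : PowerSeries ℂ) :
    applyL l (f * x) = f * applyL l x := by
  ext m
  rw [coeff_applyL, PowerSeries.coeff_mul, PowerSeries.coeff_mul, map_sum]
  push_cast
  refine Finset.sum_congr rfl fun p _ => ?_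
  obtain ⟨r, hr⟩ := hf p.1
  rw [hr, denom_l_ratCast_mul, coeff_applyL]
  push_cast
  ring

theorem applyL_mul_rat (l : ℂ →ₗ[ℚ] ℚ) {f : PowerSeries ℂ}
    (hf : ∀ n, ∃ r : ℚ, PowerSeries.coeff n f = (r : ℂ)) (x : PowerSeries ℂ) :
    applyL l (x * f) = applyL l x * f := by
  rw [mul_comm, applyL_rat_mul l hf, mul_comm]

/-- `applyL l (c • ρ) = l c • ρ` for `ρ` with rational coefficients. -/
theorem applyL_C_mul (l : ℂ →ₗ[ℚ] ℚ) (c : ℂ) {ρ : PowerSeries ℂ}
    (hρ : ∀ n, ∃ r : ℚ, PowerSeries.coeff n ρ = (r : ℂ)) :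
    applyL l (PowerSeries.C c * ρ) = PowerSeries.C ((l c : ℚ) : ℂ) * ρ := by
  ext m
  rw [coeff_applyL, PowerSeries.coeff_C_mul, PowerSeries.coeff_C_mul]
  obtain ⟨r, hr⟩ := hρ m
  rw [hr, mul_comm, denom_l_ratCast_mul]
  push_cast
  ring

theorem applyL_of_rat (l : ℂ →ₗ[ℚ] ℚ) (hl : l 1 = 1) {x : PowerSeries ℂ}
    (hx : ∀ n, ∃ r : ℚ, PowerSeries.coeff n x = (r : ℂ)) : applyL l x = x := by
  ext m
  obtain ⟨r, hr⟩ := hx m
  rw [coeff_applyL, hr]
  have := denom_l_ratCast_mul l r 1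
  rw [mul_one, hl, mul_one] at this
  rw [this]

/-- A functional maps the `ℂ`-span of the series with bounded denominators to series with
bounded denominators. -/
theorem bddDenom_applyL (l : ℂ →ₗ[ℚ] ℚ) {x : PowerSeries ℂ} (hx : x ∈ bddSpan) :
    BddDenom (applyL l x) := by
  have key : ∀ a : ℂ, BddDenom (applyL l (PowerSeries.C a * x)) := by
    induction hx using Submodule.span_induction with
    | mem ρ hρ =>
      intro a
      rw [applyL_C_mul l a hρ.isRat]
      exact hρ.ratCast_mul _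
    | zero => intro a; rw [mul_zero, applyL_zero]; exact BddDenom.zero
    | add x y _ _ hx hy => intro a; rw [mul_add, applyL_add]; exact (hx a).add (hy a)
    | smul b x _ hx =>
      intro a
      have : PowerSeries.C a * (b • x) = PowerSeries.C (a * b) * x := by
        rw [map_mul, mul_assoc, PowerSeries.smul_eq_C_mul]
      rw [this]
      exact hx _
  simpa using key 1

theorem denom_exists_functional_one : ∃ l : ℂ →ₗ[ℚ] ℚ, l 1 = 1 := by
  let ι : ℚ →ₗ[ℚ] ℂ := (Algebra.linearMap ℚ ℂ)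
  have hι : LinearMap.ker ι = ⊥ := by
    rw [LinearMap.ker_eq_bot]
    exact (algebraMap ℚ ℂ).injective
  obtain ⟨g, hg⟩ := LinearMap.exists_leftInverse_of_injective ι hι
  refine ⟨g, ?_⟩
  have := congrArg (fun φ : ℚ →ₗ[ℚ] ℚ => φ 1) hg
  simpa [ι] using this

theorem denom_exists_functional_ne_zero {b : ℂ} (hb : b ≠ 0) : ∃ l : ℂ →ₗ[ℚ] ℚ, l b ≠ 0 := by
  let ι : ℚ →ₗ[ℚ] ℂ := LinearMap.toSpanSingleton ℚ ℂ b
  have hι : LinearMap.ker ι = ⊥ := by
    rw [LinearMap.ker_eq_bot]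
    intro r s hrs
    simp only [ι, LinearMap.toSpanSingleton_apply] at hrs
    exact smul_left_injective ℚ hb hrs
  obtain ⟨g, hg⟩ := LinearMap.exists_leftInverse_of_injective ι hι
  refine ⟨g, ?_⟩
  have := congrArg (fun φ : ℚ →ₗ[ℚ] ℚ => φ 1) hg
  simp only [ι, LinearMap.coe_comp, Function.comp_apply, LinearMap.toSpanSingleton_apply,
    one_smul, LinearMap.id_coe, id_eq] at this
  rw [this]
  exact one_ne_zero

/-! ### Integrally closed domains -/

/-- In an integrally closed domain, a homogenised monic relation between `a` and `b ≠ 0`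
forces `b ∣ a`. -/
theorem denom_dvd_of_homogeneous_monic {R : Type*} [CommRing R] [IsDomain R] [IsIntegrallyClosed R]
    (a b : R) (hb : b ≠ 0) {n : ℕ} (γ : Fin (n + 1) → R)
    (h : a ^ (n + 1) + ∑ j : Fin (n + 1), γ j * a ^ (n - (j : ℕ)) * b ^ ((j : ℕ) + 1) = 0) :
    b ∣ a := by
  classical
  let K := FractionRing R
  set A : K := algebraMap R K a with hA
  set B : K := algebraMap R K b with hB
  have hB0 : B ≠ 0 := by
    simpa [hB] using (IsFractionRing.to_map_ne_zero_of_mem_nonZeroDivisors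
      (mem_nonZeroDivisors_of_ne_zero hb) : algebraMap R K b ≠ 0)
  let x : K := A / B
  let p : Polynomial R := ∑ j : Fin (n + 1), Polynomial.C (γ j) * Polynomial.X ^ (n - (j : ℕ))
  have hpdeg : p.degree < ((n + 1 : ℕ) : WithBot ℕ) := by
    refine lt_of_le_of_lt (Polynomial.degree_sum_le _ _) ?_
    rw [Finset.sup_lt_iff (by exact_mod_cast WithBot.bot_lt_coe (n + 1))]
    intro j _
    refine lt_of_le_of_lt (Polynomial.degree_C_mul_X_pow_le _ _) ?_
    exact_mod_cast Nat.lt_succ_of_le (Nat.sub_le n j)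
  have hmonic : (Polynomial.X ^ (n + 1) + p).Monic := Polynomial.monic_X_pow_add hpdeg
  have hroot : Polynomial.aeval x (Polynomial.X ^ (n + 1) + p) = 0 := by
    have hBpow : B ^ (n + 1) ≠ 0 := pow_ne_zero _ hB0
    apply mul_right_cancel₀ hBpow
    rw [zero_mul]
    simp only [p, map_add, map_pow, Polynomial.aeval_X, map_sum, map_mul, Polynomial.aeval_C]
    rw [add_mul, Finset.sum_mul]
    have h1 : x ^ (n + 1) * B ^ (n + 1) = A ^ (n + 1) := by
      rw [← mul_pow, div_mul_cancel₀ _ hB0]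
    have h2 : ∀ j : Fin (n + 1), algebraMap R K (γ j) * x ^ (n - (j : ℕ)) * B ^ (n + 1)
        = algebraMap R K (γ j) * A ^ (n - (j : ℕ)) * B ^ ((j : ℕ) + 1) := by
      intro j
      have hj : n + 1 = (n - (j : ℕ)) + ((j : ℕ) + 1) := by
        have := j.2; omega
      have hBj : B ^ (n + 1) = B ^ (n - (j : ℕ)) * B ^ ((j : ℕ) + 1) := by
        rw [← pow_add, ← hj]
      rw [hBj, mul_assoc, ← mul_assoc (x ^ (n - (j : ℕ))), ← mul_pow, div_mul_cancel₀ _ hB0,
        ← mul_assoc]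
    rw [h1, Finset.sum_congr rfl fun j _ => h2 j]
    have := congrArg (algebraMap R K) h
    simpa [hA, hB] using this
  have hint : IsIntegral R x := ⟨_, hmonic, by simpa [Polynomial.aeval_def] using hroot⟩
  obtain ⟨y, hy⟩ := IsIntegrallyClosed.isIntegral_iff.1 hint
  refine ⟨y, ?_⟩
  apply IsFractionRing.injective R K
  rw [map_mul, hy]
  simp only [x]
  rw [mul_div_cancel₀ _ hB0]


/-! ### The main theorem -/

theorem denom_isRat_pow {f : PowerSeries ℂ} (hf : ∀ n, ∃ r : ℚ, PowerSeries.coeff n f = (r : ℂ))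
    (k : ℕ) : ∀ n, ∃ r : ℚ, PowerSeries.coeff n (f ^ k) = (r : ℂ) := by
  have hmem : f ∈ (PowerSeries.map (algebraMap ℚ ℂ)).range := by
    choose r hr using hf
    refine ⟨PowerSeries.mk r, ?_⟩
    ext n
    simp [hr n]
  obtain ⟨P, hP⟩ := Subring.pow_mem _ hmem k
  intro n
  refine ⟨PowerSeries.coeff n P, ?_⟩
  rw [← hP]
  simp

/-- **Bounded denominators from integrality.**  A power series `f` with rational coefficients
that is a root of a monic polynomial with coefficients in `bddSpan` and satisfies `f * B = A` with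
`A, B ∈ bddSpan`, `B ≠ 0`, has bounded denominators. -/
theorem bddDenom_of_integral_of_fraction_span (f : PowerSeries ℂ)
    (hf : ∀ n, ∃ r : ℚ, PowerSeries.coeff n f = (r : ℂ))
    {n : ℕ} (β : Fin (n + 1) → PowerSeries ℂ) (hβ : ∀ j, β j ∈ bddSpan)
    (hmonic : f ^ (n + 1) + ∑ j : Fin (n + 1), β j * f ^ (n - (j : ℕ)) = 0)
    (A B : PowerSeries ℂ) (hA : A ∈ bddSpan) (hB : B ∈ bddSpan) (hB0 : B ≠ 0)
    (hAB : f * B = A) : BddDenom f := by
  classical
  -- Step 1: make the monic equation have coefficients with bounded denominators.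
  obtain ⟨l₁, hl₁⟩ := denom_exists_functional_one
  have hm' : f ^ (n + 1) + ∑ j : Fin (n + 1), applyL l₁ (β j) * f ^ (n - (j : ℕ)) = 0 := by
    have h0 := congrArg (applyL l₁) hmonic
    rw [applyL_zero, applyL_add, applyL_sum, applyL_of_rat l₁ hl₁ (denom_isRat_pow hf _)] at h0
    rw [← h0]
    congr 1
    refine Finset.sum_congr rfl fun j _ => ?_
    rw [applyL_mul_rat l₁ (denom_isRat_pow hf _)]
  -- Step 2: make the fraction have numerator and denominator with bounded denominators.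
  obtain ⟨m, hm⟩ : ∃ m, PowerSeries.coeff m B ≠ 0 := by
    by_contra hcon
    push Not at hcon
    exact hB0 (PowerSeries.ext fun m => by simpa using hcon m)
  obtain ⟨l₂, hl₂⟩ := denom_exists_functional_ne_zero hm
  have hAB' : f * applyL l₂ B = applyL l₂ A := by
    rw [← applyL_rat_mul l₂ hf, hAB]
  have hB'0 : applyL l₂ B ≠ 0 := by
    intro h
    have := congrArg (PowerSeries.coeff m) h
    rw [coeff_applyL] at this
    simp only [map_zero, Rat.cast_eq_zero] at this
    exact hl₂ this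
  -- Step 3: common denominator.
  let ρ : Fin (n + 1) ⊕ Fin 2 → PowerSeries ℂ := fun s =>
    match s with
    | Sum.inl j => applyL l₁ (β j)
    | Sum.inr i => if i = 0 then applyL l₂ A else applyL l₂ B
  have hρ : ∀ s, BddDenom (ρ s) := by
    rintro (j | i)
    · exact bddDenom_applyL l₁ (hβ j)
    · by_cases hi : i = 0
      · simp only [ρ, hi, if_true]; exact bddDenom_applyL l₂ hA
      · simp only [ρ, hi, if_false]; exact bddDenom_applyL l₂ hB
  obtain ⟨M, hM, hP⟩ := denom_exists_common ρ hρ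
  choose P hP using hP
  have hMne : (M : PowerSeries ℂ) ≠ 0 := by
    intro h
    have h1 := congrArg (PowerSeries.coeff 0) h
    have h2 := denom_coeff_natCast_mul M 1 0
    rw [mul_one] at h2
    rw [h2] at h1
    simp only [PowerSeries.coeff_zero_eq_constantCoeff, map_one, mul_one, map_zero,
      Nat.cast_eq_zero] at h1
    exact hM.ne' h1
  have hβP : ∀ j : Fin (n + 1), (M : PowerSeries ℂ) * applyL l₁ (β j) = denomIntEmb (P (Sum.inl j)) :=
    fun j => hP (Sum.inl j)
  have hAP : (M : PowerSeries ℂ) * applyL l₂ A = denomIntEmb (P (Sum.inr 0)) := by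
    simpa [ρ] using hP (Sum.inr 0)
  have hBP : (M : PowerSeries ℂ) * applyL l₂ B = denomIntEmb (P (Sum.inr 1)) := by
    simpa [ρ] using hP (Sum.inr 1)
  set a : PowerSeries ℤ := P (Sum.inr 0) with ha
  set b : PowerSeries ℤ := P (Sum.inr 1) with hb
  have hb0 : b ≠ 0 := by
    intro h
    rw [h, map_zero] at hBP
    rcases mul_eq_zero.1 hBP with h' | h'
    · exact hMne h'
    · exact hB'0 h'
  have heb0 : denomIntEmb b ≠ 0 := fun h => hb0 (denomIntEmb_injective (by rw [h, map_zero]))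
  -- Step 4: the integral element.
  set g : PowerSeries ℂ := (M : PowerSeries ℂ) * f with hg
  have hMcast : denomIntEmb (M : PowerSeries ℤ) = (M : PowerSeries ℂ) := by simp [denomIntEmb]
  have rel1 : g * denomIntEmb b = denomIntEmb ((M : PowerSeries ℤ) * a) := by
    rw [map_mul, hMcast, ← hAP, ← hBP, ← hAB', hg]
    ring
  let γ : Fin (n + 1) → PowerSeries ℤ := fun j => (M : PowerSeries ℤ) ^ (j : ℕ) * P (Sum.inl j)
  have rel2 : g ^ (n + 1) + ∑ j : Fin (n + 1), denomIntEmb (γ j) * g ^ (n - (j : ℕ)) = 0 := by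
    have h0 : (M : PowerSeries ℂ) ^ (n + 1) *
        (f ^ (n + 1) + ∑ j : Fin (n + 1), applyL l₁ (β j) * f ^ (n - (j : ℕ))) = 0 := by
      rw [hm', mul_zero]
    rw [← h0, mul_add, Finset.mul_sum, hg, mul_pow]
    congr 1
    refine Finset.sum_congr rfl fun j _ => ?_
    have hj : n + 1 = (j : ℕ) + 1 + (n - (j : ℕ)) := by have := j.2; omega
    have hMj : (M : PowerSeries ℂ) ^ (n + 1)
        = (M : PowerSeries ℂ) ^ (j : ℕ) * (M : PowerSeries ℂ) * (M : PowerSeries ℂ) ^ (n - (j : ℕ)) := by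
      rw [← pow_succ, ← pow_add, ← hj]
    simp only [γ]
    rw [map_mul, map_pow, hMcast, ← hβP j, mul_pow, hMj]
    ring
  have hhom : ((M : PowerSeries ℤ) * a) ^ (n + 1)
      + ∑ j : Fin (n + 1), γ j * ((M : PowerSeries ℤ) * a) ^ (n - (j : ℕ)) * b ^ ((j : ℕ) + 1) = 0 := by
    apply denomIntEmb_injective
    rw [map_zero, map_add, map_pow, map_sum, ← rel1]
    have h0 : denomIntEmb b ^ (n + 1) *
        (g ^ (n + 1) + ∑ j : Fin (n + 1), denomIntEmb (γ j) * g ^ (n - (j : ℕ))) = 0 := by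
      rw [rel2, mul_zero]
    rw [← h0, mul_add, Finset.mul_sum, mul_pow]
    congr 1
    · ring
    · refine Finset.sum_congr rfl fun j _ => ?_
      have hj : n + 1 = (n - (j : ℕ)) + ((j : ℕ) + 1) := by have := j.2; omega
      have hbj : denomIntEmb b ^ (n + 1) = denomIntEmb b ^ (n - (j : ℕ)) * denomIntEmb b ^ ((j : ℕ) + 1) := by
        rw [← pow_add, ← hj]
      rw [map_mul, map_mul, map_pow, map_pow, ← rel1, mul_pow, hbj]
      ring
  obtain ⟨r, hr⟩ := denom_dvd_of_homogeneous_monic ((M : PowerSeries ℤ) * a) b hb0 γ hhom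
  have hgr : g = denomIntEmb r := by
    apply mul_right_cancel₀ heb0
    rw [rel1, hr, map_mul, mul_comm]
  exact (bddDenom_iff f).2 ⟨M, hM, r, hgr⟩

/-! ### Bridge to `BD` and `bdAlg` from `Defs.lean` -/

theorem mem_BD_iff_bddDenom (ρ : PowerSeries ℂ) : ρ ∈ BD ↔ BddDenom ρ := Iff.rfl

theorem bddSpan_mul_mem {x y : PowerSeries ℂ} (hx : x ∈ bddSpan) (hy : y ∈ bddSpan) :
    x * y ∈ bddSpan := by
  have h := Submodule.mul_mem_mul hx hy
  rw [bddSpan, Submodule.span_mul_span] at h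
  refine Submodule.span_mono ?_ h
  rintro _ ⟨a, ha, b, hb, rfl⟩
  exact BddDenom.mul ha hb

/-- `bdAlg` (the subalgebra generated by `BD`) is just the `ℂ`-span of `BD`. -/
theorem mem_bddSpan_of_mem_bdAlg {x : PowerSeries ℂ} (hx : x ∈ bdAlg) : x ∈ bddSpan := by
  unfold bdAlg at hx
  induction hx using Algebra.adjoin_induction with
  | mem x hx => exact Submodule.subset_span hx
  | algebraMap r =>
    have h1 : (algebraMap ℂ (PowerSeries ℂ)) r = r • (1 : PowerSeries ℂ) := by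
      rw [Algebra.algebraMap_eq_smul_one]
    rw [h1]
    exact Submodule.smul_mem _ _ (Submodule.subset_span BddDenom.one)
  | add x y _ _ hx hy => exact Submodule.add_mem _ hx hy
  | mul x y _ _ hx hy => exact bddSpan_mul_mem hx hy

theorem mem_bdAlg_of_mem_bddSpan {x : PowerSeries ℂ} (hx : x ∈ bddSpan) : x ∈ bdAlg := by
  have h : bddSpan ≤ Subalgebra.toSubmodule bdAlg :=
    Submodule.span_le.2 fun ρ hρ => BD_subset_bdAlg hρ
  exact h hx

theorem mem_bdAlg_iff (x : PowerSeries ℂ) : x ∈ bdAlg ↔ x ∈ bddSpan :=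
  ⟨mem_bddSpan_of_mem_bdAlg, mem_bdAlg_of_mem_bddSpan⟩

/-- **Bounded denominators from integrality**, in terms of `BD` and `bdAlg`.
A power series `f` with rational coefficients that is a root of a monic polynomial with
coefficients in `bdAlg` and satisfies `f * B = A` with `A, B ∈ bdAlg`, `B ≠ 0`, lies in `BD`. -/
theorem mem_BD_of_integral_of_fraction (f : PowerSeries ℂ)
    (hf : ∀ n, ∃ r : ℚ, PowerSeries.coeff n f = (r : ℂ))
    {n : ℕ} (β : Fin (n + 1) → PowerSeries ℂ) (hβ : ∀ j, β j ∈ bdAlg)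
    (hmonic : f ^ (n + 1) + ∑ j : Fin (n + 1), β j * f ^ (n - (j : ℕ)) = 0)
    (A B : PowerSeries ℂ) (hA : A ∈ bdAlg) (hB : B ∈ bdAlg) (hB0 : B ≠ 0)
    (hAB : f * B = A) : f ∈ BD :=
  bddDenom_of_integral_of_fraction_span f hf β (fun j => mem_bddSpan_of_mem_bdAlg (hβ j)) hmonic A B
    (mem_bddSpan_of_mem_bdAlg hA) (mem_bddSpan_of_mem_bdAlg hB) hB0 hAB

/-- Variant with the monic relation written as a sum over `Finset.range (d + 1)` with leading
coefficient `c 0 = 1` (the shape produced by `charpoly_eval` in `Vieta.lean`). -/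
theorem mem_BD_of_integral_of_fraction_range (f : PowerSeries ℂ)
    (hf : ∀ n, ∃ r : ℚ, PowerSeries.coeff n f = (r : ℂ))
    (d : ℕ) (c : ℕ → PowerSeries ℂ) (hc : ∀ j, c j ∈ bdAlg) (hc0 : c 0 = 1)
    (hmonic : ∑ j ∈ Finset.range (d + 1), c j * f ^ (d - j) = 0)
    (A B : PowerSeries ℂ) (hA : A ∈ bdAlg) (hB : B ∈ bdAlg) (hB0 : B ≠ 0)
    (hAB : f * B = A) : f ∈ BD := by
  cases d with
  | zero =>
    exfalso
    simp [hc0] at hmonic
  | succ n =>
    refine mem_BD_of_integral_of_fraction f hf (n := n) (fun j => c ((j : ℕ) + 1))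
      (fun j => hc _) ?_ A B hA hB hB0 hAB
    rw [Finset.sum_range_succ'] at hmonic
    simp only [hc0, Nat.sub_zero, one_mul, Nat.add_sub_add_right] at hmonic
    rw [add_comm] at hmonic
    rw [← hmonic]
    congr 1
    exact Fin.sum_univ_eq_sum_range (fun j => c (j + 1) * f ^ (n - j)) (n + 1)

/-- **Bounded denominators from integrality** (exact shape of the S23 skeleton, module
`H_Denominators`): monic relation of degree `n` indexed by `Fin n`. -/
theorem bddDenom_of_integral_of_fraction (f : PowerSeries ℂ)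
    (hf : ∀ n, ∃ r : ℚ, PowerSeries.coeff n f = (r : ℂ)) {n : ℕ}
    (β : Fin n → PowerSeries ℂ) (hβ : ∀ i, β i ∈ bdAlg)
    (hmonic : f ^ n + ∑ i : Fin n, β i * f ^ (n - 1 - (i : ℕ)) = 0)
    (A B : PowerSeries ℂ) (hA : A ∈ bdAlg) (hB : B ∈ bdAlg) (hB0 : B ≠ 0) (hAB : f * B = A) :
    f ∈ BD := by
  cases n with
  | zero =>
    exfalso
    simp at hmonic
  | succ m =>
    refine mem_BD_of_integral_of_fraction f hf (n := m) β hβ ?_ A B hA hB hB0 hAB
    simpa only [Nat.add_sub_cancel] using hmonic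

end Fermat.Agent.S23
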