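import Fermat.Agent.Lib.IntStruct.LevelOne
import Fermat.Agent.S23.Defs

/-!
# Level-one inputs for S23 (module `C_LevelOne`)

Restatements, under the names used by the S23 plan, of the level-one results proved in
`Fermat/Agent/Lib/IntStruct/LevelOne.lean`.
-/

open UpperHalfPlane ModularForm MatrixGroups

set_option autoImplicit false

namespace Fermat.Agent.S23

/-- (C1) The q-expansion of the modular discriminant has integer coefficients. -/
theorem discriminant_qExpansion_coeff_int (n : ℕ) :
    ∃ m : ℤ, (qExpansion 1 ModularForm.discriminant).coeff n = (m : ℂ) :=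
  Fermat.Agent.Lib.IntStruct.LevelOne.discriminant_qExpansion_coeff_int n

/-- (C2) Level-one modular forms can be twisted by any ring hom `σ : ℂ →+* ℂ`. -/
theorem levelOne_exists_twist (σ : ℂ →+* ℂ) {k : ℤ} (g : ModularForm 𝒮ℒ k) :
    ∃ g' : ModularForm 𝒮ℒ k, qExpansion 1 g' = (qExpansion 1 g).map σ :=
  Fermat.Agent.Lib.IntStruct.LevelOne.twist σ k g

/-- (C3) A level-one modular form with rational q-expansion has bounded denominators. -/
theorem levelOne_bddDenom {k : ℤ} (g : ModularForm 𝒮ℒ k)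
    (hg : ∀ n, ∃ r : ℚ, (qExpansion 1 g).coeff n = (r : ℂ)) :
    ∃ M : ℕ, 0 < M ∧ ∀ n, ∃ m : ℤ, (M : ℂ) * (qExpansion 1 g).coeff n = (m : ℂ) :=
  Fermat.Agent.Lib.IntStruct.LevelOne.bddDenom g hg

/-- (C3') Bounded denominators after applying any `ℚ`-linear functional `ℂ → ℚ`. -/
theorem levelOne_bddDenom_linear {k : ℤ} (g : ModularForm 𝒮ℒ k) (l : ℂ →ₗ[ℚ] ℚ) :
    ∃ M : ℕ, 0 < M ∧ ∀ n, ∃ m : ℤ, (M : ℚ) * l ((qExpansion 1 g).coeff n) = (m : ℚ) :=
  Fermat.Agent.Lib.IntStruct.LevelOne.bddDenom_linear g l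

/-- Level-one modular forms of weight `k` are spanned by those with integral q-expansion. -/
theorem levelOne_span_int (k : ℤ) :
    Submodule.span ℂ {g : ModularForm 𝒮ℒ k |
      ∀ n, ∃ m : ℤ, (qExpansion 1 g).coeff n = (m : ℂ)} = ⊤ :=
  Fermat.Agent.Lib.IntStruct.LevelOne.span_int k

/-- (C3'') The q-expansion of a level-one modular form lies in the algebra generated by the
power series with bounded denominators. -/
theorem levelOne_qExpansion_mem_bdAlg {k : ℤ} (g : ModularForm 𝒮ℒ k) :
    qExpansion 1 g ∈ bdAlg := by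
  have hg : g ∈ Submodule.span ℂ {g : ModularForm 𝒮ℒ k |
      ∀ n, ∃ m : ℤ, (qExpansion 1 g).coeff n = (m : ℂ)} := by
    rw [levelOne_span_int k]
    exact Submodule.mem_top
  induction hg using Submodule.span_induction with
  | mem f hf =>
    refine BD_subset_bdAlg ⟨1, one_pos, fun n => ?_⟩
    obtain ⟨m, hm⟩ := hf n
    exact ⟨m, by rw [hm]; simp⟩
  | zero =>
    rw [FunLike.coe_zero, qExpansion_zero]
    exact Subalgebra.zero_mem _
  | add f g _ _ ihf ihg =>
    rw [FunLike.coe_add, ModularForm.qExpansion_add one_pos one_mem_strictPeriods_SL]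
    exact Subalgebra.add_mem _ ihf ihg
  | smul a f _ ih =>
    rw [FunLike.coe_smul, ModularForm.qExpansion_smul one_pos one_mem_strictPeriods_SL]
    exact Subalgebra.smul_mem _ ih a

end Fermat.Agent.S23
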