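import Mathlib

set_option autoImplicit false

namespace Fermat.Agent.S23

/-- Galois descent for subspaces of `ℂ^n`: auxiliary form, by induction on the dimension. -/
theorem descent_le_span_rational_aux
    (hfix : ∀ x : ℂ, (∀ σ : ℂ →+* ℂ, σ x = x) → ∃ r : ℚ, x = (r : ℂ)) :
    ∀ (d : ℕ) {n : ℕ} (W : Submodule ℂ (Fin n → ℂ)), Module.finrank ℂ W = d →
      (∀ σ : ℂ →+* ℂ, ∀ w ∈ W, (fun i => σ (w i)) ∈ W) →
      W ≤ Submodule.span ℂ {w | w ∈ W ∧ ∀ i, ∃ r : ℚ, w i = (r : ℂ)} := by
  intro d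
  induction d using Nat.strong_induction_on with
  | _ d ih =>
    intro n W hd hW
    classical
    by_cases hbot : W = ⊥
    · rw [hbot]
      exact bot_le
    -- a nonzero vector of minimal support
    have hex : ∃ m : ℕ, ∃ w ∈ W, w ≠ 0 ∧ (Finset.univ.filter (fun i => w i ≠ 0)).card = m := by
      obtain ⟨w, hw, hw0⟩ := (Submodule.ne_bot_iff W).mp hbot
      exact ⟨_, w, hw, hw0, rfl⟩
    obtain ⟨w, hwW, hw0, hwcard⟩ := Nat.find_spec hex
    have hmin : ∀ w' ∈ W, w' ≠ 0 →
        Nat.find hex ≤ (Finset.univ.filter (fun i => w' i ≠ 0)).card := fun w' hw' hw'0 =>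
      Nat.find_min' hex ⟨w', hw', hw'0, rfl⟩
    obtain ⟨i0, hi0⟩ : ∃ i, w i ≠ 0 := by
      by_contra hcon
      push Not at hcon
      exact hw0 (funext hcon)
    -- normalise
    set w1 : Fin n → ℂ := (w i0)⁻¹ • w with hw1
    have hw1W : w1 ∈ W := W.smul_mem _ hwW
    have hw1i0 : w1 i0 = 1 := by
      simp [hw1, hi0]
    have hsupp : ∀ i, w1 i ≠ 0 ↔ w i ≠ 0 := by
      intro i
      simp [hw1, hi0]
    have hw1card : (Finset.univ.filter (fun i => w1 i ≠ 0)).card = Nat.find hex := by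
      rw [← hwcard]
      congr 1
      ext i
      simp only [Finset.mem_filter, Finset.mem_univ, true_and]
      exact hsupp i
    -- `w1` is fixed by every `σ`
    have hfixed : ∀ σ : ℂ →+* ℂ, ∀ i, σ (w1 i) = w1 i := by
      intro σ
      set u : Fin n → ℂ := (fun i => σ (w1 i)) - w1 with hu
      have huW : u ∈ W := W.sub_mem (hW σ w1 hw1W) hw1W
      have hu0 : u = 0 := by
        by_contra hune
        have h1 := hmin u huW hune
        have h2 : (Finset.univ.filter (fun i => u i ≠ 0)).card <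
            (Finset.univ.filter (fun i => w1 i ≠ 0)).card := by
          apply Finset.card_lt_card
          rw [Finset.ssubset_iff_of_subset]
          · refine ⟨i0, ?_, ?_⟩
            · simp [hw1i0]
            · simp [hu, hw1i0]
          · intro i hi
            simp only [Finset.mem_filter, Finset.mem_univ, true_and] at hi ⊢
            intro h0
            apply hi
            simp [hu, h0]
        omega
      intro i
      have := congrFun hu0 i
      simp only [hu, Pi.sub_apply, Pi.zero_apply] at this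
      exact sub_eq_zero.mp this
    have hrat : ∀ i, ∃ r : ℚ, w1 i = (r : ℂ) := fun i =>
      hfix (w1 i) (fun σ => hfixed σ i)
    -- the complement
    set W' : Submodule ℂ (Fin n → ℂ) :=
      W ⊓ LinearMap.ker (LinearMap.proj i0 : (Fin n → ℂ) →ₗ[ℂ] ℂ) with hW'
    have hW'le : W' ≤ W := inf_le_left
    have hW'lt : W' < W := by
      refine lt_of_le_of_ne hW'le ?_
      intro heq
      have : w1 ∈ W' := heq ▸ hw1W
      have h2 : w1 i0 = 0 := by
        simpa [hW'] using this.2
      rw [hw1i0] at h2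
      exact one_ne_zero h2
    have hlt : Module.finrank ℂ W' < d := hd ▸ Submodule.finrank_lt_finrank_of_lt hW'lt
    have hW'stab : ∀ σ : ℂ →+* ℂ, ∀ v ∈ W', (fun i => σ (v i)) ∈ W' := by
      intro σ v hv
      refine ⟨hW σ v hv.1, ?_⟩
      have h2 : v i0 = 0 := by simpa using hv.2
      simp [h2]
    have hIH := ih _ hlt W' rfl hW'stab
    have hmono : Submodule.span ℂ {w | w ∈ W' ∧ ∀ i, ∃ r : ℚ, w i = (r : ℂ)} ≤
        Submodule.span ℂ {w | w ∈ W ∧ ∀ i, ∃ r : ℚ, w i = (r : ℂ)} :=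
      Submodule.span_mono fun v hv => ⟨hW'le hv.1, hv.2⟩
    intro v hv
    have hdecomp : v = (v i0) • w1 + (v - (v i0) • w1) := by abel
    rw [hdecomp]
    refine Submodule.add_mem _ (Submodule.smul_mem _ _ (Submodule.subset_span ⟨hw1W, hrat⟩)) ?_
    apply hmono
    apply hIH
    refine ⟨W.sub_mem hv (W.smul_mem _ hw1W), ?_⟩
    simp [hw1i0]

/-- Galois descent: a subspace of `ℂ^n` stable under all coefficientwise ring endomorphisms of
`ℂ` is spanned by its rational vectors. -/
theorem le_span_rational {n : ℕ} (W : Submodule ℂ (Fin n → ℂ))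
    (hW : ∀ σ : ℂ →+* ℂ, ∀ w ∈ W, (fun i => σ (w i)) ∈ W)
    (hfix : ∀ x : ℂ, (∀ σ : ℂ →+* ℂ, σ x = x) → ∃ r : ℚ, x = (r : ℂ)) :
    W ≤ Submodule.span ℂ {w | w ∈ W ∧ ∀ i, ∃ r : ℚ, w i = (r : ℂ)} :=
  descent_le_span_rational_aux hfix _ W rfl hW

end Fermat.Agent.S23
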