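import Mathlib

/-!
# Every non-rational complex number is moved by a ring endomorphism of `ℂ`
-/

set_option autoImplicit false

namespace Fermat.Agent.S23

open Cardinal

/-- Two uncountable algebraically closed fields of the same cardinality which are faithful
algebras over a countable ring `R` are isomorphic by an isomorphism compatible with the
structure maps from `R`. -/
theorem FixedField.exists_ringEquiv_algebraMap {R K L : Type} [CommRing R] [Nontrivial R]
    [Countable R] [Field K] [Field L] [IsAlgClosed K] [IsAlgClosed L] [Algebra R K] [Algebra R L]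
    [FaithfulSMul R K] [FaithfulSMul R L] (hK : ℵ₀ < #K) (hKL : #K = #L) :
    ∃ σ : K ≃+* L, ∀ r : R, σ (algebraMap R K r) = algebraMap R L r := by
  obtain ⟨s, hs⟩ := exists_isTranscendenceBasis R K
  obtain ⟨t, ht⟩ := exists_isTranscendenceBasis R L
  have hR : #R ≤ ℵ₀ := Cardinal.mk_le_aleph0
  have hL : ℵ₀ < #L := hKL ▸ hK
  have h1 : #K = #s :=
    IsAlgClosed.cardinal_eq_cardinal_transcendence_basis_of_aleph0_lt' _ hs hR hK
  have h2 : #L = #t :=
    IsAlgClosed.cardinal_eq_cardinal_transcendence_basis_of_aleph0_lt' _ ht hR hL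
  have h3 : #s = #t := by rw [← h1, ← h2, hKL]
  obtain ⟨e⟩ := Cardinal.eq.1 h3
  let _ := IsAlgClosed.isAlgClosure_of_transcendence_basis _ hs
  let _ := IsAlgClosed.isAlgClosure_of_transcendence_basis _ ht
  let e₁ : Algebra.adjoin R (Set.range ((↑) : s → K)) ≃ₐ[R]
      Algebra.adjoin R (Set.range ((↑) : t → L)) :=
    hs.1.aevalEquiv.symm.trans ((MvPolynomial.renameEquiv R e).trans ht.1.aevalEquiv)
  refine ⟨IsAlgClosure.equivOfEquiv K L e₁.toRingEquiv, fun r => ?_⟩
  have hr : algebraMap R K r =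
      algebraMap (Algebra.adjoin R (Set.range ((↑) : s → K))) K (algebraMap R _ r) := rfl
  rw [hr, IsAlgClosure.equivOfEquiv_algebraMap]
  have : e₁.toRingEquiv (algebraMap R _ r) = algebraMap R _ r := e₁.commutes r
  rw [this]
  rfl

/-- Two embeddings of a countable ring into `ℂ` differ by an automorphism of `ℂ`. -/
theorem FixedField.exists_ringEquiv_comp {R : Type} [CommRing R] [Nontrivial R] [Countable R]
    (i₁ i₂ : R →+* ℂ) (h₁ : Function.Injective i₁) (h₂ : Function.Injective i₂) :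
    ∃ σ : ℂ ≃+* ℂ, ∀ r : R, σ (i₁ r) = i₂ r := by
  have hC : ℵ₀ < #ℂ := by rw [Cardinal.mk_complex]; exact Cardinal.aleph0_lt_continuum
  exact @FixedField.exists_ringEquiv_algebraMap R ℂ ℂ _ _ _ _ _ _ _ i₁.toAlgebra i₂.toAlgebra
    (by let _ := i₁.toAlgebra; exact (faithfulSMul_iff_algebraMap_injective R ℂ).mpr h₁)
    (by let _ := i₂.toAlgebra; exact (faithfulSMul_iff_algebraMap_injective R ℂ).mpr h₂) hC rfl

theorem FixedField.countable_polynomial_rat : Countable (Polynomial ℚ) := by
  rw [← Cardinal.mk_le_aleph0_iff]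
  refine le_trans Polynomial.cardinalMk_le_max ?_
  simp

/-- A transcendental complex number is moved by an automorphism of `ℂ`. -/
theorem FixedField.exists_ringEquiv_ne_of_transcendental (x : ℂ) (hx : Transcendental ℚ x) :
    ∃ σ : ℂ ≃+* ℂ, σ x ≠ x := by
  have hx1 : Transcendental ℚ (x + 1) := by
    intro h
    apply hx
    have h2 : IsAlgebraic ℚ ((x + 1) - 1) := h.sub isAlgebraic_one
    simpa using h2
  have := FixedField.countable_polynomial_rat
  obtain ⟨σ, hσ⟩ := FixedField.exists_ringEquiv_comp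
    (Polynomial.aeval (R := ℚ) x).toRingHom (Polynomial.aeval (R := ℚ) (x + 1)).toRingHom
    (transcendental_iff_injective.mp hx) (transcendental_iff_injective.mp hx1)
  refine ⟨σ, ?_⟩
  have := hσ Polynomial.X
  simp only [AlgHom.toRingHom_eq_coe, RingHom.coe_coe, Polynomial.aeval_X] at this
  rw [this]
  intro h
  have : (1 : ℂ) = 0 := by linear_combination h
  exact one_ne_zero this

/-- An algebraic non-rational complex number is moved by an automorphism of `ℂ`. -/
theorem FixedField.exists_ringEquiv_ne_of_isAlgebraic (x : ℂ) (hx : IsAlgebraic ℚ x)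
    (hx' : x ∉ Set.range (Rat.cast : ℚ → ℂ)) : ∃ σ : ℂ ≃+* ℂ, σ x ≠ x := by
  have hint : IsIntegral ℚ x := hx.isIntegral
  set f := minpoly ℚ x with hf
  have hirr : Irreducible f := minpoly.irreducible hint
  have : Fact (Irreducible f) := ⟨hirr⟩
  have := FixedField.countable_polynomial_rat
  have hsep : f.Separable := hirr.separable
  have hsplit : (f.map (algebraMap ℚ ℂ)).Splits := IsAlgClosed.splits _
  have hdeg : 2 ≤ f.natDegree := by
    by_contra hlt
    have h1 : f.natDegree = 1 := by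
      have hpos : 0 < f.natDegree := minpoly.natDegree_pos hint
      omega
    have hmem := (minpoly.natDegree_eq_one_iff (A := ℚ) (B := ℂ)).mp h1
    obtain ⟨r, hr⟩ := hmem
    exact hx' ⟨r, by rw [← hr]; simp⟩
  have hcard : Fintype.card (f.rootSet ℂ) = f.natDegree :=
    Polynomial.card_rootSet_eq_natDegree hsep hsplit
  have hxroot : x ∈ f.rootSet ℂ := by
    rw [Polynomial.mem_rootSet]
    exact ⟨hirr.ne_zero, minpoly.aeval ℚ x⟩
  obtain ⟨⟨x', hx'root⟩, hne⟩ := Fintype.exists_ne_of_one_lt_card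
    (by rw [hcard]; omega) (⟨x, hxroot⟩ : f.rootSet ℂ)
  have hx'ne : x' ≠ x := fun h => hne (Subtype.ext h)
  have hx'0 : f.eval₂ (algebraMap ℚ ℂ) x' = 0 := by
    rw [Polynomial.mem_rootSet] at hx'root
    exact hx'root.2
  have hx0 : f.eval₂ (algebraMap ℚ ℂ) x = 0 := minpoly.aeval ℚ x
  have : Countable (AdjoinRoot f) := (AdjoinRoot.mk_surjective (g := f)).countable
  obtain ⟨σ, hσ⟩ := FixedField.exists_ringEquiv_comp
    (AdjoinRoot.lift (algebraMap ℚ ℂ) x hx0) (AdjoinRoot.lift (algebraMap ℚ ℂ) x' hx'0)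
    (RingHom.injective _) (RingHom.injective _)
  refine ⟨σ, ?_⟩
  have := hσ (AdjoinRoot.root f)
  rw [AdjoinRoot.lift_root, AdjoinRoot.lift_root] at this
  rw [this]
  exact hx'ne

/-- **Module A (FixedField).** Every non-rational complex number is moved by some ring
endomorphism of `ℂ`. -/
theorem exists_ringHom_ne (x : ℂ) (hx : x ∉ Set.range (Rat.cast : ℚ → ℂ)) :
    ∃ σ : ℂ →+* ℂ, σ x ≠ x := by
  by_cases halg : IsAlgebraic ℚ x
  · obtain ⟨σ, hσ⟩ := FixedField.exists_ringEquiv_ne_of_isAlgebraic x halg hx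
    exact ⟨σ.toRingHom, hσ⟩
  · obtain ⟨σ, hσ⟩ := FixedField.exists_ringEquiv_ne_of_transcendental x halg
    exact ⟨σ.toRingHom, hσ⟩

/-- Consequence: a complex number fixed by all ring endomorphisms of `ℂ` is rational. -/
theorem exists_rat_of_forall_ringHom_eq (x : ℂ) (h : ∀ σ : ℂ →+* ℂ, σ x = x) :
    ∃ r : ℚ, x = (r : ℂ) := by
  by_contra hcon
  obtain ⟨σ, hσ⟩ := exists_ringHom_ne x (fun ⟨r, hr⟩ => hcon ⟨r, hr.symm⟩)
  exact hσ (h σ)

end Fermat.Agent.S23
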