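import Mathlib
import Fermat.Agent.S23.FixedField
import Fermat.Agent.S23.Descent
import Fermat.Prelude.Thm_ModularForm_sturm_bound_Gamma0
import Fermat.Prelude.Thm_CongruenceSubgroup_one_mem_strictPeriods_Gamma0

/-!
# S23, module I (RationalSpan)

If the space of cusp forms `S_k(Γ₀(N))` is stable under all coefficientwise twists of
`q`-expansions by ring endomorphisms of `ℂ`, then it is spanned by forms with rational
`q`-expansion.  Ingredients: the Sturm bound of the prelude (finitely many coefficients determine
a form), Galois descent for subspaces of `ℂ^n` (module B) and the fixed field of the ring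
endomorphisms of `ℂ` (module A).
-/

set_option autoImplicit false

open UpperHalfPlane ModularForm
open scoped MatrixGroups

namespace Fermat.Agent.S23

/-- The first `B` coefficients of the `q`-expansion, as a linear map on cusp forms. -/
noncomputable def rationalSpan_coeffMap (N : ℕ) [NeZero N] (k : ℤ) (B : ℕ) :
    CuspForm (CongruenceSubgroup.Gamma0 N) k →ₗ[ℂ] (Fin B → ℂ) where
  toFun f i := (qExpansion 1 f).coeff i
  map_add' f g := by
    funext i
    have h := ModularForm.qExpansion_add (h := 1) one_pos
      (CongruenceSubgroup.one_mem_strictPeriods_Gamma0 N) f g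
    rw [FunLike.coe_add, h]
    simp
  map_smul' c f := by
    funext i
    have h := ModularForm.qExpansion_smul (h := 1) one_pos
      (CongruenceSubgroup.one_mem_strictPeriods_Gamma0 N) c f
    rw [FunLike.coe_smul, h]
    simp

theorem rationalSpan_coeffMap_apply (N : ℕ) [NeZero N] (k : ℤ) (B : ℕ)
    (f : CuspForm (CongruenceSubgroup.Gamma0 N) k) (i : Fin B) :
    rationalSpan_coeffMap N k B f i = (qExpansion 1 f).coeff i := rfl

/-- Sturm bound: the coefficient map is injective for `B` beyond the Sturm bound. -/
theorem rationalSpan_coeffMap_injective (N : ℕ) [NeZero N] (k : ℤ) :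
    Function.Injective (rationalSpan_coeffMap N k
      ((k * (CongruenceSubgroup.Gamma0 N).index).toNat / 12 + 1)) := by
  rw [← LinearMap.ker_eq_bot, LinearMap.ker_eq_bot']
  intro f hf
  have hF : (ModularFormClass.modularForm f :
      ModularForm (CongruenceSubgroup.Gamma0 N) k) = 0 := by
    apply ModularForm.sturm_bound_Gamma0 N
    intro n hn
    have := congrFun hf ⟨n, Nat.lt_succ_of_le hn⟩
    simpa [rationalSpan_coeffMap_apply] using this
  ext z
  have := DFunLike.congr_fun hF z
  simpa using this

/-- **Module I (RationalSpan).** If `S_k(Γ₀(N))` is stable under coefficientwise twists by all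
ring endomorphisms of `ℂ`, it is spanned by the forms with rational `q`-expansion. -/
theorem span_rational_of_twist (N : ℕ) [NeZero N] (k : ℤ)
    (htw : ∀ (σ : ℂ →+* ℂ) (f : CuspForm (CongruenceSubgroup.Gamma0 N) k),
      ∃ f' : CuspForm (CongruenceSubgroup.Gamma0 N) k,
        qExpansion 1 f' = (qExpansion 1 f).map σ) :
    Submodule.span ℂ {f : CuspForm (CongruenceSubgroup.Gamma0 N) k |
      ∀ n, ∃ r : ℚ, (qExpansion 1 f).coeff n = (r : ℂ)} = ⊤ := by
  set B := (k * (CongruenceSubgroup.Gamma0 N).index).toNat / 12 + 1 with hB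
  set Φ := rationalSpan_coeffMap N k B with hΦ
  have hinj : Function.Injective Φ := rationalSpan_coeffMap_injective N k
  -- the image is stable under all twists
  have hW : ∀ σ : ℂ →+* ℂ, ∀ w ∈ LinearMap.range Φ, (fun i => σ (w i)) ∈ LinearMap.range Φ := by
    rintro σ w ⟨f, rfl⟩
    obtain ⟨f', hf'⟩ := htw σ f
    refine ⟨f', ?_⟩
    funext i
    rw [hΦ, rationalSpan_coeffMap_apply, rationalSpan_coeffMap_apply, hf', PowerSeries.coeff_map]
  have hdesc := le_span_rational (LinearMap.range Φ) hW exists_rat_of_forall_ringHom_eq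
  -- rational vectors in the image come from forms with rational `q`-expansion
  have hrat : {w | w ∈ LinearMap.range Φ ∧ ∀ i, ∃ r : ℚ, w i = (r : ℂ)} ⊆
      Φ '' {f : CuspForm (CongruenceSubgroup.Gamma0 N) k |
        ∀ n, ∃ r : ℚ, (qExpansion 1 f).coeff n = (r : ℂ)} := by
    rintro w ⟨⟨f, rfl⟩, hw⟩
    refine ⟨f, fun n => ?_, rfl⟩
    apply exists_rat_of_forall_ringHom_eq
    intro σ
    obtain ⟨f', hf'⟩ := htw σ f
    have hff' : f' = f := by
      apply hinj
      funext i
      rw [hΦ, rationalSpan_coeffMap_apply, rationalSpan_coeffMap_apply, hf',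
        PowerSeries.coeff_map]
      obtain ⟨r, hr⟩ := hw i
      rw [hΦ, rationalSpan_coeffMap_apply] at hr
      rw [hr, map_ratCast]
    rw [hff'] at hf'
    have := congrArg (PowerSeries.coeff n) hf'
    rw [PowerSeries.coeff_map] at this
    exact this.symm
  rw [eq_top_iff]
  intro f _
  have h1 : Φ f ∈ Submodule.span ℂ (Φ '' {f : CuspForm (CongruenceSubgroup.Gamma0 N) k |
      ∀ n, ∃ r : ℚ, (qExpansion 1 f).coeff n = (r : ℂ)}) :=
    Submodule.span_mono hrat (hdesc (LinearMap.mem_range_self Φ f))
  rw [← Submodule.map_span] at h1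
  obtain ⟨g, hg, hgf⟩ := h1
  rw [← hinj hgf]
  exact hg

end Fermat.Agent.S23
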