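import Mathlib

/-!
# S23 module K1: packaging a function as a cusp form on `Γ₀(N)`

`exists_cuspForm_of_slash`: a holomorphic function on `ℍ` that is slash-invariant under `Γ₀(N)`
and all of whose `SL(2, ℤ)`-slashes vanish at `i∞` is (the underlying function of) a cusp form.
-/

set_option autoImplicit false

open UpperHalfPlane ModularForm Filter
open scoped MatrixGroups Manifold

namespace Fermat.Agent.S23

/-- (K1) Packaging as a cusp form on `Γ₀(N)`. -/
theorem exists_cuspForm_of_slash (N : ℕ) [NeZero N] (k : ℤ) (F : ℍ → ℂ) (hF : MDiff F)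
    (hinv : ∀ γ : SL(2, ℤ), γ ∈ CongruenceSubgroup.Gamma0 N → F ∣[k] γ = F)
    (hzero : ∀ γ : SL(2, ℤ), IsZeroAtImInfty (F ∣[k] γ)) :
    ∃ f' : CuspForm (CongruenceSubgroup.Gamma0 N) k, (⇑f' : ℍ → ℂ) = F := by
  refine ⟨{ toFun := F
            slash_action_eq' := ?_
            holo' := hF
            zero_at_cusps' := ?_ }, rfl⟩
  · intro γ hγ
    obtain ⟨γ', hγ', rfl⟩ := hγ
    exact hinv γ' hγ'
  · intro c hc
    rw [Subgroup.IsArithmetic.isCusp_iff_isCusp_SL2Z] at hc
    rw [OnePoint.isZeroAt_iff_forall_SL2Z hc]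
    intro γ _
    exact hzero γ

end Fermat.Agent.S23
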