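import Mathlib

/-!
Module F (Division) of the S23 project: pure complex analysis on the upper half plane.

* `exists_mdiff_quotient`: if `g` satisfies a "homogenised" monic polynomial relation over
  holomorphic coefficients with respect to a nonzero holomorphic `d`, then `g / d` extends to a
  holomorphic function on the upper half plane satisfying the corresponding monic relation
  (Riemann removable singularities, root bound).
* `eq_zero_of_mul_eq_zero_of_mdiff`: identity theorem, product form.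
-/

set_option autoImplicit false

open UpperHalfPlane Filter Topology
open scoped Manifold

namespace Fermat.Agent.S23

/-- (F2) Identity theorem in product form. -/
theorem eq_zero_of_mul_eq_zero_of_mdiff {F d : ℍ → ℂ}
    (hF : MDifferentiable 𝓘(ℂ) 𝓘(ℂ) F) (hd : MDifferentiable 𝓘(ℂ) 𝓘(ℂ) d) (hd0 : d ≠ 0)
    (h : ∀ z, F z * d z = 0) : F = 0 := by
  have hFd : F * d = 0 := funext h
  rcases (UpperHalfPlane.mul_eq_zero_iff hF hd).mp hFd with h1 | h1
  · exact h1
  · exact absurd h1 hd0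

/-- Cauchy-type root bound for a monic polynomial. -/
theorem division_root_norm_le {n : ℕ} (a : Fin (n + 1) → ℂ) (x : ℂ)
    (hx : x ^ (n + 1) + ∑ j : Fin (n + 1), a j * x ^ (n - (j : ℕ)) = 0) :
    ‖x‖ ≤ 1 + ∑ j, ‖a j‖ := by
  have hS : 0 ≤ ∑ j, ‖a j‖ := Finset.sum_nonneg (fun _ _ => norm_nonneg _)
  by_cases h1 : ‖x‖ ≤ 1
  · linarith
  · push Not at h1
    have hxe : x ^ (n + 1) = - ∑ j : Fin (n + 1), a j * x ^ (n - (j : ℕ)) :=
      eq_neg_of_add_eq_zero_left hx
    have h2 : ‖x‖ ^ (n + 1) ≤ (∑ j, ‖a j‖) * ‖x‖ ^ n := by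
      calc ‖x‖ ^ (n + 1) = ‖x ^ (n + 1)‖ := (norm_pow _ _).symm
        _ = ‖∑ j : Fin (n + 1), a j * x ^ (n - (j : ℕ))‖ := by rw [hxe, norm_neg]
        _ ≤ ∑ j : Fin (n + 1), ‖a j * x ^ (n - (j : ℕ))‖ := norm_sum_le _ _
        _ ≤ ∑ j : Fin (n + 1), ‖a j‖ * ‖x‖ ^ n := by
            apply Finset.sum_le_sum
            intro j _
            rw [norm_mul, norm_pow]
            exact mul_le_mul_of_nonneg_left
              (pow_le_pow_right₀ h1.le (Nat.sub_le _ _)) (norm_nonneg _)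
        _ = (∑ j, ‖a j‖) * ‖x‖ ^ n := by rw [Finset.sum_mul]
    have hpos : 0 < ‖x‖ ^ n := pow_pos (by linarith) n
    have h3 : ‖x‖ * ‖x‖ ^ n ≤ (∑ j, ‖a j‖) * ‖x‖ ^ n := by
      rw [← pow_succ']; exact h2
    have h4 : ‖x‖ ≤ ∑ j, ‖a j‖ := le_of_mul_le_mul_right h3 hpos
    linarith

/-- Dividing the homogenised relation by `d ^ (n + 1)`. -/
theorem division_relation_div {n : ℕ} (a : Fin (n + 1) → ℂ) (x y : ℂ) (hy : y ≠ 0)
    (h : x ^ (n + 1) + ∑ j : Fin (n + 1), a j * x ^ (n - (j : ℕ)) * y ^ ((j : ℕ) + 1) = 0) :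
    (x / y) ^ (n + 1) + ∑ j : Fin (n + 1), a j * (x / y) ^ (n - (j : ℕ)) = 0 := by
  have hyn : y ^ (n + 1) ≠ 0 := pow_ne_zero _ hy
  have key : ((x / y) ^ (n + 1) + ∑ j : Fin (n + 1), a j * (x / y) ^ (n - (j : ℕ))) * y ^ (n + 1)
      = x ^ (n + 1) + ∑ j : Fin (n + 1), a j * x ^ (n - (j : ℕ)) * y ^ ((j : ℕ) + 1) := by
    rw [add_mul, Finset.sum_mul, div_pow, div_mul_cancel₀ _ hyn]
    congr 1
    apply Finset.sum_congr rfl
    intro j _
    have hj : (j : ℕ) ≤ n := Nat.lt_succ_iff.mp j.2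
    have hsplit : y ^ (n + 1) = y ^ (n - (j : ℕ)) * y ^ ((j : ℕ) + 1) := by
      rw [← pow_add]; congr 1; omega
    rw [div_pow, hsplit]
    have hy2 : y ^ (n - (j : ℕ)) ≠ 0 := pow_ne_zero _ hy
    field_simp
  rw [h] at key
  exact (mul_eq_zero.mp key).resolve_right hyn

/-- (F1) If `g ^ (n+1) + ∑ j, c j * g ^ (n-j) * d ^ (j+1) = 0` with holomorphic `c j`, `g`, `d` and
`d ≠ 0`, then `g = F * d` for a holomorphic `F` with `F ^ (n+1) + ∑ j, c j * F ^ (n-j) = 0`. -/
theorem exists_mdiff_quotient {n : ℕ} (c : Fin (n + 1) → ℍ → ℂ)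
    (hc : ∀ j, MDifferentiable 𝓘(ℂ) 𝓘(ℂ) (c j)) (g d : ℍ → ℂ)
    (hg : MDifferentiable 𝓘(ℂ) 𝓘(ℂ) g) (hd : MDifferentiable 𝓘(ℂ) 𝓘(ℂ) d) (hd0 : d ≠ 0)
    (h : ∀ z, g z ^ (n + 1) +
      ∑ j : Fin (n + 1), c j z * g z ^ (n - (j : ℕ)) * d z ^ ((j : ℕ) + 1) = 0) :
    ∃ F : ℍ → ℂ, MDifferentiable 𝓘(ℂ) 𝓘(ℂ) F ∧ (∀ z, g z = F z * d z) ∧
      ∀ z, F z ^ (n + 1) + ∑ j : Fin (n + 1), c j z * F z ^ (n - (j : ℕ)) = 0 := by
  classical
  set U : Set ℂ := {z | 0 < z.im} with hU
  have hUo : IsOpen U := isOpen_upperHalfPlaneSet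
  set g' : ℂ → ℂ := g ∘ ofComplex with hg'
  set d' : ℂ → ℂ := d ∘ ofComplex with hd'
  have hg'd : DifferentiableOn ℂ g' U := mdifferentiable_iff.mp hg
  have hd'd : DifferentiableOn ℂ d' U := mdifferentiable_iff.mp hd
  have hc'd : ∀ j, DifferentiableOn ℂ (c j ∘ ofComplex) U :=
    fun j => mdifferentiable_iff.mp (hc j)
  set q : ℂ → ℂ := fun w => g' w / d' w with hq
  let F : ℍ → ℂ := fun z => limUnder (𝓝[≠] (z : ℂ)) q
  -- zeros of `d` are isolated
  have hiso : ∀ z0 : ℍ, ∀ᶠ w in 𝓝[≠] (z0 : ℂ), d' w ≠ 0 := by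
    intro z0
    have han : AnalyticAt ℂ d' (z0 : ℂ) := (hd'd.analyticOnNhd hUo) _ z0.im_pos
    rcases han.eventually_eq_zero_or_eventually_ne_zero with h0 | h0
    · exfalso
      apply hd0
      have hpre : IsPreconnected U :=
        (Complex.isConnected_of_upperHalfPlane subset_rfl (by grind)).isPreconnected
      have h1 := (hd'd.analyticOnNhd hUo).eqOn_zero_of_preconnected_of_eventuallyEq_zero hpre
        z0.im_pos h0
      funext w
      have h2 := h1 w.im_pos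
      simpa [hd', ofComplex_apply] using h2
    · exact h0
  -- at points where `d ≠ 0` the limit is the value
  have hqcont : ∀ w ∈ U, d' w ≠ 0 → limUnder (𝓝[≠] w) q = q w := by
    intro w hw hdw
    have hdiff : DifferentiableAt ℂ q w :=
      ((hg'd w hw).differentiableAt (hUo.mem_nhds hw)).div
        ((hd'd w hw).differentiableAt (hUo.mem_nhds hw)) hdw
    exact (hdiff.continuousAt.tendsto.mono_left nhdsWithin_le_nhds).limUnder_eq
  have hFdiff : ∀ z0 : ℍ, DifferentiableAt ℂ (F ∘ ofComplex) (z0 : ℂ) := by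
    intro z0
    obtain ⟨ε1, hε1, hball1⟩ := Metric.isOpen_iff.mp hUo (z0 : ℂ) z0.im_pos
    have h2 := hiso z0
    rw [eventually_nhdsWithin_iff, Metric.eventually_nhds_iff] at h2
    obtain ⟨ε2, hε2, hball2⟩ := h2
    set r := min ε1 ε2 / 2 with hr
    have hmin : 0 < min ε1 ε2 := lt_min hε1 hε2
    have hrpos : 0 < r := by positivity
    have hr1 : r < ε1 := by have := min_le_left ε1 ε2; linarith
    have hr2 : r < ε2 := by have := min_le_right ε1 ε2; linarith
    have hcb : Metric.closedBall (z0 : ℂ) r ⊆ U := fun w hw =>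
      hball1 (lt_of_le_of_lt (Metric.mem_closedBall.mp hw) hr1)
    have hne : ∀ w ∈ Metric.closedBall (z0 : ℂ) r, w ≠ (z0 : ℂ) → d' w ≠ 0 := fun w hw hwne =>
      hball2 (lt_of_le_of_lt (Metric.mem_closedBall.mp hw) hr2) hwne
    have hbd : ∀ j, ∃ B, ∀ w ∈ Metric.closedBall (z0 : ℂ) r, ‖(c j ∘ ofComplex) w‖ ≤ B := by
      intro j
      exact (isCompact_closedBall _ _).exists_bound_of_continuousOn
        ((hc'd j).continuousOn.mono hcb)
    choose B hB using hbd
    set s := Metric.ball (z0 : ℂ) r with hs_def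
    have hs : s ∈ 𝓝 (z0 : ℂ) := Metric.ball_mem_nhds _ hrpos
    have hsub : s ⊆ Metric.closedBall (z0 : ℂ) r := Metric.ball_subset_closedBall
    have hqd : DifferentiableOn ℂ q (s \ {(z0 : ℂ)}) := by
      intro w hw
      have hwU : w ∈ U := hcb (hsub hw.1)
      have hdw : d' w ≠ 0 := hne w (hsub hw.1) hw.2
      exact (((hg'd w hwU).differentiableAt (hUo.mem_nhds hwU)).div
        ((hd'd w hwU).differentiableAt (hUo.mem_nhds hwU)) hdw).differentiableWithinAt
    have hqb : BddAbove (norm ∘ q '' (s \ {(z0 : ℂ)})) := by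
      refine ⟨1 + ∑ j, B j, ?_⟩
      rintro _ ⟨w, hw, rfl⟩
      have hwU : w ∈ U := hcb (hsub hw.1)
      have hdw : d' w ≠ 0 := hne w (hsub hw.1) hw.2
      have hrel := h ⟨w, hwU⟩
      have hgw : g' w = g ⟨w, hwU⟩ := by simp [hg', ofComplex_apply_of_im_pos hwU]
      have hdw' : d' w = d ⟨w, hwU⟩ := by simp [hd', ofComplex_apply_of_im_pos hwU]
      have hdne : d ⟨w, hwU⟩ ≠ 0 := by rw [← hdw']; exact hdw
      have hroot := division_relation_div (fun j => c j ⟨w, hwU⟩) (g ⟨w, hwU⟩) (d ⟨w, hwU⟩)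
        hdne hrel
      have hb := division_root_norm_le (fun j => c j ⟨w, hwU⟩) _ hroot
      have hqw : (norm ∘ q) w = ‖g ⟨w, hwU⟩ / d ⟨w, hwU⟩‖ := by
        simp only [Function.comp_apply, hq, hgw, hdw']
      rw [hqw]
      refine hb.trans ?_
      have hsum : ∑ j, ‖c j ⟨w, hwU⟩‖ ≤ ∑ j, B j := by
        apply Finset.sum_le_sum
        intro j _
        have h3 := hB j w (hsub hw.1)
        simpa [ofComplex_apply_of_im_pos hwU] using h3
      linarith
    have hupd := Complex.differentiableOn_update_limUnder_of_bddAbove hs hqd hqb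
    have hEq : F ∘ ofComplex =ᶠ[𝓝 (z0 : ℂ)]
        Function.update q (z0 : ℂ) (limUnder (𝓝[≠] (z0 : ℂ)) q) := by
      filter_upwards [hs] with w hw
      have hwU : w ∈ U := hcb (hsub hw)
      by_cases hwz : w = (z0 : ℂ)
      · rw [hwz, Function.update_self, Function.comp_apply, ofComplex_apply]
      · rw [Function.update_of_ne hwz]
        have hdw : d' w ≠ 0 := hne w (hsub hw) hwz
        simp only [Function.comp_apply, F]
        rw [ofComplex_apply_of_im_pos hwU]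
        exact hqcont w hwU hdw
    exact (hupd.differentiableAt hs).congr_of_eventuallyEq hEq
  have hFmd : MDifferentiable 𝓘(ℂ) 𝓘(ℂ) F := fun z => mdifferentiableAt_iff.mpr (hFdiff z)
  have hFval : ∀ z : ℍ, d z ≠ 0 → F z = g z / d z := by
    intro z hz
    have h1 : d' (z : ℂ) ≠ 0 := by simpa [hd', ofComplex_apply] using hz
    have h2 := hqcont (z : ℂ) z.im_pos h1
    show limUnder (𝓝[≠] (z : ℂ)) q = g z / d z
    rw [h2]
    simp [hq, hg', hd', ofComplex_apply]
  have hgFd : ∀ z, g z = F z * d z := by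
    intro z
    by_cases hz : d z = 0
    · have hrel := h z
      have hs0 : ∑ j : Fin (n + 1), c j z * g z ^ (n - (j : ℕ)) * d z ^ ((j : ℕ) + 1) = 0 := by
        apply Finset.sum_eq_zero
        intro j _
        rw [hz, zero_pow (Nat.succ_ne_zero _), mul_zero]
      rw [hs0, add_zero] at hrel
      rw [hz, mul_zero]
      exact (pow_eq_zero_iff (Nat.succ_ne_zero n)).mp hrel
    · rw [hFval z hz, div_mul_cancel₀ _ hz]
  refine ⟨F, hFmd, hgFd, ?_⟩
  set Φ : ℍ → ℂ := fun z => F z ^ (n + 1) + ∑ j : Fin (n + 1), c j z * F z ^ (n - (j : ℕ))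
    with hΦ
  have hΦmd : MDifferentiable 𝓘(ℂ) 𝓘(ℂ) Φ := by
    rw [mdifferentiable_iff]
    have hF' : DifferentiableOn ℂ (F ∘ ofComplex) U := mdifferentiable_iff.mp hFmd
    have hcomp : Φ ∘ ofComplex = fun w => (F ∘ ofComplex) w ^ (n + 1) +
        ∑ j : Fin (n + 1), (c j ∘ ofComplex) w * (F ∘ ofComplex) w ^ (n - (j : ℕ)) := by
      funext w
      simp [hΦ]
    rw [hcomp]
    exact (hF'.pow _).add (DifferentiableOn.fun_sum (fun j _ => (hc'd j).mul (hF'.pow _)))
  have hdn : MDifferentiable 𝓘(ℂ) 𝓘(ℂ) (fun z => d z ^ (n + 1)) := by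
    rw [mdifferentiable_iff]
    have hcomp : (fun z => d z ^ (n + 1)) ∘ ofComplex = fun w => d' w ^ (n + 1) := by
      funext w
      simp [hd']
    rw [hcomp]
    exact hd'd.pow _
  have hdn0 : (fun z => d z ^ (n + 1)) ≠ 0 := by
    intro h0
    apply hd0
    funext z
    have h1 := congrFun h0 z
    exact (pow_eq_zero_iff (Nat.succ_ne_zero n)).mp h1
  have hzero : ∀ z, Φ z * (fun z => d z ^ (n + 1)) z = 0 := by
    intro z
    have hrel := h z
    rw [hgFd z] at hrel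
    have hexp : Φ z * d z ^ (n + 1) = (F z * d z) ^ (n + 1) +
        ∑ j : Fin (n + 1), c j z * (F z * d z) ^ (n - (j : ℕ)) * d z ^ ((j : ℕ) + 1) := by
      simp only [hΦ]
      rw [add_mul, Finset.sum_mul, mul_pow]
      congr 1
      apply Finset.sum_congr rfl
      intro j _
      have hj : (j : ℕ) ≤ n := Nat.lt_succ_iff.mp j.2
      have hsplit : d z ^ (n + 1) = d z ^ (n - (j : ℕ)) * d z ^ ((j : ℕ) + 1) := by
        rw [← pow_add]; congr 1; omega
      rw [hsplit, mul_pow]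
      ring
    show Φ z * d z ^ (n + 1) = 0
    rw [hexp]
    exact hrel
  have hΦ0 := eq_zero_of_mul_eq_zero_of_mdiff hΦmd hdn hdn0 hzero
  intro z
  exact congrFun hΦ0 z

end Fermat.Agent.S23
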