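import Mathlib
import Fermat.Agent.S23.Division

/-!
# S23 module G: decay of roots of monic polynomials with decaying coefficients

`tendsto_zero_of_monic_root`: if `x ^ (n+1) + ∑ c_j x ^ (n-j) = 0` pointwise on `ℍ` and all `c_j`
tend to `0` at `i∞`, then so does `x`.
-/

set_option autoImplicit false

open UpperHalfPlane Filter Topology

namespace Fermat.Agent.S23

/-- Scaled Cauchy root bound: for every `δ > 0`, a root of a monic polynomial satisfies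
`‖x‖ ≤ δ * (1 + ∑ ‖a_j‖ / δ ^ (j+1))`. -/
theorem rootDecay_norm_le {n : ℕ} (a : Fin (n + 1) → ℂ) (x : ℂ) (δ : ℝ) (hδ : 0 < δ)
    (hx : x ^ (n + 1) + ∑ j : Fin (n + 1), a j * x ^ (n - (j : ℕ)) = 0) :
    ‖x‖ ≤ δ * (1 + ∑ j : Fin (n + 1), ‖a j‖ / δ ^ ((j : ℕ) + 1)) := by
  have hδc : (δ : ℂ) ≠ 0 := Complex.ofReal_ne_zero.mpr hδ.ne'
  have h1 : x ^ (n + 1) + ∑ j : Fin (n + 1),
      (a j / (δ : ℂ) ^ ((j : ℕ) + 1)) * x ^ (n - (j : ℕ)) * (δ : ℂ) ^ ((j : ℕ) + 1) = 0 := by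
    rw [← hx]
    congr 1
    apply Finset.sum_congr rfl
    intro j _
    have : (δ : ℂ) ^ ((j : ℕ) + 1) ≠ 0 := pow_ne_zero _ hδc
    field_simp
  have h2 := division_root_norm_le _ _ (division_relation_div _ x (δ : ℂ) hδc h1)
  have h3 : ‖x / (δ : ℂ)‖ = ‖x‖ / δ := by
    rw [norm_div, Complex.norm_real, Real.norm_eq_abs, abs_of_pos hδ]
  have h4 : ∀ j : Fin (n + 1), ‖a j / (δ : ℂ) ^ ((j : ℕ) + 1)‖ = ‖a j‖ / δ ^ ((j : ℕ) + 1) := by
    intro j
    rw [norm_div, norm_pow, Complex.norm_real, Real.norm_eq_abs, abs_of_pos hδ]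
  rw [h3, Finset.sum_congr rfl (fun j _ => h4 j), div_le_iff₀ hδ] at h2
  linarith [mul_comm δ (1 + ∑ j : Fin (n + 1), ‖a j‖ / δ ^ ((j : ℕ) + 1))]

/-- (G) A root of a monic polynomial whose lower coefficients tend to zero at `i∞` tends to
zero at `i∞`. -/
theorem tendsto_zero_of_monic_root {n : ℕ} (c : Fin (n + 1) → ℍ → ℂ) (x : ℍ → ℂ)
    (hc : ∀ j, Tendsto (c j) atImInfty (nhds 0))
    (h : ∀ z, x z ^ (n + 1) + ∑ j : Fin (n + 1), c j z * x z ^ (n - (j : ℕ)) = 0) :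
    Tendsto x atImInfty (nhds 0) := by
  rw [Metric.tendsto_nhds]
  intro ε hε
  have hδ : (0 : ℝ) < ε / 2 := by positivity
  have hlim : Tendsto (fun z : ℍ => ε / 2 *
      (1 + ∑ j : Fin (n + 1), ‖c j z‖ / (ε / 2) ^ ((j : ℕ) + 1))) atImInfty
      (nhds (ε / 2 * (1 + ∑ j : Fin (n + 1), (0 : ℝ) / (ε / 2) ^ ((j : ℕ) + 1)))) := by
    refine Tendsto.const_mul _ (Tendsto.const_add _ (tendsto_finsetSum _ fun j _ => ?_))
    refine Tendsto.div_const ?_ _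
    have := (hc j).norm
    rwa [norm_zero] at this
  have hlt : ε / 2 * (1 + ∑ j : Fin (n + 1), (0 : ℝ) / (ε / 2) ^ ((j : ℕ) + 1)) < ε := by
    simp only [zero_div, Finset.sum_const_zero, add_zero, mul_one]
    linarith
  filter_upwards [hlim.eventually_lt_const hlt] with z hz
  rw [dist_zero_right]
  exact lt_of_le_of_lt (rootDecay_norm_le (fun j => c j z) (x z) (ε / 2) hδ (h z)) hz

end Fermat.Agent.S23
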