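import Mathlib
import Fermat.Agent.S23.Defs
import Fermat.Agent.S23.Nice
import Fermat.Agent.S23.RootDecay

/-!
# S23 module K2: vanishing at infinity of twists and of slashes of monic roots

* `isZeroAtImInfty_of_levelOne_twist`: if the q-expansion of a level-one form `g'` is obtained
  from that of `g` by applying a ring endomorphism of `ℂ` coefficientwise and `g` vanishes at
  `i∞`, then so does `g'`.
* `isZeroAtImInfty_slash_of_monic`: if `F` is a root of a monic polynomial whose lower
  coefficients are level-one forms (of the weights making the relation homogeneous) vanishing at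
  `i∞`, then every `SL(2, ℤ)`-slash of `F` tends to zero at `i∞`.
-/

set_option autoImplicit false

open UpperHalfPlane ModularForm Filter
open scoped MatrixGroups Manifold

namespace Fermat.Agent.S23

/-- constant coefficient of the q-expansion of a level-one form is its value at infinity -/
theorem twistZero_coeff_zero {k : ℤ} (g : ModularForm 𝒮ℒ k) :
    (qExpansion 1 g).coeff 0 = valueAtInfty g :=
  qExpansion_coeff_zero one_pos
    (ModularFormClass.analyticAt_cuspFunction_zero g one_pos one_mem_strictPeriods_SL)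
    (SlashInvariantFormClass.periodic_comp_ofComplex g one_mem_strictPeriods_SL)

theorem twistZero_isZeroAtImInfty_iff {k : ℤ} (g : ModularForm 𝒮ℒ k) :
    IsZeroAtImInfty g ↔ (qExpansion 1 g).coeff 0 = 0 := by
  constructor
  · intro hg
    rw [twistZero_coeff_zero]
    exact hg.valueAtInfty_eq_zero
  · intro h
    rw [twistZero_coeff_zero] at h
    exact isZeroAtImInfty_of_valueAtInfty_eq_zero g h

/-- (K2a) A coefficientwise twist of a level-one form vanishing at `i∞` vanishes at `i∞`. -/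
theorem isZeroAtImInfty_of_levelOne_twist (σ : ℂ →+* ℂ) {k : ℤ} (g g' : ModularForm 𝒮ℒ k)
    (h : qExpansion 1 g' = (qExpansion 1 g).map σ) (hg : IsZeroAtImInfty g) :
    IsZeroAtImInfty g' := by
  rw [twistZero_isZeroAtImInfty_iff] at hg ⊢
  rw [h, PowerSeries.coeff_map, hg, map_zero]

/-- the slash of a level-one form by an element of `SL(2, ℤ)`, pointwise -/
theorem twistZero_levelOne_slash_apply {k : ℤ} (g : ModularForm 𝒮ℒ k) (γ : SL(2, ℤ)) (τ : ℍ) :
    g (γ • τ) * denom γ τ ^ (-k) = g τ := by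
  have h1 : (⇑g ∣[k] γ) = ⇑g := g.slash_action_eq' _ ⟨γ, rfl⟩
  have h2 := congrFun h1 τ
  rwa [SL_slash_apply] at h2

/-- (K2b) If `F` is a root of a monic polynomial whose coefficients are level-one forms vanishing
at `i∞`, then every slash of `F` by an element of `SL(2, ℤ)` tends to zero at `i∞`. -/
theorem isZeroAtImInfty_slash_of_monic {k : ℤ} {n : ℕ} (F : ℍ → ℂ)
    (E' : (j : ℕ) → ModularForm 𝒮ℒ (j * k)) (hE0 : ∀ j, 1 ≤ j → IsZeroAtImInfty (E' j))
    (h : ∀ z, F z ^ (n + 1) + ∑ j ∈ Finset.range (n + 1),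
        (-1) ^ (j + 1) * E' (j + 1) z * F z ^ (n - j) = 0) (γ : SL(2, ℤ)) :
    IsZeroAtImInfty (F ∣[k] γ) := by
  refine tendsto_zero_of_monic_root
    (fun (j : Fin (n + 1)) (z : ℍ) => (-1 : ℂ) ^ ((j : ℕ) + 1) * E' ((j : ℕ) + 1) z)
    (F ∣[k] γ) ?_ ?_
  · intro j
    have h1 : Tendsto (E' ((j : ℕ) + 1)) atImInfty (nhds 0) := hE0 _ (Nat.le_add_left 1 _)
    have h2 := h1.const_mul ((-1 : ℂ) ^ ((j : ℕ) + 1))
    rwa [mul_zero] at h2
  · intro z
    have hz := h (γ • z)
    set w : ℂ := denom γ z ^ (-k) with hw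
    have hw0 : w ≠ 0 := zpow_ne_zero _ (denom_ne_zero γ z)
    rw [SL_slash_apply, ← hw]
    have key : ∀ j : ℕ, j ≤ n →
        (-1 : ℂ) ^ (j + 1) * E' (j + 1) z * (F (γ • z) * w) ^ (n - j)
          = w ^ (n + 1) * ((-1 : ℂ) ^ (j + 1) * E' (j + 1) (γ • z) * F (γ • z) ^ (n - j)) := by
      intro j hj
      have hE := twistZero_levelOne_slash_apply (E' (j + 1)) γ z
      have hpow : denom γ z ^ (-(((j + 1 : ℕ) : ℤ) * k)) = w ^ (j + 1) := by
        rw [hw, ← zpow_natCast, ← zpow_mul]
        congr 1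
        push_cast
        ring
      rw [hpow] at hE
      have hsplit : w ^ (n + 1) = w ^ (j + 1) * w ^ (n - j) := by
        rw [← pow_add]
        congr 1
        omega
      rw [← hE, hsplit, mul_pow]
      ring
    have hsum : ∑ j : Fin (n + 1),
        (-1 : ℂ) ^ ((j : ℕ) + 1) * E' ((j : ℕ) + 1) z * (F (γ • z) * w) ^ (n - (j : ℕ))
        = ∑ j ∈ Finset.range (n + 1),
          (-1 : ℂ) ^ (j + 1) * E' (j + 1) z * (F (γ • z) * w) ^ (n - j) :=
      Fin.sum_univ_eq_sum_range
        (fun j => (-1 : ℂ) ^ (j + 1) * E' (j + 1) z * (F (γ • z) * w) ^ (n - j)) (n + 1)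
    rw [hsum]
    have hsum2 : ∑ j ∈ Finset.range (n + 1),
        (-1 : ℂ) ^ (j + 1) * E' (j + 1) z * (F (γ • z) * w) ^ (n - j)
        = w ^ (n + 1) * ∑ j ∈ Finset.range (n + 1),
          (-1 : ℂ) ^ (j + 1) * E' (j + 1) (γ • z) * F (γ • z) ^ (n - j) := by
      rw [Finset.mul_sum]
      exact Finset.sum_congr rfl fun j hj => key j (Nat.lt_succ_iff.mp (Finset.mem_range.mp hj))
    rw [hsum2, mul_pow, mul_comm (F (γ • z) ^ (n + 1)), ← mul_add, hz, mul_zero]

end Fermat.Agent.S23
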