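import Mathlib
import Fermat.Agent.S23.Nice
import Fermat.Agent.S23.TNForm
import Fermat.Agent.S23.Division
import Fermat.Agent.S23.RootDecay
import Fermat.Agent.S23.CuspOfData
import Fermat.Agent.S23.TwistZero

/-!
Twisting a cusp form on `Gamma0 N` by a ring endomorphism of `ℂ`, from the characteristic
polynomial data and the interpolation data.
-/

set_option autoImplicit false

open UpperHalfPlane ModularForm Filter
open scoped MatrixGroups Manifold

namespace Fermat.Agent.S23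

theorem twistB_slash_mul {k1 k2 k3 : ℤ} (h : k1 + k2 = k3) (γ : SL(2, ℤ)) (f g : ℍ → ℂ) :
    (f * g) ∣[k3] γ = f ∣[k1] γ * g ∣[k2] γ := by
  subst h
  exact ModularForm.mul_slash_SL2 k1 k2 γ f g

theorem twistB_slash_pow (γ : SL(2, ℤ)) (f : ℍ → ℂ) (k2 : ℤ) (j : ℕ) {w : ℤ}
    (hw : w = j * k2) : (f ^ j) ∣[w] γ = (f ∣[k2] γ) ^ j := by
  induction j generalizing w with
  | zero =>
    simp only [Nat.cast_zero, zero_mul] at hw
    subst hw
    simpa using ModularForm.is_invariant_one γ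
  | succ j ih =>
    rw [pow_succ, pow_succ, twistB_slash_mul (k1 := j * k2) (k2 := k2) (by rw [hw]; push_cast; ring),
      ih rfl]

theorem twistB_slash_sub (k : ℤ) (γ : SL(2, ℤ)) (f g : ℍ → ℂ) :
    (f - g) ∣[k] γ = f ∣[k] γ - g ∣[k] γ := by
  rw [sub_eq_add_neg, SlashAction.add_slash, SlashAction.neg_slash, ← sub_eq_add_neg]

theorem twistB_levelOne_slash {k : ℤ} (g : ModularForm 𝒮ℒ k) (γ : SL(2, ℤ)) :
    (⇑g) ∣[k] γ = ⇑g :=
  SlashInvariantFormClass.slash_action_eq g _ ⟨γ, rfl⟩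

theorem twistB_Gamma0_slash {N : ℕ} {k : ℤ} (g : ModularForm (CongruenceSubgroup.Gamma0 N) k)
    (γ : SL(2, ℤ)) (hγ : γ ∈ CongruenceSubgroup.Gamma0 N) : (⇑g) ∣[k] γ = ⇑g :=
  SlashInvariantFormClass.slash_action_eq g _ (Subgroup.mem_map_of_mem _ hγ)

/-- slash invariance of `∑ i, c i * v ^ (m - i)` -/
theorem twistB_sum_slash {N : ℕ} {k k2 : ℤ} (m : ℕ)
    (c : (i : ℕ) → ModularForm 𝒮ℒ (k + i * k2))
    (v : ModularForm (CongruenceSubgroup.Gamma0 N) k2)
    (γ : SL(2, ℤ)) (hγ : γ ∈ CongruenceSubgroup.Gamma0 N) :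
    (∑ i ∈ Finset.range (m + 1), ⇑(c i) * (⇑v) ^ (m - i)) ∣[k + m * k2] γ
      = ∑ i ∈ Finset.range (m + 1), ⇑(c i) * (⇑v) ^ (m - i) := by
  rw [SlashAction.sum_slash]
  refine Finset.sum_congr rfl fun i hi => ?_
  have hi' : i ≤ m := Nat.lt_succ_iff.mp (Finset.mem_range.mp hi)
  rw [twistB_slash_mul (k1 := k + i * k2) (k2 := ((m - i : ℕ) : ℤ) * k2)
      (by rw [Nat.cast_sub hi']; ring),
    twistB_levelOne_slash, twistB_slash_pow γ _ k2 (m - i) rfl, twistB_Gamma0_slash v γ hγ]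

theorem twistB_map_injective (σ : ℂ →+* ℂ) :
    Function.Injective (PowerSeries.map σ) := by
  intro a b h
  ext n
  have := congrArg (PowerSeries.coeff n) h
  rw [PowerSeries.coeff_map, PowerSeries.coeff_map] at this
  exact σ.injective this

theorem twistB_exists_twist_of_data (σ : ℂ →+* ℂ) {N : ℕ} [NeZero N] {k k2 : ℤ}
    (f : CuspForm (CongruenceSubgroup.Gamma0 N) k)
    (v : ModularForm (CongruenceSubgroup.Gamma0 N) k2)
    (hvσ : (qExpansion 1 v).map σ = qExpansion 1 v)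
    (htw1 : ∀ {k' : ℤ} (g : ModularForm 𝒮ℒ k'),
      ∃ g' : ModularForm 𝒮ℒ k', qExpansion 1 g' = (qExpansion 1 g).map σ)
    (n : ℕ) (E : (j : ℕ) → ModularForm 𝒮ℒ (j * k))
    (hE0 : ∀ j, 1 ≤ j → IsZeroAtImInfty (E j))
    (hE : ∀ z, f z ^ (n + 1) + ∑ j ∈ Finset.range (n + 1),
        (-1) ^ (j + 1) * E (j + 1) z * f z ^ (n - j) = 0)
    (m : ℕ) (D : ℍ → ℂ) (d : (i : ℕ) → ModularForm 𝒮ℒ (i * k2))
    (c : (i : ℕ) → ModularForm 𝒮ℒ (k + i * k2)) (hD0 : D ≠ 0)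
    (hD : ∀ z, D z = ∑ i ∈ Finset.range (m + 1), d i z * v z ^ (m - i))
    (hfD : ∀ z, f z * D z = ∑ i ∈ Finset.range (m + 1), c i z * v z ^ (m - i)) :
    ∃ f' : CuspForm (CongruenceSubgroup.Gamma0 N) k,
      qExpansion 1 f' = (qExpansion 1 f).map σ := by
  classical
  -- twists of the level-one data
  choose d' hd' using fun i => htw1 (d i)
  choose c' hc' using fun i => htw1 (c i)
  choose E' hE' using fun j => htw1 (E j)
  have td : ∀ i, Twist σ ⇑(d i) ⇑(d' i) := fun i => ⟨nice_levelOne _, nice_levelOne _, hd' i⟩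
  have tc : ∀ i, Twist σ ⇑(c i) ⇑(c' i) := fun i => ⟨nice_levelOne _, nice_levelOne _, hc' i⟩
  have tE : ∀ j, Twist σ ⇑(E j) ⇑(E' j) := fun j => ⟨nice_levelOne _, nice_levelOne _, hE' j⟩
  have hv := nice_of_modularForm_Gamma0 v
  have hf := nice_of_cuspForm_Gamma0 f
  have tv : Twist σ ⇑v ⇑v := ⟨hv, hv, hvσ.symm⟩
  -- the functions D, G and their twists
  have hDeq : D = ∑ i ∈ Finset.range (m + 1), ⇑(d i) * (⇑v) ^ (m - i) := by
    ext z; simp [hD z]
  have hGeq : ⇑f * D = ∑ i ∈ Finset.range (m + 1), ⇑(c i) * (⇑v) ^ (m - i) := by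
    ext z; simp [hfD z]
  set D' : ℍ → ℂ := ∑ i ∈ Finset.range (m + 1), ⇑(d' i) * (⇑v) ^ (m - i) with hD'def
  set G' : ℍ → ℂ := ∑ i ∈ Finset.range (m + 1), ⇑(c' i) * (⇑v) ^ (m - i) with hG'def
  have tD : Twist σ D D' := by
    rw [hDeq]
    exact Twist.sum _ fun i _ => (td i).mul (tv.pow _)
  have tG : Twist σ (⇑f * D) G' := by
    rw [hGeq]
    exact Twist.sum _ fun i _ => (tc i).mul (tv.pow _)
  have hD'0 : D' ≠ 0 := by
    intro h0
    apply hD0
    apply tD.left.eq_zero_of_qExpansion_eq_zero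
    apply twistB_map_injective σ
    rw [← tD.eq, h0, UpperHalfPlane.qExpansion_zero, map_zero]
  -- the relation satisfied by G, D and its twist
  have hσ : ∀ j : ℕ, σ ((-1 : ℂ) ^ (j + 1)) = (-1 : ℂ) ^ (j + 1) := fun j => by simp
  have hR : (⇑f * D) ^ (n + 1) + ∑ j ∈ Finset.range (n + 1),
      ((-1 : ℂ) ^ (j + 1)) • (⇑(E (j + 1)) * (⇑f * D) ^ (n - j) * D ^ (j + 1)) = 0 := by
    ext z
    simp only [Pi.add_apply, Pi.pow_apply, Pi.mul_apply, Finset.sum_apply, Pi.smul_apply,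
      smul_eq_mul, Pi.zero_apply]
    have h1 : ∀ j ∈ Finset.range (n + 1),
        (-1 : ℂ) ^ (j + 1) * (E (j + 1) z * (f z * D z) ^ (n - j) * D z ^ (j + 1))
          = D z ^ (n + 1) * ((-1) ^ (j + 1) * E (j + 1) z * f z ^ (n - j)) := by
      intro j hj
      have hj' : j ≤ n := Nat.lt_succ_iff.mp (Finset.mem_range.mp hj)
      have : D z ^ (n + 1) = D z ^ (n - j) * D z ^ (j + 1) := by
        rw [← pow_add]; congr 1; omega
      rw [this, mul_pow]
      ring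
    rw [Finset.sum_congr rfl h1, ← Finset.mul_sum, mul_pow, mul_comm (f z ^ (n + 1)), ← mul_add,
      hE z, mul_zero]
  have tR : Twist σ (0 : ℍ → ℂ) (G' ^ (n + 1) + ∑ j ∈ Finset.range (n + 1),
      ((-1 : ℂ) ^ (j + 1)) • (⇑(E' (j + 1)) * G' ^ (n - j) * D' ^ (j + 1))) := by
    rw [← hR]
    refine (tG.pow _).add (Twist.sum _ fun j _ => ?_)
    have := Twist.smul ((-1 : ℂ) ^ (j + 1)) (((tE (j + 1)).mul (tG.pow (n - j))).mul (tD.pow (j + 1)))
    rwa [hσ j] at this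
  have hR' := tR.eq_zero
  -- division
  have hG'holo : MDiff G' := tG.right.holo
  have hD'holo : MDiff D' := tD.right.holo
  obtain ⟨F, hFholo, hFD, hFroot⟩ := exists_mdiff_quotient
    (fun (j : Fin (n + 1)) (z : ℍ) => (-1 : ℂ) ^ ((j : ℕ) + 1) * E' ((j : ℕ) + 1) z)
    (fun j => by
      have h := (nice_levelOne (E' ((j : ℕ) + 1))).smul ((-1 : ℂ) ^ ((j : ℕ) + 1))
      exact h.holo)
    G' D' hG'holo hD'holo hD'0 (by
      intro z
      have h := congrFun hR' z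
      simp only [Pi.add_apply, Pi.pow_apply, Pi.mul_apply, Finset.sum_apply, Pi.smul_apply,
        smul_eq_mul, Pi.zero_apply] at h
      rw [← h]
      congr 1
      rw [Fin.sum_univ_eq_sum_range (fun j => (-1 : ℂ) ^ (j + 1) * E' (j + 1) z
        * G' z ^ (n - j) * D' z ^ (j + 1)) (n + 1)]
      refine Finset.sum_congr rfl fun j _ => ?_
      ring)
  have hFroot' : ∀ z, F z ^ (n + 1) + ∑ j ∈ Finset.range (n + 1),
      (-1) ^ (j + 1) * E' (j + 1) z * F z ^ (n - j) = 0 := by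
    intro z
    rw [← hFroot z]
    congr 1
    rw [Fin.sum_univ_eq_sum_range (fun j => (-1 : ℂ) ^ (j + 1) * E' (j + 1) z
        * F z ^ (n - j)) (n + 1)]
  have hFDfun : G' = F * D' := by
    ext z; simp [hFD z]
  -- invariance under Gamma0 N
  have hinv : ∀ γ : SL(2, ℤ), γ ∈ CongruenceSubgroup.Gamma0 N → F ∣[k] γ = F := by
    intro γ hγ
    have h1 : G' ∣[k + m * k2] γ = G' := twistB_sum_slash m c' v γ hγ
    have h2 : D' ∣[(0 : ℤ) + m * k2] γ = D' := by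
      exact twistB_sum_slash (k := 0) m (fun i => ModularForm.mcast (by ring) (d' i)) v γ hγ
    have h3 : (F ∣[k] γ - F) * D' = 0 := by
      have h4 : (F * D') ∣[k + m * k2] γ = F ∣[k] γ * D' ∣[(0 : ℤ) + m * k2] γ :=
        twistB_slash_mul (by ring) γ F D'
      rw [sub_mul, ← h2, ← h4, h2, ← hFDfun, h1, sub_self]
    have h6 : MDiff (F ∣[k] γ) := by
      rw [ModularForm.SL_slash]
      exact hFholo.slash k _
    have h5 := eq_zero_of_mul_eq_zero_of_mdiff (h6.sub hFholo) hD'holo hD'0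
      (fun z => congrFun h3 z)
    exact sub_eq_zero.mp h5
  -- vanishing at all cusps
  have hE0' : ∀ j, 1 ≤ j → IsZeroAtImInfty (E' j) := fun j hj =>
    isZeroAtImInfty_of_levelOne_twist σ (E j) (E' j) (hE' j) (hE0 j hj)
  have hzero : ∀ γ : SL(2, ℤ), IsZeroAtImInfty (F ∣[k] γ) := fun γ =>
    isZeroAtImInfty_slash_of_monic F E' hE0' hFroot' γ
  obtain ⟨f', hf'⟩ := exists_cuspForm_of_slash N k F hFholo hinv hzero
  refine ⟨f', ?_⟩
  have hFnice : Nice F := hf' ▸ nice_of_cuspForm_Gamma0 f'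
  have hq1 : qExpansion 1 G' = qExpansion 1 F * qExpansion 1 D' := by
    rw [hFDfun, hFnice.qExpansion_mul tD.right]
  have hq2 : qExpansion 1 G' = (qExpansion 1 f).map σ * qExpansion 1 D' := by
    rw [tG.eq, hf.qExpansion_mul tD.left, map_mul, tD.eq]
  have hq3 : qExpansion 1 D' ≠ 0 := fun h => hD'0 (tD.right.eq_zero_of_qExpansion_eq_zero h)
  rw [hf']
  exact mul_right_cancel₀ hq3 (hq1.symm.trans hq2)

end Fermat.Agent.S23
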