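import Mathlib
import Fermat.Agent.S23.Defs
import Fermat.Agent.S23.Nice
import Fermat.Agent.S23.TNForm
import Fermat.Agent.S23.Conjugates
import Fermat.Agent.S23.LevelOne
import Fermat.Agent.S23.Denominators
import Fermat.Agent.S23.RationalSpan
import Fermat.Agent.S23.Sym
import Fermat.Agent.S23.TwistBackup
import Fermat.Prelude.Def_CuspForm_IntegralStructure

/-!
Final assembly for S23: every space of cusp forms on `Gamma0 N` is spanned by forms with
integral q-expansion.
-/

set_option autoImplicit false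

open UpperHalfPlane ModularForm Filter
open scoped MatrixGroups Manifold

namespace Fermat.Agent.S23

theorem TN_qExpansion_map (N : ℕ) [NeZero N] (σ : ℂ →+* ℂ) :
    (qExpansion 1 (TNForm N)).map σ = qExpansion 1 (TNForm N) := by
  ext n
  obtain ⟨m, hm⟩ := TN_qExpansion_coeff_int N discriminant_qExpansion_coeff_int n
  rw [PowerSeries.coeff_map, coe_TNForm, hm, map_intCast]

/-- every cusp form on `Gamma0 N` has a twist by any ring endomorphism of `ℂ` -/
theorem exists_twist (σ : ℂ →+* ℂ) {N : ℕ} [NeZero N] {k : ℤ}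
    (f : CuspForm (CongruenceSubgroup.Gamma0 N) k) :
    ∃ f' : CuspForm (CongruenceSubgroup.Gamma0 N) k,
      qExpansion 1 f' = (qExpansion 1 f).map σ := by
  obtain ⟨n, E, hE0, hE⟩ := exists_charpoly f
  obtain ⟨m, D, d, c, hD0, hD, hfD⟩ := exists_interp f (TNForm N)
    (fun γ h => mem_Gamma0_of_TN_slash_eq N γ h)
  exact twistB_exists_twist_of_data σ f (TNForm N) (TN_qExpansion_map N σ)
    (fun g => levelOne_exists_twist σ g) n E hE0 hE m D d c hD0 hD hfD

theorem qExpansion_mem_BD_of_rational {N : ℕ} [NeZero N] {k : ℤ}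
    (f : CuspForm (CongruenceSubgroup.Gamma0 N) k)
    (hf : ∀ n, ∃ r : ℚ, (qExpansion 1 f).coeff n = (r : ℂ)) :
    qExpansion 1 f ∈ BD := by
  obtain ⟨n, E, -, hE⟩ := exists_charpoly f
  obtain ⟨m, D, d, c, hD0, hD, hfD⟩ := exists_interp f (TNForm N)
    (fun γ h => mem_Gamma0_of_TN_slash_eq N γ h)
  have hf' := nice_of_cuspForm_Gamma0 f
  have hT := nice_TN N
  have hDeq : D = ∑ i ∈ Finset.range (m + 1), ⇑(d i) * (TN N) ^ (m - i) := by
    ext z
    simp [hD z, coe_TNForm]
  have hGeq : ⇑f * D = ∑ i ∈ Finset.range (m + 1), ⇑(c i) * (TN N) ^ (m - i) := by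
    ext z
    simp [hfD z, coe_TNForm]
  have hDnice : Nice D := by
    rw [hDeq]
    exact Nice.sum _ (fun i _ => (nice_levelOne (d i)).mul (hT.pow _))
  have hqD : qExpansion 1 D = ∑ i ∈ Finset.range (m + 1),
      qExpansion 1 (d i) * qExpansion 1 (TN N) ^ (m - i) := by
    rw [hDeq, Nice.qExpansion_sum _ (fun i _ => (nice_levelOne (d i)).mul (hT.pow _))]
    refine Finset.sum_congr rfl fun i _ => ?_
    rw [(nice_levelOne (d i)).qExpansion_mul (hT.pow _), hT.qExpansion_pow]
  have hqG : qExpansion 1 f * qExpansion 1 D = ∑ i ∈ Finset.range (m + 1),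
      qExpansion 1 (c i) * qExpansion 1 (TN N) ^ (m - i) := by
    rw [← hf'.qExpansion_mul hDnice, hGeq,
      Nice.qExpansion_sum _ (fun i _ => (nice_levelOne (c i)).mul (hT.pow _))]
    refine Finset.sum_congr rfl fun i _ => ?_
    rw [(nice_levelOne (c i)).qExpansion_mul (hT.pow _), hT.qExpansion_pow]
  have hTbd : qExpansion 1 (TN N) ∈ bdAlg :=
    BD_subset_bdAlg ⟨1, one_pos, fun n => by
      simpa using TN_qExpansion_coeff_int N discriminant_qExpansion_coeff_int n⟩
  have hDbd : qExpansion 1 D ∈ bdAlg := by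
    rw [hqD]
    exact sum_mem fun i _ => mul_mem (levelOne_qExpansion_mem_bdAlg _) (pow_mem hTbd _)
  have hGbd : qExpansion 1 f * qExpansion 1 D ∈ bdAlg := by
    rw [hqG]
    exact sum_mem fun i _ => mul_mem (levelOne_qExpansion_mem_bdAlg _) (pow_mem hTbd _)
  have hD0' : qExpansion 1 D ≠ 0 := fun h => hD0 (hDnice.eq_zero_of_qExpansion_eq_zero h)
  have hfun : (⇑f) ^ (n + 1) + ∑ j ∈ Finset.range (n + 1),
      ((-1 : ℂ) ^ (j + 1)) • (⇑(E (j + 1)) * (⇑f) ^ (n - j)) = 0 := by
    ext z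
    have := hE z
    simp only [Pi.add_apply, Pi.pow_apply, Finset.sum_apply, Pi.smul_apply, Pi.mul_apply,
      smul_eq_mul, Pi.zero_apply]
    rw [← this]
    congr 1
    refine Finset.sum_congr rfl fun j _ => ?_
    ring
  have hmon : (qExpansion 1 f) ^ (n + 1) + ∑ j : Fin (n + 1),
      ((-1 : ℂ) ^ ((j : ℕ) + 1) • qExpansion 1 (E ((j : ℕ) + 1)))
        * (qExpansion 1 f) ^ (n - (j : ℕ)) = 0 := by
    have hterm : ∀ j ∈ Finset.range (n + 1),
        Nice (((-1 : ℂ) ^ (j + 1)) • (⇑(E (j + 1)) * (⇑f) ^ (n - j))) :=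
      fun j _ => Nice.smul _ ((nice_levelOne (E (j + 1))).mul (hf'.pow _))
    have h := congrArg (qExpansion 1) hfun
    rw [(hf'.pow _).qExpansion_add (Nice.sum _ hterm), hf'.qExpansion_pow,
      Nice.qExpansion_sum _ hterm, UpperHalfPlane.qExpansion_zero] at h
    rw [← h]
    congr 1
    rw [Fin.sum_univ_eq_sum_range (fun j => ((-1 : ℂ) ^ (j + 1) • qExpansion 1 (E (j + 1)))
        * (qExpansion 1 f) ^ (n - j)) (n + 1)]
    refine Finset.sum_congr rfl fun j _ => ?_
    rw [Nice.qExpansion_smul _ ((nice_levelOne (E (j + 1))).mul (hf'.pow _)),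
      (nice_levelOne (E (j + 1))).qExpansion_mul (hf'.pow _), hf'.qExpansion_pow, smul_mul_assoc]
  exact mem_BD_of_integral_of_fraction (qExpansion 1 f) hf
    (fun j : Fin (n + 1) => (-1 : ℂ) ^ ((j : ℕ) + 1) • qExpansion 1 (E ((j : ℕ) + 1)))
    (fun j => Subalgebra.smul_mem _ (levelOne_qExpansion_mem_bdAlg _) _) hmon _ _ hGbd hDbd hD0' rfl

/-- **Integral structure**: cusp forms on `Gamma0 N` of any weight are spanned by the forms
with integral q-expansion. -/
theorem hasIntegralStructure (N : ℕ) [NeZero N] (k : ℤ) : CuspForm.HasIntegralStructure N k := by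
  unfold CuspForm.HasIntegralStructure
  rw [eq_top_iff, ← span_rational_of_twist N k (fun σ f => exists_twist σ f)]
  apply Submodule.span_le.mpr
  intro f hf
  obtain ⟨M, hM, hMf⟩ := qExpansion_mem_BD_of_rational f hf
  have hf' := nice_of_cuspForm_Gamma0 f
  have h1 : (M : ℂ) • f ∈ (CuspForm.intLattice N k : Set (CuspForm (CongruenceSubgroup.Gamma0 N) k)) := by
    apply Submodule.subset_span
    intro n
    show ∃ m : ℤ, ModularFormClass.qCoeff (⇑((M : ℂ) • f)) n = (m : ℂ)
    unfold ModularFormClass.qCoeff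
    rw [FunLike.coe_smul, hf'.qExpansion_smul]
    simpa using hMf n
  have hM0 : (M : ℂ) ≠ 0 := by exact_mod_cast hM.ne'
  have h2 : f = ((M : ℂ))⁻¹ • ((M : ℂ) • f) := by
    rw [smul_smul, inv_mul_cancel₀ hM0, one_smul]
  rw [h2]
  exact Submodule.smul_mem _ _ (Submodule.subset_span h1)

end Fermat.Agent.S23
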