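import Mathlib
import Fermat.Prelude.Def_CuspForm_HeckeAlgebra
import Fermat.Prelude.Def_CuspForm_IntegralStructure
import Fermat.Prelude.Thm_CuspForm_intLattice_fg
import Fermat.Prelude.Thm_CuspForm_mem_intLattice_of_mem_heckeAlgebra
import Fermat.Prelude.Thm_ModularForm_sturm_bound_Gamma0
import Fermat.Prelude.Thm_CongruenceSubgroup_one_mem_strictPeriods_Gamma0

/-!
# The Hecke algebra is a finitely generated `ℤ`-module, given the integral structure

Glue for S22: if the integral lattice of `S_k(Γ₀(N))` spans (for `k ≥ 1`), then the Hecke algebra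
embeds into a finite product of copies of the (finitely generated) lattice.  For `k ≤ 0` the
space of cusp forms is zero.
-/

set_option autoImplicit false

namespace Fermat.Agent.S23

open CongruenceSubgroup

/-- Cusp forms of weight `≤ 0` on `Γ₀(N)` vanish (Sturm bound `0`). -/
theorem heckeFinite_cuspForm_eq_zero_of_nonpos (N : ℕ) [NeZero N] {k : ℤ} (hk : k ≤ 0)
    (f : CuspForm (Gamma0 N) k) : f = 0 := by
  have h1 := CongruenceSubgroup.one_mem_strictPeriods_Gamma0 N
  have hB : (k * ((Gamma0 N).index : ℤ)).toNat / 12 = 0 := by
    have h2 : k * ((Gamma0 N).index : ℤ) ≤ 0 :=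
      mul_nonpos_of_nonpos_of_nonneg hk (Int.natCast_nonneg _)
    rw [Int.toNat_of_nonpos h2]
  have hF : (ModularFormClass.modularForm f : ModularForm (Gamma0 N) k) = 0 := by
    apply ModularForm.sturm_bound_Gamma0 N
    intro n hn
    rw [hB] at hn
    obtain rfl : n = 0 := by omega
    exact CuspFormClass.qExpansion_coeff_zero f one_pos h1
  ext z
  have := DFunLike.congr_fun hF z
  simpa using this

/-- S22 from the integral structure. -/
theorem moduleFinite_heckeAlgebra_of_hasIntegralStructure (N : ℕ) [NeZero N] (k : ℤ)
    (S : Set ℕ) (h : 1 ≤ k → CuspForm.HasIntegralStructure N k) :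
    Module.Finite ℤ (CuspForm.heckeAlgebra N k S) := by
  classical
  rcases lt_or_ge k 1 with hk | hk
  · -- weight `≤ 0`: everything is zero
    have hsub : Subsingleton (CuspForm (Gamma0 N) k) :=
      ⟨fun f g => by
        rw [heckeFinite_cuspForm_eq_zero_of_nonpos N (by omega) f,
          heckeFinite_cuspForm_eq_zero_of_nonpos N (by omega) g]⟩
    have hsub2 : Subsingleton (Module.End ℂ (CuspForm (Gamma0 N) k)) :=
      ⟨fun s t => LinearMap.ext fun f => Subsingleton.elim _ _⟩
    have hsub3 : Subsingleton (CuspForm.heckeAlgebra N k S) :=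
      ⟨fun s t => Subtype.ext (Subsingleton.elim _ _)⟩
    exact Module.Finite.of_finite
  · have hspan : Submodule.span ℂ
        ((CuspForm.intLattice N k : Submodule ℤ (CuspForm (Gamma0 N) k)) :
          Set (CuspForm (Gamma0 N) k)) = ⊤ := h hk
    obtain ⟨G, hG⟩ := CuspForm.intLattice_fg N k
    have hGtop : Submodule.span ℂ (G : Set (CuspForm (Gamma0 N) k)) = ⊤ := by
      rw [← hspan, ← hG, Submodule.span_span_of_tower]
    have hmem : ∀ (t : CuspForm.heckeAlgebra N k S) (g : G),
        (t : Module.End ℂ (CuspForm (Gamma0 N) k)) (g : CuspForm (Gamma0 N) k) ∈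
          CuspForm.intLattice N k := by
      intro t g
      refine CuspForm.mem_intLattice_of_mem_heckeAlgebra hk t.2 ?_
      rw [← hG]
      exact Submodule.subset_span g.2
    let φ : CuspForm.heckeAlgebra N k S →ₗ[ℤ] (G → CuspForm.intLattice N k) :=
      { toFun := fun t g => ⟨_, hmem t g⟩
        map_add' := fun s t => by
          funext g
          apply Subtype.ext
          simp
        map_smul' := fun c t => by
          funext g
          apply Subtype.ext
          simp }
    have hφ : Function.Injective φ := by
      intro s t hst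
      apply Subtype.ext
      apply LinearMap.ext_on hGtop
      intro g hg
      have := congrArg Subtype.val (congrFun hst ⟨g, hg⟩)
      exact this
    have : Module.Finite ℤ (CuspForm.intLattice N k) :=
      Module.Finite.iff_fg.mpr (CuspForm.intLattice_fg N k)
    exact Module.Finite.of_injective φ hφ

end Fermat.Agent.S23
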