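import Mathlib
import Fermat.Agent.S23.Defs
import Fermat.Agent.S23.Nice
import Fermat.Agent.S23.Division
import Fermat.Agent.S23.RootDecay
import Fermat.Agent.S23.TNForm

/-!
Module K (Twist) of the S23 project: from "characteristic polynomial" data and "interpolation"
data over level one modular forms, construct the `σ`-twist of a cusp form on `Gamma0 N`.
-/

set_option autoImplicit false

open UpperHalfPlane ModularForm Filter
open scoped MatrixGroups Manifold

namespace Fermat.Agent.S23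

/-- A nice function tends to the constant coefficient of its q-expansion at `i∞`. -/
theorem Nice.tendsto_coeff_zero {F : ℍ → ℂ} (hF : Nice F) :
    Tendsto F atImInfty (nhds ((qExpansion 1 F).coeff 0)) := by
  have h1 : (cuspFunction 1 F ∘ fun τ : ℍ => Function.Periodic.qParam 1 τ : ℍ → ℂ) = F := by
    funext τ
    simpa using eq_cuspFunction τ one_ne_zero hF.per
  have h2 := hF.analyticAt.continuousAt.tendsto.comp (qParam_tendsto_atImInfty one_pos)
  rw [h1] at h2
  have h3 : (qExpansion 1 F).coeff 0 = cuspFunction 1 F 0 := by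
    simp [qExpansion_coeff]
  rw [h3]
  exact h2

/-- Transformation law of a level one modular form, pointwise. -/
theorem twist_levelOne_apply_smul {k' : ℤ} (g : ModularForm 𝒮ℒ k') (γ : SL(2, ℤ)) (z : ℍ) :
    g (γ • z) = denom γ z ^ k' * g z := by
  have hγ : (γ : GL (Fin 2) ℝ) ∈ 𝒮ℒ := ⟨γ, rfl⟩
  exact SlashInvariantForm.slash_action_eqn'' g hγ z

/-- Transformation law of a modular form on `Gamma0 N`, pointwise. -/
theorem twist_Gamma0_apply_smul {N : ℕ} {k' : ℤ}
    (g : ModularForm (CongruenceSubgroup.Gamma0 N) k')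
    (γ : SL(2, ℤ)) (hγ : γ ∈ CongruenceSubgroup.Gamma0 N) (z : ℍ) :
    g (γ • z) = denom γ z ^ k' * g z :=
  SlashInvariantForm.slash_action_eqn_SL'' g hγ z

/-- Transformation law of an interpolation sum `∑ i, a i * v ^ (m - i)` with `a i` of level one
and weight `k0 + i * k2`, and `v` of weight `k2` on `Gamma0 N`. -/
theorem twist_sum_apply_smul {N : ℕ} {k0 k2 : ℤ} (m : ℕ)
    (a : (i : ℕ) → ModularForm 𝒮ℒ (k0 + i * k2))
    (v : ModularForm (CongruenceSubgroup.Gamma0 N) k2)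
    (γ : SL(2, ℤ)) (hγ : γ ∈ CongruenceSubgroup.Gamma0 N) (z : ℍ) :
    ∑ i ∈ Finset.range (m + 1), a i (γ • z) * v (γ • z) ^ (m - i) =
      denom γ z ^ (k0 + m * k2) * ∑ i ∈ Finset.range (m + 1), a i z * v z ^ (m - i) := by
  have hj : denom γ z ≠ 0 := denom_ne_zero _ z
  rw [Finset.mul_sum]
  apply Finset.sum_congr rfl
  intro i hi
  have hi' : i ≤ m := Nat.lt_succ_iff.mp (Finset.mem_range.mp hi)
  rw [twist_levelOne_apply_smul, twist_Gamma0_apply_smul v γ hγ, mul_pow]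
  have h1 : denom γ z ^ (k0 + (m : ℤ) * k2)
      = denom γ z ^ (k0 + (i : ℤ) * k2) * (denom γ z ^ k2) ^ (m - i) := by
    rw [← zpow_natCast (denom γ z ^ k2) (m - i), ← zpow_mul, ← zpow_add₀ hj]
    congr 1
    push_cast [Nat.cast_sub hi']
    ring
  rw [h1]
  ring

theorem exists_twist_of_data (σ : ℂ →+* ℂ) {N : ℕ} [NeZero N] {k k2 : ℤ}
    (f : CuspForm (CongruenceSubgroup.Gamma0 N) k)
    (v : ModularForm (CongruenceSubgroup.Gamma0 N) k2)
    (hvσ : (qExpansion 1 v).map σ = qExpansion 1 v)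
    (htw1 : ∀ {k' : ℤ} (g : ModularForm 𝒮ℒ k'),
      ∃ g' : ModularForm 𝒮ℒ k', qExpansion 1 g' = (qExpansion 1 g).map σ)
    (n : ℕ) (E : (j : ℕ) → ModularForm 𝒮ℒ (j * k))
    (hE0 : ∀ j, 1 ≤ j → IsZeroAtImInfty (E j))
    (hE : ∀ z, f z ^ (n + 1) + ∑ j ∈ Finset.range (n + 1),
        (-1) ^ (j + 1) * E (j + 1) z * f z ^ (n - j) = 0)
    (m : ℕ) (D : ℍ → ℂ) (d : (i : ℕ) → ModularForm 𝒮ℒ (i * k2))
    (c : (i : ℕ) → ModularForm 𝒮ℒ (k + i * k2)) (hD0 : D ≠ 0)
    (hD : ∀ z, D z = ∑ i ∈ Finset.range (m + 1), d i z * v z ^ (m - i))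
    (hfD : ∀ z, f z * D z = ∑ i ∈ Finset.range (m + 1), c i z * v z ^ (m - i)) :
    ∃ f' : CuspForm (CongruenceSubgroup.Gamma0 N) k,
      qExpansion 1 f' = (qExpansion 1 f).map σ := by
  classical
  -- twists of the level one data
  choose E' hE' using fun j => htw1 (E j)
  choose d' hd' using fun i => htw1 (d i)
  choose c' hc' using fun i => htw1 (c i)
  have tE : ∀ j, Twist σ (⇑(E j)) (⇑(E' j)) :=
    fun j => ⟨nice_levelOne _, nice_levelOne _, hE' j⟩
  have td : ∀ i, Twist σ (⇑(d i)) (⇑(d' i)) :=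
    fun i => ⟨nice_levelOne _, nice_levelOne _, hd' i⟩
  have tc : ∀ i, Twist σ (⇑(c i)) (⇑(c' i)) :=
    fun i => ⟨nice_levelOne _, nice_levelOne _, hc' i⟩
  have tv : Twist σ (⇑v) (⇑v) :=
    Twist.self_of_fixed (nice_of_modularForm_Gamma0 v) (fun n => by
      have := congrArg (PowerSeries.coeff n) hvσ
      simpa using this)
  have nf : Nice (⇑f) := nice_of_cuspForm_Gamma0 f
  -- `D`, `f * D` and their twists
  set D' : ℍ → ℂ := ∑ i ∈ Finset.range (m + 1), ⇑(d' i) * ⇑v ^ (m - i) with hD'def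
  set C' : ℍ → ℂ := ∑ i ∈ Finset.range (m + 1), ⇑(c' i) * ⇑v ^ (m - i) with hC'def
  have hDfun : D = ∑ i ∈ Finset.range (m + 1), ⇑(d i) * ⇑v ^ (m - i) := by
    funext z
    rw [hD z]
    simp [Finset.sum_apply]
  have hfDfun : ⇑f * D = ∑ i ∈ Finset.range (m + 1), ⇑(c i) * ⇑v ^ (m - i) := by
    funext z
    rw [Pi.mul_apply, hfD z]
    simp [Finset.sum_apply]
  have tD : Twist σ D D' := by
    rw [hDfun]
    exact Twist.sum _ fun i _ => (td i).mul (tv.pow _)
  have tC : Twist σ (⇑f * D) C' := by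
    rw [hfDfun]
    exact Twist.sum _ fun i _ => (tc i).mul (tv.pow _)
  -- `D' ≠ 0`
  have hinj : Function.Injective (PowerSeries.map σ) := PowerSeries.map_injective σ σ.injective
  have hqD : qExpansion 1 D ≠ 0 := fun h => hD0 (tD.left.eq_zero_of_qExpansion_eq_zero h)
  have hqD' : qExpansion 1 D' ≠ 0 := by
    rw [tD.eq]
    intro h
    apply hqD
    apply hinj
    rw [h, map_zero]
  have hD'0 : D' ≠ 0 := by
    intro h
    apply hqD'
    rw [h, UpperHalfPlane.qExpansion_zero]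
  -- the twisted homogenised relation
  have t1 : Twist σ (fun _ : ℍ => (1 : ℂ)) (fun _ : ℍ => (1 : ℂ)) := by
    simpa using Twist.const (σ := σ) 1
  have tS : ∀ j : ℕ, Twist σ ((-(fun _ : ℍ => (1 : ℂ))) ^ (j + 1))
      ((-(fun _ : ℍ => (1 : ℂ))) ^ (j + 1)) := fun j => t1.neg.pow _
  set Φ : ℍ → ℂ := (⇑f * D) ^ (n + 1) + ∑ j ∈ Finset.range (n + 1),
      ((-(fun _ : ℍ => (1 : ℂ))) ^ (j + 1) * ⇑(E (j + 1))) * (⇑f * D) ^ (n - j) * D ^ (j + 1)
    with hΦ
  set Φ' : ℍ → ℂ := C' ^ (n + 1) + ∑ j ∈ Finset.range (n + 1),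
      ((-(fun _ : ℍ => (1 : ℂ))) ^ (j + 1) * ⇑(E' (j + 1))) * C' ^ (n - j) * D' ^ (j + 1)
    with hΦ'
  have tΦ : Twist σ Φ Φ' :=
    (tC.pow _).add (Twist.sum _ fun j _ =>
      (((tS j).mul (tE (j + 1))).mul (tC.pow _)).mul (tD.pow _))
  have hΦ0 : Φ = 0 := by
    funext z
    have h1 := hE z
    simp only [hΦ, Pi.add_apply, Pi.pow_apply, Pi.mul_apply, Finset.sum_apply, Pi.neg_apply,
      Pi.zero_apply]
    have h2 : (f z * D z) ^ (n + 1) + ∑ j ∈ Finset.range (n + 1),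
          (-1) ^ (j + 1) * E (j + 1) z * (f z * D z) ^ (n - j) * D z ^ (j + 1)
        = D z ^ (n + 1) * (f z ^ (n + 1) + ∑ j ∈ Finset.range (n + 1),
            (-1) ^ (j + 1) * E (j + 1) z * f z ^ (n - j)) := by
      rw [mul_add, Finset.mul_sum, mul_pow]
      congr 1
      · ring
      · apply Finset.sum_congr rfl
        intro j hj
        have hj' : j ≤ n := Nat.lt_succ_iff.mp (Finset.mem_range.mp hj)
        have hsplit : D z ^ (n + 1) = D z ^ (n - j) * D z ^ (j + 1) := by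
          rw [← pow_add]; congr 1; omega
        rw [hsplit, mul_pow]
        ring
    rw [h2, h1, mul_zero]
  have hΦ'0 : Φ' = 0 := by
    rw [hΦ0] at tΦ
    exact tΦ.eq_zero
  -- division
  obtain ⟨F, hFmd, hCF, hFrel⟩ := exists_mdiff_quotient
    (fun (j : Fin (n + 1)) (z : ℍ) => (-1) ^ ((j : ℕ) + 1) * E' ((j : ℕ) + 1) z)
    (fun j => ((Nice.const ((-1) ^ ((j : ℕ) + 1))).mul (nice_levelOne (E' ((j : ℕ) + 1)))).holo)
    C' D' tC.right.holo tD.right.holo hD'0 (fun z => by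
      have h1 := congrFun hΦ'0 z
      simp only [hΦ', Pi.add_apply, Pi.pow_apply, Pi.mul_apply, Finset.sum_apply, Pi.neg_apply,
        Pi.zero_apply] at h1
      rw [Finset.sum_range] at h1
      exact h1)
  -- transformation laws of `D'` and `C'` under `Gamma0 N`
  have hD'γ : ∀ γ : SL(2, ℤ), γ ∈ CongruenceSubgroup.Gamma0 N → ∀ z : ℍ,
      D' (γ • z) = denom γ z ^ ((m : ℤ) * k2) * D' z := by
    intro γ hγ z
    have h1 := twist_sum_apply_smul (k0 := 0) m
      (fun i => (ModularForm.mcast (by ring) (d' i) : ModularForm 𝒮ℒ (0 + (i : ℤ) * k2))) v γ hγ z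
    simp only [hD'def, Finset.sum_apply, Pi.mul_apply, Pi.pow_apply]
    rw [zero_add] at h1
    exact h1
  have hC'γ : ∀ γ : SL(2, ℤ), γ ∈ CongruenceSubgroup.Gamma0 N → ∀ z : ℍ,
      C' (γ • z) = denom γ z ^ (k + (m : ℤ) * k2) * C' z := by
    intro γ hγ z
    have h1 := twist_sum_apply_smul m c' v γ hγ z
    simp only [hC'def, Finset.sum_apply, Pi.mul_apply, Pi.pow_apply]
    exact h1
  -- slash invariance of `F`
  have hslash : ∀ γ : SL(2, ℤ), γ ∈ CongruenceSubgroup.Gamma0 N → F ∣[k] γ = F := by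
    intro γ hγ
    have hG : MDiff (F ∣[k] γ - F) := (hFmd.slash k _).sub hFmd
    have h0 := eq_zero_of_mul_eq_zero_of_mdiff hG tD.right.holo hD'0 (fun z => by
      have hj : denom γ z ≠ 0 := denom_ne_zero _ z
      have e1 := hCF (γ • z)
      rw [hC'γ γ hγ z, hD'γ γ hγ z, hCF z, zpow_add₀ hj] at e1
      have hj2 : denom γ z ^ ((m : ℤ) * k2) ≠ 0 := zpow_ne_zero _ hj
      have hj1 : denom γ z ^ k ≠ 0 := zpow_ne_zero _ hj
      have e2 : denom γ z ^ k * (F z * D' z) = F (γ • z) * D' z := by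
        apply mul_left_cancel₀ hj2
        linear_combination e1
      rw [Pi.sub_apply, ModularForm.SL_slash_apply, zpow_neg, sub_mul]
      have e3 : F (γ • z) * (denom γ z ^ k)⁻¹ * D' z = F z * D' z := by
        rw [mul_right_comm, ← e2]
        field_simp
      rw [e3, sub_self])
    exact sub_eq_zero.mp h0
  -- vanishing at the cusps
  have hcoef : ∀ j : Fin (n + 1), Tendsto
      (fun z : ℍ => (-1) ^ ((j : ℕ) + 1) * E' ((j : ℕ) + 1) z) atImInfty (nhds 0) := by
    intro j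
    have h1 := (nice_levelOne (E ((j : ℕ) + 1))).tendsto_coeff_zero
    have h2 : Tendsto (⇑(E ((j : ℕ) + 1))) atImInfty (nhds 0) := hE0 _ (Nat.le_add_left 1 _)
    have h3 : (qExpansion 1 (E ((j : ℕ) + 1))).coeff 0 = 0 := tendsto_nhds_unique h1 h2
    have h4 := (nice_levelOne (E' ((j : ℕ) + 1))).tendsto_coeff_zero
    rw [hE', PowerSeries.coeff_map, h3, map_zero] at h4
    simpa using h4.const_mul ((-1 : ℂ) ^ ((j : ℕ) + 1))
  have hzero : ∀ γ : SL(2, ℤ), IsZeroAtImInfty (F ∣[k] γ) := by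
    intro γ
    refine tendsto_zero_of_monic_root
      (fun (j : Fin (n + 1)) (z : ℍ) => (-1) ^ ((j : ℕ) + 1) * E' ((j : ℕ) + 1) z)
      (F ∣[k] γ) hcoef (fun z => ?_)
    have hj : denom γ z ≠ 0 := denom_ne_zero _ z
    have hw : denom γ z ^ k ≠ 0 := zpow_ne_zero _ hj
    have h1 := hFrel (γ • z)
    have h2 : (F ∣[k] γ) z = F (γ • z) / denom γ z ^ k := by
      rw [ModularForm.SL_slash_apply, zpow_neg, div_eq_mul_inv]
    rw [h2]
    apply division_relation_div (fun j : Fin (n + 1) => (-1) ^ ((j : ℕ) + 1) * E' ((j : ℕ) + 1) z)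
      _ _ hw
    rw [← h1]
    congr 1
    apply Finset.sum_congr rfl
    intro j _
    rw [twist_levelOne_apply_smul]
    have h3 : denom γ z ^ ((((j : ℕ) + 1 : ℕ) : ℤ) * k) = (denom γ z ^ k) ^ ((j : ℕ) + 1) := by
      rw [mul_comm, zpow_mul, zpow_natCast]
    rw [h3]
    ring
  -- the cusp form
  let f' : CuspForm (CongruenceSubgroup.Gamma0 N) k :=
    { toFun := F
      slash_action_eq' := by
        intro γ hγ
        obtain ⟨g, hg, rfl⟩ := Subgroup.mem_map.mp hγ
        exact hslash g hg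
      holo' := hFmd
      zero_at_cusps' := by
        intro c hc
        rw [Subgroup.IsArithmetic.isCusp_iff_isCusp_SL2Z] at hc
        rw [OnePoint.isZeroAt_iff_forall_SL2Z hc]
        intro γ _
        exact hzero γ }
  refine ⟨f', ?_⟩
  have nF : Nice (⇑f') := nice_of_cuspForm_Gamma0 f'
  have hFD : (⇑f' : ℍ → ℂ) * D' = C' := by
    funext z
    rw [Pi.mul_apply]
    exact (hCF z).symm
  have e1 : qExpansion 1 (⇑f') * qExpansion 1 D' = (qExpansion 1 ⇑f).map σ * qExpansion 1 D' := by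
    rw [← nF.qExpansion_mul tD.right, hFD, tC.eq, nf.qExpansion_mul tD.left, map_mul, tD.eq]
  exact mul_right_cancel₀ hqD' e1

end Fermat.Agent.S23
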